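/-
S34, bad reduction of `X₀(qM)`: the Gauss valuation of expansions on the function field of
`X₀(N)` over the algebraic numbers.
-/
import Fermat.Agent.Carayol.ValuationsGauss
import Fermat.Prelude.Def_ModularCurve_ArithmeticGalois
import Fermat.Prelude.Def_ModularCurve_X0ModL

set_option autoImplicit false

noncomputable section

namespace Fermat.Agent.BadReduction

open ModularCurve IntermediateField IsLocalRing
open Fermat.Agent.Carayol

local notation "ℚbar" => AlgebraicClosure ℚ

variable {K : Type*} [Field K]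

theorem isFinCoeff_coeffMap_int (f : LaurentSeries ℤ) :
    IsFinCoeff (coeffMap (Int.castRingHom K) f) := by
  refine ⟨Submodule.span ℤ {(1 : K)}, Submodule.fg_span_singleton _, fun n => ?_⟩
  rw [coeffMap_coeff, eq_intCast, ← zsmul_one]
  exact Submodule.smul_mem _ _ (Submodule.subset_span rfl)

theorem coeffEmb_qExpand_jq (d : ℕ) [NeZero d] :
    coeffEmb ℚbar (qExpand ℚ d jq) =
      coeffMap (Int.castRingHom ℚbar) (qExpand ℤ d (jqModC ℤ)) := by
  have hjq : jq = coeffMap (Int.castRingHom ℚ) (jqModC ℤ) := by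
    rw [coeffMap_jqModC]
    rfl
  rw [hjq, coeffEmb, ← coeffMap_qExpand, coeffMap_coeffMap]
  exact coeffMap_congr (RingHom.ext_int _ _) _

theorem modularFunctionFieldBar_le_finFrac (N : ℕ) :
    modularFunctionFieldBar N ≤ finFrac ℚbar := by
  refine IntermediateField.adjoin_le_iff.2 ?_
  rintro _ ⟨z, hz, rfl⟩
  let E : IntermediateField ℚ (LaurentSeries ℚ) :=
    { (finFrac ℚbar).toSubfield.comap (coeffEmb ℚbar) with
      algebraMap_mem' := fun c => by
        show coeffEmb ℚbar _ ∈ finFrac ℚbar
        rw [show algebraMap ℚ (LaurentSeries ℚ) c = HahnSeries.single 0 c from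
          ModularCurve.algebraMap_apply_eq_single c]
        show coeffMap _ _ ∈ _
        rw [coeffMap_single, ← algebraMap_laurentSeries_eq_single]
        exact (finFrac ℚbar).algebraMap_mem _ }
  refine (show modularFunctionFieldFull N ≤ E from ?_) hz
  refine IntermediateField.adjoin_le_iff.2 ?_
  rintro _ ⟨d, hd, -, rfl⟩
  show coeffEmb ℚbar _ ∈ finFrac ℚbar
  rw [coeffEmb_qExpand_jq]
  exact IntermediateField.subset_adjoin _ _ (isFinCoeff_coeffMap_int _)

variable (E : IntermediateField K (LaurentSeries K)) (hE : E ≤ finFrac K) (A : ValuationSubring K)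

/-- The Gauss valuation of expansions. -/
def gaussVal : ValuationSubring E where
  toSubring := (gaussSubring A (residue A)).comap E.val.toRingHom
  mem_or_inv_mem' x := mem_or_inv_mem_gaussSubring (hE x.2)

theorem mem_gaussVal_iff {x : E} :
    x ∈ gaussVal E hE A ↔ (x : LaurentSeries K) ∈ gaussSubring A (residue A) := Iff.rfl

/-- The coefficientwise reduction of expansions. -/
def gaussValRed : gaussVal E hE A →+* LaurentSeries (ResidueField A) :=
  (gaussRed A (residue A)).comp
    ((E.val.toRingHom.comp (gaussVal E hE A).subtype).codRestrict _ fun x => x.2)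

theorem gaussValRed_eq (x : gaussVal E hE A) {y₁ y₂ : LaurentSeries A}
    (h : coeffMap (residue A) y₂ ≠ 0)
    (e : ((x : E) : LaurentSeries K) * coeffMap A.subtype y₂ = coeffMap A.subtype y₁) :
    gaussValRed E hE A x = coeffMap (residue A) y₁ / coeffMap (residue A) y₂ :=
  gaussRedFun_eq _ h e

theorem mem_gaussVal_of_coeffMap {x : E} (y : LaurentSeries A)
    (e : (x : LaurentSeries K) = coeffMap A.subtype y) : x ∈ gaussVal E hE A := by
  rw [mem_gaussVal_iff, e]
  exact coeffMap_mem_gaussSubring y

theorem gaussValRed_coeffMap {x : E} (y : LaurentSeries A)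
    (e : (x : LaurentSeries K) = coeffMap A.subtype y) :
    gaussValRed E hE A ⟨x, mem_gaussVal_of_coeffMap E hE A y e⟩ = coeffMap (residue A) y := by
  rw [gaussValRed_eq E hE A _ (y₁ := y) (y₂ := 1) (by simp)
    (by rw [map_one, mul_one]; exact e)]
  simp

theorem algebraMap_mem_gaussVal_iff {a : K} : algebraMap K E a ∈ gaussVal E hE A ↔ a ∈ A :=
  algebraMap_mem_gaussSubring_iff

theorem gaussValRed_algebraMap (a : A) :
    gaussValRed E hE A ⟨algebraMap K E a, (algebraMap_mem_gaussVal_iff E hE A).2 a.2⟩ =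
      algebraMap (ResidueField A) (LaurentSeries (ResidueField A)) (residue A a) := by
  rw [algebraMap_laurentSeries_eq_single, gaussValRed_coeffMap E hE A (HahnSeries.single 0 a)
    (by
      rw [coeffMap_single]
      exact algebraMap_laurentSeries_eq_single K _)]
  rw [coeffMap_single]

theorem gaussValRed_eq_zero_iff (x : gaussVal E hE A) :
    gaussValRed E hE A x = 0 ↔ ¬ IsUnit x := by
  constructor
  · intro h hu
    exact (hu.map (gaussValRed E hE A)).ne_zero h
  · intro hu
    rcases eq_or_ne (x : E) 0 with hx | hx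
    · rw [show x = 0 from Subtype.ext hx, map_zero]
    · exact gaussRed_eq_zero_of fun hinv => hu (IsUnit.of_mul_eq_one ⟨(x : E)⁻¹, by
        rw [mem_gaussVal_iff]; exact hinv⟩ (Subtype.ext (mul_inv_cancel₀ hx)))

theorem exists_scale_gaussVal {x : E} (hx : x ≠ 0) :
    ∃ c : K, ∃ h : c • x ∈ gaussVal E hE A, gaussValRed E hE A ⟨c • x, h⟩ ≠ 0 := by
  obtain ⟨a, ha, b, hb, hb0, e⟩ := exists_eq_div_of_mem_finFrac (hE x.2)
  have hx0 : (x : LaurentSeries K) ≠ 0 := fun h => hx (Subtype.ext h)
  have ha0 : a ≠ 0 := e ▸ mul_ne_zero hx0 hb0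
  obtain ⟨c, hc, y, hy, hy0⟩ := exists_primitive A (residue A) ha ha0
  obtain ⟨d, hd, z, hz, hz0⟩ := exists_primitive A (residue A) hb hb0
  have key : ((c / d) • x : E).1 * coeffMap A.subtype z = coeffMap A.subtype y := by
    rw [hy, hz, IntermediateField.coe_smul, Algebra.smul_def,
      algebraMap_laurentSeries_eq_single, ← e]
    have h1 : HahnSeries.single (0 : ℤ) (c / d) * HahnSeries.single (0 : ℤ) d
        = HahnSeries.single (0 : ℤ) c := by
      rw [HahnSeries.single_mul_single, add_zero, div_mul_cancel₀ c hd]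
    rw [← h1]
    ring
  have hmem : (c / d) • x ∈ gaussVal E hE A := ⟨y, z, hz0, key⟩
  refine ⟨c / d, hmem, ?_⟩
  rw [gaussValRed_eq E hE A ⟨_, hmem⟩ hz0 key]
  exact div_ne_zero hy0 hz0

end Fermat.Agent.BadReduction

end
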