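/-
S34, bad reduction of `X₀(qM)`: the Atkin-Lehner involution `w_q` of the function field
of `X₀(Mq)` over the algebraic numbers.
-/
import Fermat.Agent.BadReduction.X0Gauss
import Fermat.Agent.ModFun.JFun
import Fermat.Agent.Galois.QbarInstances
import Fermat.Prelude.Def_ModularCurve_HeckeOperator
import Mathlib.RingTheory.MvPolynomial.Basic
import Mathlib.FieldTheory.IsAlgClosed.AlgebraicClosure
import Mathlib.Analysis.Complex.Polynomial.Basic
import Mathlib.Analysis.Analytic.IsolatedZeros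

set_option autoImplicit false
set_option linter.style.haveILetI false

noncomputable section

open Filter UpperHalfPlane ModularCurve IntermediateField CongruenceSubgroup
open scoped MatrixGroups Manifold Topology

namespace Fermat.Agent.BadReduction

open Fermat.Agent.ModFun

local notation "ℚbar" => AlgebraicClosure ℚ

/-- The generator `j (d τ)` as a series over `ℚbar`. -/
def jdBar {N : ℕ} (d : {d : ℕ // d ∈ N.divisors}) : LaurentSeries ℚbar :=
  haveI : NeZero d.1 := ⟨(Nat.pos_of_mem_divisors d.2).ne'⟩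
  coeffEmb ℚbar (qExpand ℚ d.1 jq)

theorem jdBar_mem {N : ℕ} (d : {d : ℕ // d ∈ N.divisors}) :
    jdBar d ∈ modularFunctionFieldBar N :=
  haveI : NeZero d.1 := ⟨(Nat.pos_of_mem_divisors d.2).ne'⟩
  coeffEmb_mem_laurentBaseChange ℚbar (jqd_mem_full N (Nat.dvd_of_mem_divisors d.2))

theorem modularFunctionFieldBar_eq_adjoin (N : ℕ) [NeZero N] :
    modularFunctionFieldBar N = IntermediateField.adjoin ℚbar (Set.range (jdBar (N := N))) := by
  refine le_antisymm ?_ (IntermediateField.adjoin_le_iff.2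
    (by rintro _ ⟨d, rfl⟩; exact jdBar_mem d))
  refine IntermediateField.adjoin_le_iff.2 ?_
  rintro _ ⟨z, hz, rfl⟩
  let E : IntermediateField ℚ (LaurentSeries ℚ) :=
    { (IntermediateField.adjoin ℚbar (Set.range (jdBar (N := N)))).toSubfield.comap
        (coeffEmb ℚbar) with
      algebraMap_mem' := fun c => by
        show coeffEmb ℚbar _ ∈ IntermediateField.adjoin ℚbar (Set.range (jdBar (N := N)))
        rw [show algebraMap ℚ (LaurentSeries ℚ) c = HahnSeries.single 0 c from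
          ModularCurve.algebraMap_apply_eq_single c]
        show coeffMap _ _ ∈ _
        rw [coeffMap_single, ← algebraMap_laurentSeries_eq_single]
        exact IntermediateField.algebraMap_mem _ _ }
  refine (show modularFunctionFieldFull N ≤ E from ?_) hz
  refine IntermediateField.adjoin_le_iff.2 ?_
  rintro _ ⟨d, hd, hdN, rfl⟩
  exact IntermediateField.subset_adjoin _ _ ⟨⟨d, Nat.mem_divisors.2 ⟨hdN, NeZero.ne N⟩⟩, rfl⟩

/-- Exchange `d` and `q d` for `d ∣ M`. -/
def swapDiv (M q : ℕ) (d : ℕ) : ℕ := if q ∣ d then d / q else d * q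

variable {M q : ℕ} [NeZero M] [hq : Fact q.Prime]

local instance neZero_q : NeZero q := ⟨hq.out.ne_zero⟩

omit [NeZero M] in
theorem coprime_of_not_dvd (hqM : ¬ q ∣ M) : Nat.Coprime q M :=
  hq.out.coprime_iff_not_dvd.2 hqM

omit [NeZero M] in
theorem dvd_cases (hqM : ¬ q ∣ M) {d : ℕ} (hd : d ∣ M * q) :
    (d ∣ M ∧ ¬ q ∣ d) ∨ ∃ d', d' ∣ M ∧ d = d' * q := by
  by_cases h : q ∣ d
  · obtain ⟨d', rfl⟩ := h
    rw [mul_comm M q] at hd
    exact Or.inr ⟨d', (Nat.mul_dvd_mul_iff_left hq.out.pos).1 hd, mul_comm _ _⟩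
  · exact Or.inl ⟨((hq.out.coprime_iff_not_dvd.2 h).symm).dvd_of_dvd_mul_right hd, h⟩

theorem swapDiv_mem (hqM : ¬ q ∣ M) {d : ℕ} (hd : d ∈ (M * q).divisors) :
    swapDiv M q d ∈ (M * q).divisors := by
  have hd' := Nat.dvd_of_mem_divisors hd
  refine Nat.mem_divisors.2 ⟨?_, NeZero.ne (M * q)⟩
  rcases dvd_cases hqM hd' with ⟨h, hn⟩ | ⟨d', h, rfl⟩
  · rw [swapDiv, if_neg hn]
    exact mul_dvd_mul_right h q
  · rw [swapDiv, if_pos (dvd_mul_left q d'), Nat.mul_div_cancel _ hq.out.pos]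
    exact h.trans (dvd_mul_right M q)

/-- A holomorphic function on the upper half plane which vanishes near `i∞` vanishes. -/
theorem eq_zero_of_eventually_atImInfty {G : ℍ → ℂ} (hG : MDiff G)
    (h : ∀ᶠ τ in atImInfty, G τ = 0) (τ : ℍ) : G τ = 0 := by
  rw [UpperHalfPlane.mdifferentiable_iff] at hG
  have han : AnalyticOnNhd ℂ (G ∘ ofComplex) {z : ℂ | 0 < z.im} :=
    hG.analyticOnNhd UpperHalfPlane.isOpen_upperHalfPlaneSet
  obtain ⟨A, hA⟩ := (UpperHalfPlane.atImInfty_mem _).1 h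
  set z₀ : ℂ := ((max A 0 + 1 : ℝ) : ℂ) * Complex.I with hz₀
  have him : z₀.im = max A 0 + 1 := by simp [hz₀]
  have hmem : z₀ ∈ {z : ℂ | 0 < z.im} := by
    show 0 < z₀.im
    rw [him]
    linarith [le_max_right A 0]
  have hev : (G ∘ ofComplex) =ᶠ[𝓝 z₀] 0 := by
    have hopen : IsOpen {z : ℂ | max A 0 < z.im} := isOpen_lt continuous_const Complex.continuous_im
    refine Filter.eventually_of_mem (hopen.mem_nhds (show max A 0 < z₀.im by rw [him]; linarith))
      fun z hz => ?_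
    have hz0 : 0 < z.im := lt_of_le_of_lt (le_max_right _ _) hz
    show G (ofComplex z) = 0
    rw [ofComplex_apply_of_im_pos hz0]
    exact hA ⟨z, hz0⟩ ((le_max_left A 0).trans (le_of_lt hz))
  have hconn : IsPreconnected {z : ℂ | 0 < z.im} :=
    (convex_halfSpace_im_gt 0).isPreconnected
  have := han.eqOn_zero_of_preconnected_of_eventuallyEq_zero hconn hmem hev τ.2
  simpa using this

/-- The evaluation of a polynomial at the functions `j (d τ)`. -/
def evalFun {N : ℕ} (ι : ℚbar →+* ℂ) (P : MvPolynomial {d : ℕ // d ∈ N.divisors} ℚbar)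
    (τ : ℍ) : ℂ :=
  MvPolynomial.eval₂ ι (fun d => jNfun d.1 τ) P

theorem coeffMap_jdBar {N : ℕ} (ι : ℚbar →+* ℂ) (d : {d : ℕ // d ∈ N.divisors}) [NeZero d.1] :
    coeffMap ι (jdBar d) = jqNModC ℂ d.1 := by
  rw [jdBar, coeffEmb_qExpand_jq, coeffMap_coeffMap, jqNModC, coeffMap_qExpand, coeffMap_jqModC]

theorem hasQExp_evalFun {N : ℕ} (ι : ℚbar →+* ℂ)
    (P : MvPolynomial {d : ℕ // d ∈ N.divisors} ℚbar) :
    HasQExp 1 (evalFun ι P) (coeffMap ι (MvPolynomial.aeval jdBar P)) ∧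
      MDiff (evalFun ι P) := by
  induction P using MvPolynomial.induction_on with
  | C a =>
    have h1 : evalFun ι (MvPolynomial.C a : MvPolynomial {d : ℕ // d ∈ N.divisors} ℚbar)
        = fun _ => ι a := by
      funext τ
      simp [evalFun]
    rw [h1, MvPolynomial.aeval_C, algebraMap_laurentSeries_eq_single, coeffMap_single]
    exact ⟨HasQExp.const _, mdifferentiable_const⟩
  | add P Q hP hQ =>
    have h1 : evalFun ι (P + Q) = evalFun ι P + evalFun ι Q := by
      funext τ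
      simp [evalFun]
    rw [h1, map_add, map_add]
    exact ⟨hP.1.add hQ.1, hP.2.add hQ.2⟩
  | mul_X P d hP =>
    haveI : NeZero d.1 := ⟨(Nat.pos_of_mem_divisors d.2).ne'⟩
    have h1 : evalFun ι (P * MvPolynomial.X d) = evalFun ι P * jNfun d.1 := by
      funext τ
      simp [evalFun]
    rw [h1, map_mul, map_mul, MvPolynomial.aeval_X, coeffMap_jdBar]
    exact ⟨hP.1.mul (hasQExp_jNfun d.1), hP.2.mul (mdifferentiable_jNfun d.1)⟩

theorem coe_diag_smul (d : ℕ) [NeZero d] (τ : ℍ) :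
    ((ModularForm.heckeDiagMatrix d • τ : ℍ) : ℂ) = (d : ℂ) * τ := by
  rw [heckeDiagMatrix_smul_eq_triPoint]
  show ((d : ℂ) * τ + (0 : ℕ)) / (1 : ℕ) = _
  simp

theorem jNfun_mul (c d : ℕ) [NeZero c] [NeZero d] (τ : ℍ) :
    jNfun (c * d) τ = jNfun c (ModularForm.heckeDiagMatrix d • τ) := by
  unfold jNfun
  congr 1
  refine UpperHalfPlane.ext ?_
  rw [coe_diag_smul, coe_diag_smul, coe_diag_smul]
  push_cast
  ring

/-- The analytic content: there is a point map exchanging the generators. -/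
theorem exists_point_swap (hqM : ¬ q ∣ M) : ∃ W : ℍ → ℍ, ∀ d ∈ (M * q).divisors,
    ∀ τ, jNfun d (W τ) = jNfun (swapDiv M q d) τ := by
  have hbez : IsCoprime (q : ℤ) (M : ℤ) := Int.isCoprime_iff_gcd_eq_one.2
    (by simpa [Int.gcd_natCast_natCast] using coprime_of_not_dvd hqM)
  obtain ⟨a, b, hab⟩ := hbez
  let γ₀ : SL(2, ℤ) := ⟨!![a, -b; (M : ℤ), (q : ℤ)], by
    rw [Matrix.det_fin_two_of]; linarith⟩
  let γ₁ : SL(2, ℤ) := ⟨!![a * q, -b; (M : ℤ), 1], by
    rw [Matrix.det_fin_two_of]; linarith⟩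
  have h₀ : ∀ d : ℕ, d ∣ M → γ₀ ∈ Gamma0 d := fun d hd => by
    rw [Gamma0_mem]
    show ((M : ℤ) : ZMod d) = 0
    rw [Int.cast_natCast]
    exact (ZMod.natCast_eq_zero_iff _ _).2 hd |> id
  have h₁ : ∀ d : ℕ, d ∣ M → γ₁ ∈ Gamma0 d := fun d hd => by
    rw [Gamma0_mem]
    show ((M : ℤ) : ZMod d) = 0
    rw [Int.cast_natCast]
    exact (ZMod.natCast_eq_zero_iff _ _).2 hd
  let W : ℍ → ℍ := fun τ => γ₀ • (ModularForm.heckeDiagMatrix q • τ)
  have hW : ∀ τ, ModularForm.heckeDiagMatrix q • W τ = γ₁ • τ := by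
    intro τ
    refine UpperHalfPlane.ext ?_
    have hq0 : (q : ℂ) ≠ 0 := Nat.cast_ne_zero.2 hq.out.ne_zero
    rw [coe_diag_smul, UpperHalfPlane.coe_specialLinearGroup_apply,
      UpperHalfPlane.coe_specialLinearGroup_apply, coe_diag_smul]
    simp only [γ₀, γ₁, Matrix.of_apply, Matrix.cons_val', Matrix.cons_val_zero,
      Matrix.cons_val_one, Matrix.empty_val', Matrix.cons_val_fin_one, algebraMap_int_eq,
      eq_intCast]
    push_cast
    rw [show (M : ℂ) * ((q : ℂ) * τ) + q = (q : ℂ) * ((M : ℂ) * τ + 1) by ring,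
      ← mul_div_assoc, mul_div_mul_left _ _ hq0]
    ring
  refine ⟨W, fun d hd τ => ?_⟩
  rcases dvd_cases hqM (Nat.dvd_of_mem_divisors hd) with ⟨h, hn⟩ | ⟨d', h, rfl⟩
  · haveI : NeZero d := ⟨(Nat.pos_of_mem_divisors hd).ne'⟩
    rw [swapDiv, if_neg hn, jNfun_smul d (h₀ d h), jNfun_mul]
  · haveI : NeZero d' := ⟨ne_zero_of_dvd_ne_zero (NeZero.ne M) h⟩
    rw [swapDiv, if_pos (dvd_mul_left q d'), Nat.mul_div_cancel _ hq.out.pos, jNfun_mul, hW,
      jNfun_smul d' (h₁ d' h)]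

/-- Exchange on the index type. -/
def swapIdx (hqM : ¬ q ∣ M) (d : {d : ℕ // d ∈ (M * q).divisors}) :
    {d : ℕ // d ∈ (M * q).divisors} :=
  ⟨swapDiv M q d.1, swapDiv_mem hqM d.2⟩

theorem swapIdx_swapIdx (hqM : ¬ q ∣ M) (d : {d : ℕ // d ∈ (M * q).divisors}) :
    swapIdx hqM (swapIdx hqM d) = d := by
  refine Subtype.ext ?_
  show swapDiv M q (swapDiv M q d.1) = d.1
  rcases dvd_cases hqM (Nat.dvd_of_mem_divisors d.2) with ⟨h, hn⟩ | ⟨d', h, he⟩
  · simp [swapDiv, hn, Nat.mul_div_cancel _ hq.out.pos]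
  · have hn : ¬ q ∣ d' := fun hh => hqM (hh.trans h)
    simp [swapDiv, he, Nat.mul_div_cancel _ hq.out.pos, hn]

theorem aeval_swap_eq_zero (hqM : ¬ q ∣ M)
    {P : MvPolynomial {d : ℕ // d ∈ (M * q).divisors} ℚbar}
    (h : MvPolynomial.aeval jdBar P = 0) :
    MvPolynomial.aeval (fun d => jdBar (swapIdx hqM d)) P = 0 := by
  let ι : ℚbar →+* ℂ := (IsAlgClosed.lift (R := ℚ) (S := ℚbar) (M := ℂ)).toRingHom
  obtain ⟨W, hW⟩ := exists_point_swap hqM
  have h0 := hasQExp_evalFun ι P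
  rw [h, map_zero] at h0
  have hz := eq_zero_of_eventually_atImInfty h0.2 h0.1.eventually_eq_zero
  set R := MvPolynomial.rename (swapIdx hqM) P with hR
  have hfun : evalFun ι R = 0 := by
    funext τ
    rw [hR, evalFun, MvPolynomial.eval₂_rename]
    have := hz (W τ)
    rw [evalFun] at this
    simpa [Function.comp_def, swapIdx, fun d : {d : ℕ // d ∈ (M * q).divisors} =>
      (hW d.1 d.2 τ)] using this
  have h1 := (hasQExp_evalFun ι R).1
  rw [hfun] at h1
  have h2 : coeffMap ι (MvPolynomial.aeval jdBar R) = 0 := h1.unique HasQExp.zero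
  rw [hR, MvPolynomial.aeval_rename] at h2
  ext n
  have := congrArg (fun z : LaurentSeries ℂ => z.coeff n) h2
  rw [coeffMap_coeff, HahnSeries.coeff_zero] at this
  rw [HahnSeries.coeff_zero]
  exact (map_eq_zero ι).1 this

theorem exists_algHom_swap (hqM : ¬ q ∣ M) :
    ∃ w : modularFunctionFieldBar (M * q) →ₐ[ℚbar] modularFunctionFieldBar (M * q),
      ∀ d, (w ⟨jdBar d, jdBar_mem d⟩ : LaurentSeries ℚbar) = jdBar (swapIdx hqM d) := by
  let Fd := modularFunctionFieldBar (M * q)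
  let e : MvPolynomial {d : ℕ // d ∈ (M * q).divisors} ℚbar →ₐ[ℚbar] Fd :=
    MvPolynomial.aeval fun d => (⟨jdBar d, jdBar_mem d⟩ : Fd)
  let e' : MvPolynomial {d : ℕ // d ∈ (M * q).divisors} ℚbar →ₐ[ℚbar] Fd :=
    MvPolynomial.aeval fun d => (⟨jdBar (swapIdx hqM d), jdBar_mem _⟩ : Fd)
  have he : ∀ P, (e P : LaurentSeries ℚbar) = MvPolynomial.aeval jdBar P := fun P => by
    show Fd.val (e P) = _
    rw [← AlgHom.comp_apply, MvPolynomial.comp_aeval]
    rfl
  have he' : ∀ P, (e' P : LaurentSeries ℚbar) =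
      MvPolynomial.aeval (fun d => jdBar (swapIdx hqM d)) P := fun P => by
    show Fd.val (e' P) = _
    rw [← AlgHom.comp_apply, MvPolynomial.comp_aeval]
    rfl
  have hker : ∀ P, e P = 0 → e' P = 0 := fun P hP => Subtype.ext (by
    rw [he', ZeroMemClass.coe_zero]
    exact aeval_swap_eq_zero hqM (by rw [← he, hP]; rfl))
  let f : e.range →ₐ[ℚbar] Fd :=
    (Ideal.Quotient.liftₐ (RingHom.ker e) e' fun P hP => hker P hP).comp
      (Ideal.quotientKerEquivRange e).symm.toAlgHom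
  have hf : ∀ P, f ⟨e P, P, rfl⟩ = e' P := fun P => by
    have h1 : (Ideal.quotientKerEquivRange e).symm ⟨e P, P, rfl⟩ =
        Ideal.Quotient.mk (RingHom.ker e) P := by
      rw [AlgEquiv.symm_apply_eq]
      rfl
    simp only [f, AlgHom.coe_comp, Function.comp_apply, AlgEquiv.coe_toAlgHom, h1]
    rfl
  have hfinj : Function.Injective f := by
    rw [injective_iff_map_eq_zero]
    rintro ⟨_, P, rfl⟩ hP
    change f ⟨e P, P, rfl⟩ = 0 at hP
    rw [hf] at hP
    refine Subtype.ext (Subtype.ext ?_)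
    show (e P : LaurentSeries ℚbar) = 0
    have h1 : MvPolynomial.aeval (fun d => jdBar (swapIdx hqM d)) P = 0 := by
      rw [← he', hP]; rfl
    have h2 := aeval_swap_eq_zero hqM
      (P := MvPolynomial.rename (swapIdx hqM) P)
      (by rw [MvPolynomial.aeval_rename]; exact h1)
    rw [MvPolynomial.aeval_rename] at h2
    rw [he]
    simpa [Function.comp_def, swapIdx_swapIdx] using h2
  have hgen : ∀ x : Fd, ∃ a b : e.range, (b : Fd) ≠ 0 ∧ x = (a : Fd) / b := by
    intro x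
    have hx : (x : LaurentSeries ℚbar) ∈
        IntermediateField.adjoin ℚbar (Set.range (jdBar (N := M * q))) := by
      rw [← modularFunctionFieldBar_eq_adjoin]; exact x.2
    obtain ⟨r, hr, s, hs, hrs⟩ := IntermediateField.mem_adjoin_iff_div.1 hx
    rw [Algebra.adjoin_range_eq_range_aeval] at hr hs
    obtain ⟨P, rfl⟩ := hr
    obtain ⟨Q, rfl⟩ := hs
    rcases eq_or_ne (e Q) 0 with h0 | h0
    · refine ⟨0, 1, one_ne_zero, Subtype.ext ?_⟩
      rw [hrs]
      have : MvPolynomial.aeval jdBar Q = 0 := by rw [← he, h0]; rfl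
      simp [this]
    · exact ⟨⟨e P, P, rfl⟩, ⟨e Q, Q, rfl⟩, h0, Subtype.ext (by
        rw [hrs]; push_cast; rw [he, he]; rfl)⟩
  haveI : IsFractionRing e.range Fd := IsFractionRing.of_field e.range Fd fun x => by
    obtain ⟨a, b, -, h⟩ := hgen x
    exact ⟨a, b, h⟩
  refine ⟨IsFractionRing.liftAlgHom hfinj, fun d => ?_⟩
  have h1 : (⟨jdBar d, jdBar_mem d⟩ : Fd) = algebraMap e.range Fd ⟨e (MvPolynomial.X d), _, rfl⟩ := by
    show _ = e (MvPolynomial.X d)
    simp [e]
  rw [h1, IsFractionRing.liftAlgHom_apply, IsFractionRing.lift_algebraMap]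
  show ((f ⟨e (MvPolynomial.X d), _, rfl⟩ : Fd) : LaurentSeries ℚbar) = _
  rw [hf]
  simp [e']

end Fermat.Agent.BadReduction

end
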