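/-
The two Frobenius maps of the function field of `X₀(M)` in characteristic `q`: coefficientwise
Frobenius and substitution `t ↦ t ^ q`; rational functions span stable subspaces.
-/
import Fermat.Agent.ES.SpecialCoeff
import Fermat.Agent.Curve.BasicModular
import Fermat.Agent.Curve.ZetaFrobenius
import Fermat.Agent.Curve.ReductionAux
import Fermat.Prelude.Def_AlgebraicCurve_Correspondence
import Mathlib.FieldTheory.Relrank
import Mathlib.FieldTheory.Perfect

set_option autoImplicit false
set_option linter.style.haveILetI false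
set_option linter.unusedSectionVars false

noncomputable section

open AlgebraicCurve ModularCurve IntermediateField Fermat.Agent.Curve Fermat.Agent.Curve.RedAux

namespace Fermat.Agent.BadReduction

variable (k : Type*) [Field k] (q : ℕ) [Fact q.Prime] [CharP k q] [IsAlgClosed k]
  (M : ℕ) [NeZero M]

theorem perfectRing_of_isAlgClosed : PerfectRing k q :=
  PerfectRing.ofSurjective k q fun a => by
    simpa [frobenius_def] using
      IsAlgClosed.exists_pow_nat_eq a (Fact.out : q.Prime).pos

/-- The `q`-Frobenius of `k` as an automorphism. -/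
def constFrob : k ≃+* k :=
  haveI := perfectRing_of_isAlgClosed k q
  frobeniusEquiv k q

@[simp] theorem constFrob_apply (a : k) : constFrob k q a = a ^ q := rfl

/-- The arithmetic Frobenius of the function field: Frobenius on the coefficients. -/
def resFrobAut : SemilinearAut k (modularFunctionFieldFullC k M) :=
  ES.coeffAut M (constFrob k q)

/-- The arithmetic Frobenius as a ring automorphism. -/
def resFrob : modularFunctionFieldFullC k M ≃+* modularFunctionFieldFullC k M :=
  ES.coeffRingAut M (constFrob k q)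

theorem coe_resFrob (x : modularFunctionFieldFullC k M) :
    (resFrob k q M x : LaurentSeries k) = coeffMap (frobenius k q) (x : LaurentSeries k) :=
  congrArg (fun f : k →+* k => coeffMap f (x : LaurentSeries k)) (RingHom.ext fun _ => rfl)

theorem resFrobAut_smul (x : modularFunctionFieldFullC k M) :
    resFrobAut k q M • x = resFrob k q M x := rfl

omit [IsAlgClosed k] in
theorem pow_char_laurent [NeZero q] (x : LaurentSeries k) :
    x ^ q = qExpand k q (coeffMap (frobenius k q) x) :=
  ES.pow_char_eq q x

variable [NeZero q]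

theorem qExpand_mem_fullC {x : LaurentSeries k} (hx : x ∈ modularFunctionFieldFullC k M) :
    qExpand k q x ∈ modularFunctionFieldFullC k M := by
  have h := pow_mem (ES.coeffMap_mem_fullC M ((constFrob k q).symm : k →+* k) hx) q
  rw [pow_char_laurent k q, coeffMap_coeffMap] at h
  have e : coeffMap ((frobenius k q).comp ((constFrob k q).symm : k →+* k)) x = x := by
    ext n
    rw [coeffMap_coeff]
    exact (constFrob k q).apply_symm_apply _
  rwa [e] at h

/-- The relative Frobenius `t ↦ t ^ q`. -/
def resPhi : modularFunctionFieldFullC k M →ₐ[k] modularFunctionFieldFullC k M :=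
  ((qExpandAlgHomC k q).comp (modularFunctionFieldFullC k M).val).codRestrict
    (modularFunctionFieldFullC k M).toSubalgebra fun x => qExpand_mem_fullC k q M x.2

theorem coe_resPhi (x : modularFunctionFieldFullC k M) :
    (resPhi k q M x : LaurentSeries k) = qExpand k q (x : LaurentSeries k) := rfl

theorem resPhi_resFrob (x : modularFunctionFieldFullC k M) :
    resPhi k q M (resFrob k q M x) = x ^ q := by
  refine Subtype.ext ?_
  rw [coe_resPhi, coe_resFrob, SubmonoidClass.coe_pow, pow_char_laurent]

/-- The generator `j`. -/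
def resJ : modularFunctionFieldFullC k M := ⟨jqModC k, jqModC_mem_full k M⟩

theorem resFrob_resJ : resFrob k q M (resJ k M) = resJ k M :=
  Subtype.ext (by rw [coe_resFrob]; exact coeffMap_jqModC _)

omit [Fact q.Prime] [CharP k q] [IsAlgClosed k] [NeZero q] in
theorem transcendental_resJ : Transcendental k (resJ k M) := fun h =>
  transcendental_jqModC' k (h.algHom (modularFunctionFieldFullC k M).val)

omit [NeZero M] [NeZero q] [Fact q.Prime] [CharP k q] [IsAlgClosed k] in
/-- An endomorphism over `k` with `Φ t = t ^ q` for some transcendental `t` has degree `q`. -/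
theorem finrankAlong_of_map_eq_pow {E : Type*} [Field E] [Algebra k E] [IsFunctionFieldOne k E]
    (Φ : E →ₐ[k] E) (hq : 0 < q) {t : E} (htr : Transcendental k t) (hΦt : Φ t = t ^ q) :
    finrankAlong k Φ = q := by
  have htq : Transcendental k (t ^ q) := htr.pow hq
  have h1 : finrankAlong k Φ = relfinrank Φ.fieldRange ⊤ := by
    rw [relfinrank_top_right]
    let e : E ≃+* Φ.fieldRange := (AlgEquiv.ofInjectiveField Φ).toRingEquiv
    let inst : Algebra Φ.fieldRange E := inferInstance
    exact @Algebra.finrank_eq_of_equiv_equiv E E _ _ (algebraAlong Φ) Φ.fieldRange E _ _ inst e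
      (RingEquiv.refl E) (RingHom.ext fun _ => rfl)
  have h2 : relfinrank k⟮t ^ q⟯ Φ.fieldRange = Module.finrank k⟮t⟯ E := by
    rw [← relfinrank_top_right k⟮t⟯, AlgHom.fieldRange_eq_map, ← relfinrank_map_map k⟮t⟯ ⊤ Φ,
      adjoin_map, Set.image_singleton, hΦt]
  have hle : k⟮t ^ q⟯ ≤ Φ.fieldRange := adjoin_simple_le_iff.2 ⟨t, hΦt⟩
  have h3 := relfinrank_mul_relfinrank hle le_top
  rw [h2, relfinrank_top_right k⟮t ^ q⟯, ← h1] at h3
  have hpole : poleDivisor k (t ^ q) = q • poleDivisor k t := by
    ext v
    rw [Finsupp.smul_apply, poleDivisor_apply, poleDivisor_apply, ord_pow, nsmul_eq_mul,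
      mul_max_of_nonneg _ _ (Int.natCast_nonneg q), mul_zero, mul_neg]
  have hdeg := degree_poleDivisor htq
  rw [hpole, map_nsmul, degree_poleDivisor htr, nsmul_eq_mul] at hdeg
  have hpos : 0 < Module.finrank k⟮t⟯ E := finrank_adjoin_pos htr
  have h4 : Module.finrank k⟮t ^ q⟯ E = q * Module.finrank k⟮t⟯ E := by exact_mod_cast hdeg.symm
  rw [h4, mul_comm q] at h3
  exact Nat.eq_of_mul_eq_mul_left hpos h3

theorem finrank_resPhi : finrankAlong k (resPhi k q M) = q :=
  finrankAlong_of_map_eq_pow k q (resPhi k q M) (Fact.out : q.Prime).pos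
    (transcendental_resJ k M) (by
      conv_lhs => rw [← resFrob_resJ k q M]
      exact resPhi_resFrob k q M _)

section Rational

variable (halg : ∀ a : k, ∃ n, 0 < n ∧ a ^ q ^ n = a)

include halg in
theorem exists_period_resFrobAut (f : modularFunctionFieldFullC k M) :
    ∃ n : ℕ, 0 < n ∧ resFrobAut k q M ^ n • f = f := by
  set σ := resFrobAut k q M
  have hconst : ∀ (n : ℕ) (a : k),
      σ ^ n • algebraMap k (modularFunctionFieldFullC k M) a = algebraMap k _ (a ^ q ^ n) := by
    intro n
    induction n with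
    | zero => intro a; rw [pow_zero, one_smul, pow_zero, pow_one]
    | succ n ih =>
      intro a
      rw [pow_succ, mul_smul, SemilinearAut.smul_algebraMap, ih]
      exact congrArg _ ((pow_mul a q (q ^ n)).symm.trans (by rw [← pow_succ' q n]))
  -- common periods
  have key : ∀ {a b : modularFunctionFieldFullC k M},
      (∃ n : ℕ, 0 < n ∧ σ ^ n • a = a) → (∃ n : ℕ, 0 < n ∧ σ ^ n • b = b) →
      ∃ n : ℕ, 0 < n ∧ σ ^ n • a = a ∧ σ ^ n • b = b := by
    rintro a b ⟨n, hn, ha⟩ ⟨m, hm, hb⟩
    exact ⟨n * m, Nat.mul_pos hn hm, ZetaFrob.pow_mul_smul_eq ha m,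
      mul_comm m n ▸ ZetaFrob.pow_mul_smul_eq hb n⟩
  have hf : ∀ x, ∀ hx : x ∈ modularFunctionFieldFullC k M,
      ∃ n : ℕ, 0 < n ∧ σ ^ n • (⟨x, hx⟩ : modularFunctionFieldFullC k M) = ⟨x, hx⟩ := by
    intro x hx
    induction hx using IntermediateField.adjoin_induction with
    | mem y hy =>
      obtain ⟨d, hd, hdM, rfl⟩ := hy
      haveI := hd
      refine ⟨1, one_pos, Subtype.ext ?_⟩
      rw [pow_one]
      show coeffMap _ (qExpand k d (jqModC k)) = _
      rw [coeffMap_qExpand, coeffMap_jqModC]
    | algebraMap a =>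
      obtain ⟨n, hn, ha⟩ := halg a
      exact ⟨n, hn, (hconst n a).trans (by rw [ha]; rfl)⟩
    | add a b ha' hb' ha hb =>
      obtain ⟨n, hn, h1, h2⟩ := key ha hb
      refine ⟨n, hn, ?_⟩
      rw [show (⟨a + b, _⟩ : modularFunctionFieldFullC k M) = ⟨a, ha'⟩ + ⟨b, hb'⟩ from rfl,
        smul_add, h1, h2]
    | inv a ha' ha =>
      obtain ⟨n, hn, h1⟩ := ha
      refine ⟨n, hn, ?_⟩
      rw [show (⟨a⁻¹, _⟩ : modularFunctionFieldFullC k M) = (⟨a, ha'⟩)⁻¹ from rfl, smul_inv'',
        h1]
    | mul a b ha' hb' ha hb =>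
      obtain ⟨n, hn, h1, h2⟩ := key ha hb
      refine ⟨n, hn, ?_⟩
      rw [show (⟨a * b, _⟩ : modularFunctionFieldFullC k M) = ⟨a, ha'⟩ * ⟨b, hb'⟩ from rfl,
        smul_mul', h1, h2]
  exact hf f f.2

include halg in
theorem isFrob_resFrobAut : ZetaFrob.IsFrob (resFrobAut k q M) q where
  one_lt := (Fact.out : q.Prime).one_lt
  cast_eq_zero := CharP.cast_eq_zero k q
  base _ := rfl
  periodic := exists_period_resFrobAut k q M halg
  exists_fixed := ⟨resJ k M, transcendental_resJ k M, resFrob_resJ k q M⟩

include halg in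
/-- A stable subspace is spanned by its rational elements. -/
theorem le_of_rational {V W : Submodule k (modularFunctionFieldFullC k M)}
    (hV : ∀ f ∈ V, resFrob k q M f ∈ V)
    (h : ∀ f ∈ V, resFrob k q M f = f → f ∈ W) : V ≤ W := by
  rw [← (isFrob_resFrobAut k q M halg).span_fixed (V := V) hV, Submodule.span_le]
  exact fun f hf => h f hf.1 hf.2

end Rational

end Fermat.Agent.BadReduction

end
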