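/-
The Frobenius data of the residual function field of `X₀(M)` at a prime `q`.
-/
import Fermat.Agent.BadReduction.X0Frobenius
import Fermat.Agent.NewformRep.GeometryAbstract
import Fermat.Prelude.Def_FLTPrelim_Ramification

set_option autoImplicit false

noncomputable section

open ModularCurve

namespace Fermat.Agent.BadReduction

/-- The arithmetic and relative Frobenius of `X₀(M)` over an algebraically closed field of
characteristic `q`. -/
def x0FrobeniusData (k : Type*) [Field k] (q : ℕ) [Fact q.Prime] [CharP k q] [IsAlgClosed k]
    [NeZero q] (M : ℕ) [NeZero M] :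
    NewformRep.FrobeniusData k (modularFunctionFieldFullC k M) q where
  c := resFrob k q M
  Φ := resPhi k q M
  Φ_c := resPhi_resFrob k q M
  finrank_Φ := finrank_resPhi k q M

theorem charP_residue_of_liesOverPrime {q : ℕ} (hq : q.Prime)
    {A : ValuationSubring (AlgebraicClosure ℚ)} (hA : A.LiesOverPrime q) :
    CharP (IsLocalRing.ResidueField A) q := by
  rw [CharP.charP_iff_prime_eq_zero hq]
  have hmem : (q : A) ∈ IsLocalRing.maximalIdeal A := by
    have h : ((q : A) : AlgebraicClosure ℚ) ∈ A.nonunits := by
      simpa [ValuationSubring.LiesOverPrime] using hA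
    exact ValuationSubring.coe_mem_nonunits_iff.mp h
  rw [← map_natCast (IsLocalRing.residue A) q]
  exact (IsLocalRing.residue_eq_zero_iff _).mpr hmem

end Fermat.Agent.BadReduction

end
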