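/-
S34, bad reduction of `X₀(Mq)`, `q ∤ M`: the involution `w_q` and the two valuations above the
Gauss valuation, those of the expansions at the cusps `∞` and `w_q ∞`.
-/
import Fermat.Agent.BadReduction.X0Atkin
import Fermat.Agent.Curve.BasicModular
import Fermat.Prelude.Def_FLTPrelim_Ramification
import Fermat.Prelude.Def_ModularCurve_ReductionModL

set_option autoImplicit false
set_option linter.style.haveILetI false

noncomputable section

open ModularCurve IntermediateField IsLocalRing AlgebraicCurve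

namespace Fermat.Agent.BadReduction

local notation "ℚbar" => AlgebraicClosure ℚ

variable (M q : ℕ) [NeZero M] [hq : Fact q.Prime]

local instance neZero_prime : NeZero q := ⟨hq.out.ne_zero⟩

/-- The function field of `X₀(Mq)` over the algebraic numbers. -/
abbrev X0F : Type := modularFunctionFieldBar (M * q)

variable {M q} (hqM : ¬ q ∣ M)

theorem jdBar_swap_ne (d : {d : ℕ // d ∈ (M * q).divisors}) :
    swapIdx hqM (swapIdx hqM d) = d := swapIdx_swapIdx hqM d

/-- `w_q` as an algebra endomorphism. -/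
def atkinHom : X0F M q →ₐ[ℚbar] X0F M q := (exists_algHom_swap hqM).choose

theorem atkinHom_jdBar (d : {d : ℕ // d ∈ (M * q).divisors}) :
    atkinHom hqM ⟨jdBar d, jdBar_mem d⟩ = ⟨jdBar (swapIdx hqM d), jdBar_mem _⟩ :=
  Subtype.ext ((exists_algHom_swap hqM).choose_spec d)

/-- Two algebra homs out of `modularFunctionFieldBar N` agreeing on all `j (d τ)` are equal. -/
theorem algHom_ext_jdBar {N : ℕ} [NeZero N] {L : Type*} [Field L] [Algebra ℚbar L]
    {f g : modularFunctionFieldBar N →ₐ[ℚbar] L}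
    (h : ∀ d : {d : ℕ // d ∈ N.divisors}, f ⟨jdBar d, jdBar_mem d⟩ = g ⟨jdBar d, jdBar_mem d⟩) :
    f = g := by
  refine AlgHom.ext fun x => ?_
  have hx : (x : LaurentSeries ℚbar) ∈
      IntermediateField.adjoin ℚbar (Set.range (jdBar (N := N))) := by
    rw [← modularFunctionFieldBar_eq_adjoin]; exact x.2
  let E : IntermediateField ℚbar (LaurentSeries ℚbar) :=
    IntermediateField.map (modularFunctionFieldBar N).val
      { Subfield.copy (f.toRingHom.eqLocusField g.toRingHom) {z | f z = g z} rfl with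
        algebraMap_mem' := fun c => by
          show f (algebraMap _ _ c) = g (algebraMap _ _ c)
          rw [f.commutes, g.commutes] }
  have hle : IntermediateField.adjoin ℚbar (Set.range (jdBar (N := N))) ≤ E := by
    refine IntermediateField.adjoin_le_iff.2 ?_
    rintro _ ⟨d, rfl⟩
    exact ⟨⟨jdBar d, jdBar_mem d⟩, h d, rfl⟩
  obtain ⟨y, hy, hyx⟩ := hle hx
  have : y = x := Subtype.ext hyx
  exact this ▸ hy

theorem atkinHom_atkinHom (x : X0F M q) : atkinHom hqM (atkinHom hqM x) = x := by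
  have h : (atkinHom hqM).comp (atkinHom hqM) = AlgHom.id ℚbar (X0F M q) :=
    algHom_ext_jdBar fun d => by
      rw [AlgHom.comp_apply, atkinHom_jdBar, atkinHom_jdBar, AlgHom.id_apply]
      exact Subtype.ext (by simp only [swapIdx_swapIdx])
  exact AlgHom.congr_fun h x

/-- The Atkin-Lehner involution `w_q`. -/
def atkinLehner : X0F M q ≃ₐ[ℚbar] X0F M q :=
  AlgEquiv.ofAlgHom (atkinHom hqM) (atkinHom hqM)
    (AlgHom.ext (atkinHom_atkinHom hqM)) (AlgHom.ext (atkinHom_atkinHom hqM))

@[simp]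
theorem atkinLehner_apply (x : X0F M q) : atkinLehner hqM x = atkinHom hqM x := rfl

theorem atkinLehner_smul (c : ℚbar) (x : X0F M q) :
    atkinLehner hqM (c • x) = c • atkinLehner hqM x := by
  rw [Algebra.smul_def, Algebra.smul_def, map_mul, AlgEquiv.commutes]

theorem atkinLehner_atkinLehner (x : X0F M q) :
    atkinLehner hqM (atkinLehner hqM x) = x := atkinHom_atkinHom hqM x

theorem atkinLehner_alpha (x : modularFunctionFieldBar M) :
    atkinLehner hqM (heckeAlphaBar ℚbar M q x) = heckeBetaBar ℚbar M q x := by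
  have h : (atkinHom hqM).comp (heckeAlphaBar ℚbar M q) = heckeBetaBar ℚbar M q :=
    algHom_ext_jdBar fun d => by
      have hd : d.1 ∣ M := Nat.dvd_of_mem_divisors d.2
      have hmem : d.1 ∈ (M * q).divisors :=
        Nat.mem_divisors.2 ⟨hd.trans (dvd_mul_right M q), NeZero.ne _⟩
      have h1 : heckeAlphaBar ℚbar M q ⟨jdBar d, jdBar_mem d⟩
          = ⟨jdBar ⟨d.1, hmem⟩, jdBar_mem _⟩ := Subtype.ext (coe_heckeAlphaBar M q _)
      rw [AlgHom.comp_apply, h1, atkinHom_jdBar]
      refine Subtype.ext ?_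
      show jdBar _ = qExpand ℚbar q (jdBar d)
      haveI : NeZero d.1 := ⟨(Nat.pos_of_mem_divisors d.2).ne'⟩
      have hn : ¬ q ∣ d.1 := fun h => hqM (h.trans hd)
      haveI : NeZero (swapIdx hqM ⟨d.1, hmem⟩).1 :=
        ⟨(Nat.pos_of_mem_divisors (swapIdx hqM ⟨d.1, hmem⟩).2).ne'⟩
      rw [jdBar, jdBar, coeffEmb_qExpand_jq, coeffEmb_qExpand_jq, ← coeffMap_qExpand,
        qExpand_qExpand]
      refine congrArg _ (qExpand_congr ?_ _)
      show swapDiv M q d.1 = q * d.1
      rw [swapDiv, if_neg hn, mul_comm]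
  exact AlgHom.congr_fun h x

theorem atkinLehner_beta (x : modularFunctionFieldBar M) :
    atkinLehner hqM (heckeBetaBar ℚbar M q x) = heckeAlphaBar ℚbar M q x := by
  rw [← atkinLehner_alpha hqM x, atkinLehner_atkinLehner]

variable (A : ValuationSubring ℚbar)

variable (M q) in
/-- The valuation of the component through the cusp `∞`. -/
def infV : ValuationSubring (X0F M q) :=
  gaussVal _ (modularFunctionFieldBar_le_finFrac (M * q)) A

variable (M q) in
/-- The coefficientwise reduction at the cusp `∞`. -/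
def infRed : infV M q A →+* LaurentSeries (ResidueField A) :=
  gaussValRed _ (modularFunctionFieldBar_le_finFrac (M * q)) A

theorem infRed_eq (x : infV M q A) {y₁ y₂ : LaurentSeries A}
    (h : coeffMap (residue A) y₂ ≠ 0)
    (e : ((x : X0F M q) : LaurentSeries ℚbar) * coeffMap A.subtype y₂ = coeffMap A.subtype y₁) :
    infRed M q A x = coeffMap (residue A) y₁ / coeffMap (residue A) y₂ :=
  gaussValRed_eq _ _ A x h e

/-- The two components: through `∞` and through `w_q ∞`. -/
def compV : Fin 2 → ValuationSubring (X0F M q)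
  | 0 => infV M q A
  | 1 => (infV M q A).comap (atkinLehner hqM : X0F M q →+* X0F M q)

theorem mem_compV_zero {x : X0F M q} : x ∈ compV hqM A 0 ↔ x ∈ infV M q A := Iff.rfl

theorem mem_compV_one {x : X0F M q} :
    x ∈ compV hqM A 1 ↔ atkinLehner hqM x ∈ infV M q A := Iff.rfl

theorem algebraMap_mem_compV_iff : ∀ (i : Fin 2) (a : ℚbar),
    algebraMap ℚbar (X0F M q) a ∈ compV hqM A i ↔ a ∈ A
  | 0, a => by rw [mem_compV_zero]; exact algebraMap_mem_gaussVal_iff _ _ _
  | 1, a => by
    rw [mem_compV_one, AlgEquiv.commutes]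
    exact algebraMap_mem_gaussVal_iff _ _ _

theorem coe_galois_smul {N : ℕ} (σ : ℚbar ≃ₐ[ℚ] ℚbar) (x : modularFunctionFieldBar N) :
    ((arithmeticGalois (modularFunctionFieldFull N) σ • x : modularFunctionFieldBar N) :
      LaurentSeries ℚbar) = coeffMap (σ : ℚbar →+* ℚbar) (x : LaurentSeries ℚbar) :=
  coe_arithmeticGalois_smul _ σ x

theorem galois_smul_jdBar {N : ℕ} (σ : ℚbar ≃ₐ[ℚ] ℚbar) (d : {d : ℕ // d ∈ N.divisors}) :
    arithmeticGalois (modularFunctionFieldFull N) σ •
      (⟨jdBar d, jdBar_mem d⟩ : modularFunctionFieldBar N) = ⟨jdBar d, jdBar_mem d⟩ :=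
  Subtype.ext (by rw [coe_galois_smul]; exact coeffMap_coeffEmb σ _)

/-- Galois automorphisms commute with `w_q`. -/
theorem atkinLehner_galois (σ : ℚbar ≃ₐ[ℚ] ℚbar) (x : X0F M q) :
    atkinLehner hqM (arithmeticGalois (modularFunctionFieldFull (M * q)) σ • x) =
      arithmeticGalois (modularFunctionFieldFull (M * q)) σ • atkinLehner hqM x := by
  let G := arithmeticRingAut (L := ℚbar) (modularFunctionFieldFull (M * q))
  show atkinLehner hqM (G σ x) = G σ (atkinLehner hqM x)
  have hcomm : ∀ c : ℚbar, (G σ).symm (atkinLehner hqM (G σ (algebraMap ℚbar (X0F M q) c)))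
      = algebraMap ℚbar (X0F M q) c := fun c => by
    rw [arithmeticRingAut_algebraMap, AlgEquiv.commutes, RingEquiv.symm_apply_eq,
      arithmeticRingAut_algebraMap]
  let f : X0F M q →ₐ[ℚbar] X0F M q :=
    { ((G σ).symm.toRingHom.comp ((atkinLehner hqM).toRingEquiv.toRingHom.comp (G σ).toRingHom))
      with commutes' := hcomm }
  have h : f = atkinHom hqM := algHom_ext_jdBar fun d => by
    show (G σ).symm (atkinLehner hqM (G σ _)) = _
    rw [RingEquiv.symm_apply_eq]
    have h1 : G σ ⟨jdBar d, jdBar_mem d⟩ = ⟨jdBar d, jdBar_mem d⟩ := galois_smul_jdBar σ d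
    rw [h1, atkinLehner_apply, atkinHom_jdBar]
    exact (galois_smul_jdBar σ _).symm
  have h2 : (G σ).symm (atkinLehner hqM (G σ x)) = atkinHom hqM x := AlgHom.congr_fun h x
  exact (RingEquiv.symm_apply_eq _).1 h2

theorem galois_coeffMap (g : A →+* A) (σ : ℚbar ≃ₐ[ℚ] ℚbar) (hg : ∀ a : A, (g a : ℚbar) = σ a)
    (y : LaurentSeries A) :
    coeffMap A.subtype (coeffMap g y) = coeffMap (σ : ℚbar →+* ℚbar) (coeffMap A.subtype y) := by
  rw [coeffMap_coeffMap, coeffMap_coeffMap]
  exact coeffMap_congr (RingHom.ext fun a => hg a) _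

omit [NeZero M] hq in
theorem galois_quotient_eq (g : A →+* A) [IsLocalHom g] (σ : ℚbar ≃ₐ[ℚ] ℚbar)
    (hg : ∀ a : A, (g a : ℚbar) = σ a) (x : X0F M q) {y₁ y₂ : LaurentSeries A}
    (hne : coeffMap (residue A) y₂ ≠ 0)
    (e : (x : LaurentSeries ℚbar) * coeffMap A.subtype y₂ = coeffMap A.subtype y₁) :
    coeffMap (residue A) (coeffMap g y₂) ≠ 0 ∧
      ((arithmeticGalois (modularFunctionFieldFull (M * q)) σ • x : X0F M q) :
        LaurentSeries ℚbar) * coeffMap A.subtype (coeffMap g y₂) =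
          coeffMap A.subtype (coeffMap g y₁) := by
  refine ⟨fun h0 => hne ?_, ?_⟩
  · ext n
    have hn := congrArg (fun z : LaurentSeries (ResidueField A) => z.coeff n) h0
    simp only [coeffMap_coeff, HahnSeries.coeff_zero, residue_eq_zero_iff,
      mem_maximalIdeal, mem_nonunits_iff] at hn ⊢
    exact fun hu => hn (hu.map g)
  · rw [coe_galois_smul, galois_coeffMap A g σ hg, galois_coeffMap A g σ hg, ← map_mul, e]

theorem galois_mem_infV {σ : ℚbar ≃ₐ[ℚ] ℚbar} (hσ : σ ∈ A.decompositionSubgroup ℚ)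
    {x : X0F M q} (hx : x ∈ infV M q A) :
    arithmeticGalois (modularFunctionFieldFull (M * q)) σ • x ∈ infV M q A := by
  let g : A →+* A := MulSemiringAction.toRingHom (A.decompositionSubgroup ℚ) A ⟨σ, hσ⟩
  haveI : IsLocalHom g := ⟨fun a ha => by
    have h := ha.map (MulSemiringAction.toRingHom (A.decompositionSubgroup ℚ) A ⟨σ, hσ⟩⁻¹)
    rwa [MulSemiringAction.toRingHom_apply, MulSemiringAction.toRingHom_apply, inv_smul_smul]
      at h⟩
  obtain ⟨y₁, y₂, hne, e⟩ := hx
  obtain ⟨h1, h2⟩ := galois_quotient_eq A g σ (fun _ => rfl) x hne e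
  exact ⟨_, _, h1, h2⟩

theorem infRed_galois {σ : ℚbar ≃ₐ[ℚ] ℚbar} (hσ : σ ∈ A.decompositionSubgroup ℚ)
    (htriv : ∀ a : A, residue A ((⟨σ, hσ⟩ : A.decompositionSubgroup ℚ) • a) = residue A a)
    {x : X0F M q} (hx : x ∈ infV M q A) :
    infRed M q A ⟨_, galois_mem_infV A hσ hx⟩ = infRed M q A ⟨x, hx⟩ := by
  let g : A →+* A := MulSemiringAction.toRingHom (A.decompositionSubgroup ℚ) A ⟨σ, hσ⟩
  haveI : IsLocalHom g := ⟨fun a ha => by
    have h := ha.map (MulSemiringAction.toRingHom (A.decompositionSubgroup ℚ) A ⟨σ, hσ⟩⁻¹)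
    rwa [MulSemiringAction.toRingHom_apply, MulSemiringAction.toRingHom_apply, inv_smul_smul]
      at h⟩
  obtain ⟨y₁, y₂, hne, e⟩ := id hx
  obtain ⟨h1, h2⟩ := galois_quotient_eq A g σ (fun _ => rfl) x hne e
  have hred : ∀ y : LaurentSeries A, coeffMap (residue A) (coeffMap g y) = coeffMap (residue A) y :=
    fun y => by
      rw [coeffMap_coeffMap]
      exact coeffMap_congr (RingHom.ext fun a => htriv a) _
  rw [infRed_eq A ⟨_, galois_mem_infV A hσ hx⟩ h1 h2, infRed_eq A ⟨x, hx⟩ hne e, hred, hred]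

/-- The decomposition group fixes the components. -/
theorem galois_mem_compV_iff {σ : ℚbar ≃ₐ[ℚ] ℚbar} (hσ : σ ∈ A.decompositionSubgroup ℚ)
    (i : Fin 2) (x : X0F M q) :
    arithmeticGalois (modularFunctionFieldFull (M * q)) σ • x ∈ compV hqM A i ↔
      x ∈ compV hqM A i := by
  have key : ∀ z : X0F M q,
      arithmeticGalois (modularFunctionFieldFull (M * q)) σ • z ∈ infV M q A ↔
        z ∈ infV M q A := fun z => by
    refine ⟨fun h => ?_, fun h => galois_mem_infV A hσ h⟩
    have := galois_mem_infV A (inv_mem hσ) h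
    rwa [← mul_smul, ← map_mul, inv_mul_cancel, map_one, one_smul] at this
  fin_cases i
  · exact key x
  · show atkinLehner hqM _ ∈ infV M q A ↔ atkinLehner hqM x ∈ infV M q A
    rw [atkinLehner_galois]
    exact key _

end Fermat.Agent.BadReduction

end
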