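/-
S34, bad reduction: general lemmas on degrees of function fields used for the two components.

* `card_le_finrank_of_red` : integral functions with independent reductions are independent.
* `finrank_adjoin_algEquiv` : invariance of `[F : K (t)]` under automorphisms.
* `finrank_adjoin_mul_le` : `[F : K (a b)] ≤ [F : K (a)] + [F : K (b)]`.
-/
import Fermat.Agent.Curve.BasicFunctionField
import Fermat.Agent.Curve.BasicInstances
import Fermat.Agent.Curve.RiemannRochSpace
import Mathlib.RingTheory.Valuation.ValuationSubring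

set_option autoImplicit false
set_option linter.style.haveILetI false

noncomputable section

open IntermediateField IsLocalRing AlgebraicCurve Polynomial
open Fermat.Agent.Curve
open scoped IntermediateField.algebraAdjoinAdjoin

namespace Fermat.Agent.BadReduction

variable {K F : Type*} [Field K] [Field F] [Algebra K F]

/-- Integral functions whose reductions are independent over `k (x̄)` are independent
over `K (x)`. -/
theorem card_le_finrank_of_red (A : ValuationSubring K) {k : Type*} [Field k] (π : A →+* k)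
    {σ : Type*} {L : σ → Type*} [∀ j, Field (L j)] [∀ j, Algebra k (L j)]
    (O : Subring F) (c : A →+* O) (hc : ∀ a : A, (c a : F) = algebraMap K F a)
    (r : ∀ j, O →+* L j) (hr : ∀ j a, r j (c a) = algebraMap k (L j) (π a))
    (x : O) [Module.Finite K⟮(x : F)⟯ F] (xb : ∀ j, L j) (hx : ∀ j, r j x = xb j)
    {I : Type*} [Fintype I] (f : I → O)
    (hind : ∀ a : I → k[X],
      (∀ j, ∑ i, aeval (xb j) (a i) * r j (f i) = 0) → a = 0) :
    Fintype.card I ≤ Module.finrank K⟮(x : F)⟯ F := by
  classical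
  suffices h : LinearIndependent K⟮(x : F)⟯ fun i => (f i : F) from h.fintype_card_le_finrank
  refine (LinearIndependent.iff_fractionRing (Algebra.adjoin K {(x : F)}) K⟮(x : F)⟯).1 ?_
  rw [Fintype.linearIndependent_iff]
  intro g hg
  have hg' : ∀ i, ∃ P : K[X], Polynomial.aeval (x : F) P = g i := fun i => by
    have : (g i : F) ∈ (Polynomial.aeval (R := K) (x : F)).range := by
      rw [← Algebra.adjoin_singleton_eq_range_aeval]; exact (g i).2
    exact this
  choose P hP using hg'
  by_contra hne
  push Not at hne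
  obtain ⟨i₁, hi₁⟩ := hne
  have hP₁ : P i₁ ≠ 0 := fun h => hi₁ (Subtype.ext (by rw [← hP i₁, h, map_zero]; rfl))
  let T : Finset (Σ _ : I, ℕ) := Finset.univ.sigma fun i => (P i).support
  have hT : T.Nonempty := ⟨⟨i₁, (P i₁).natDegree⟩, Finset.mem_sigma.2
    ⟨Finset.mem_univ _, Polynomial.natDegree_mem_support_of_nonzero hP₁⟩⟩
  obtain ⟨t₀, ht₀, hmax⟩ :=
    Finset.exists_max_image T (fun t => A.valuation ((P t.1).coeff t.2)) hT
  set c₀ := (P t₀.1).coeff t₀.2 with hc₀
  have hc₀0 : c₀ ≠ 0 := Polynomial.mem_support_iff.1 (Finset.mem_sigma.1 ht₀).2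
  have hQ : ∀ i, ∃ Q : A[X], Q.map A.subtype = C c₀⁻¹ * P i := by
    intro i
    refine (Polynomial.mem_lifts _).1 ((Polynomial.lifts_iff_coeff_lifts _).2 fun n => ?_)
    refine ⟨⟨(C c₀⁻¹ * P i).coeff n, ?_⟩, rfl⟩
    rw [Polynomial.coeff_C_mul, ← A.valuation_le_one_iff, map_mul, map_inv₀]
    rcases eq_or_ne ((P i).coeff n) 0 with h0 | h0
    · rw [h0, map_zero, mul_zero]; exact zero_le'
    · rw [inv_mul_le_iff₀ (zero_lt_iff.2 ((_root_.map_ne_zero _).2 hc₀0)), mul_one]
      exact hmax ⟨i, n⟩ (Finset.mem_sigma.2 ⟨Finset.mem_univ _, Polynomial.mem_support_iff.2 h0⟩)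
  choose Q hQ using hQ
  have hev : ∀ i, ((eval₂RingHom c x (Q i) : O) : F) = algebraMap K F c₀⁻¹ * (g i : F) := by
    intro i
    have h1 : ((eval₂RingHom c x (Q i) : O) : F) = aeval (x : F) ((Q i).map A.subtype) := by
      rw [coe_eval₂RingHom, ← Subring.subtype_apply, hom_eval₂, aeval_def, eval₂_map,
        show O.subtype.comp c = (algebraMap K F).comp A.subtype from RingHom.ext hc]
      rfl
    rw [h1, hQ, map_mul, aeval_C, hP]
  have hsum : ∑ i, eval₂RingHom c x (Q i) * f i = 0 := by
    apply Subtype.ext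
    rw [AddSubmonoidClass.coe_finsetSum, ZeroMemClass.coe_zero]
    simp only [MulMemClass.coe_mul, hev, mul_assoc]
    rw [← Finset.mul_sum]
    refine mul_eq_zero_of_right _ (Eq.trans (Finset.sum_congr rfl fun i _ => ?_) hg)
    rw [Algebra.smul_def]
    rfl
  have hz : (fun i => (Q i).map π) = 0 := hind _ fun j => by
    have h := congrArg (r j) hsum
    rw [map_sum, map_zero] at h
    refine Eq.trans (Finset.sum_congr rfl fun i _ => ?_) h
    rw [map_mul, coe_eval₂RingHom, hom_eval₂, hx, aeval_def, eval₂_map]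
    exact congrArg (fun φ => eval₂ φ (xb j) (Q i) * r j (f i))
      (RingHom.ext fun a => (hr j a).symm)
  have h1 := congrArg (fun p => Polynomial.coeff p t₀.2) (congrFun hz t₀.1)
  simp only [coeff_map, Pi.zero_apply, coeff_zero] at h1
  have h2 : ((Q t₀.1).coeff t₀.2 : K) = 1 := by
    have := congrArg (fun p => Polynomial.coeff p t₀.2) (hQ t₀.1)
    simp only [coeff_map, coeff_C_mul] at this
    exact this.trans (inv_mul_cancel₀ hc₀0)
  rw [show (Q t₀.1).coeff t₀.2 = 1 from Subtype.ext h2, map_one] at h1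
  exact one_ne_zero h1

/-- `[F : K (e t)] = [F : K (t)]`. -/
theorem finrank_adjoin_algEquiv (e : F ≃ₐ[K] F) (t : F) :
    Module.finrank K⟮e t⟯ F = Module.finrank K⟮t⟯ F := by
  have hmap : (K⟮t⟯).map (e : F →ₐ[K] F) = K⟮e t⟯ := by
    rw [IntermediateField.adjoin_map, Set.image_singleton]; rfl
  refine (Algebra.finrank_eq_of_equiv_equiv
    ((IntermediateField.equivMap K⟮t⟯ (e : F →ₐ[K] F)).trans
      (IntermediateField.equivOfEq hmap)).toRingEquiv e.toRingEquiv ?_).symm
  ext z
  rfl

/-- `[F : K (a b)] ≤ [F : K (a)] + [F : K (b)]`. -/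
theorem finrank_adjoin_mul_le [IsFunctionFieldOne K F] {a b : F} (ha : Transcendental K a)
    (hb : Transcendental K b) (hab : Transcendental K (a * b)) :
    Module.finrank K⟮a * b⟯ F ≤ Module.finrank K⟮a⟯ F + Module.finrank K⟮b⟯ F := by
  have ha0 : a ≠ 0 := fun h => ha (h ▸ isAlgebraic_zero)
  have hb0 : b ≠ 0 := fun h => hb (h ▸ isAlgebraic_zero)
  have hle : poleDivisor K (a * b) ≤ poleDivisor K a + poleDivisor K b := fun v => by
    rw [Finsupp.add_apply, poleDivisor_apply, poleDivisor_apply, poleDivisor_apply,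
      Place.ord_mul _ ha0 hb0]
    omega
  have h := Fermat.Agent.Curve.degree_mono hle
  rw [map_add, degree_poleDivisor ha, degree_poleDivisor hb, degree_poleDivisor hab] at h
  exact_mod_cast h

end Fermat.Agent.BadReduction

end
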