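/-
S34, bad reduction of `X₀(Mq)`: degrees over `ℚbar (j)` and over `k (j)`.

* `finrank_jBar_le` : `[ℚbar X₀(N) : ℚbar (j)] ≤ ψ (N)`.
* `psi_le_finrank_jResidual` : `ψ (M) ≤ [k X₀(M) : k (j)]` in residue characteristic prime to `M`.
* `finrank_adjoin_aeval` : `[F : K (R (t))] = deg R · [F : K (t)]`.
-/
import Fermat.Agent.Igusa.FibreIrred
import Fermat.Agent.Igusa.JacobianSlice
import Fermat.Agent.Gamma0.Cusps
import Fermat.Agent.Gamma0.PsiIdentity
import Fermat.Agent.Curve.BasicModular
import Fermat.Agent.Galois.QbarInstances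
import Fermat.Agent.ModFun.JFun
import Fermat.Prelude.Def_FLTPrelim_Ramification
import Mathlib.Analysis.Complex.Polynomial.Basic
import Mathlib.RingTheory.RootsOfUnity.AlgebraicallyClosed

set_option autoImplicit false
set_option linter.style.haveILetI false

noncomputable section

open ModularCurve IntermediateField IsLocalRing AlgebraicCurve Polynomial
open scoped IntermediateField.algebraAdjoinAdjoin
open Fermat.Agent.Curve

namespace Fermat.Agent.BadReduction

local notation "ℚbar" => AlgebraicClosure ℚ

/-- An embedding of the algebraic numbers into `ℂ`. -/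
def qbarToC : ℚbar →+* ℂ := (IsAlgClosed.lift (R := ℚ) (S := ℚbar) (M := ℂ)).toRingHom

/-- Series independent over `K` stay independent over a larger field of coefficients. -/
theorem linearIndependent_coeffMap {K L : Type*} [Field K] [Field L] (f : K →+* L) {I : Type*}
    {v : I → LaurentSeries K}
    (hv : ∀ (s : Finset I) (c : I → K),
      ∑ i ∈ s, algebraMap K (LaurentSeries K) (c i) * v i = 0 → ∀ i ∈ s, c i = 0)
    (s : Finset I) (c : I → L)
    (hc : ∑ i ∈ s, algebraMap L (LaurentSeries L) (c i) * coeffMap f (v i) = 0) :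
    ∀ i ∈ s, c i = 0 := by
  classical
  letI : Algebra K L := f.toAlgebra
  intro i hi
  by_contra hci
  obtain ⟨ℓ, hℓ⟩ : ∃ ℓ : L →ₗ[K] K, ℓ (c i) ≠ 0 := by
    obtain ⟨B, hB⟩ := Module.Free.exists_basis (R := K) (M := L)
    by_contra h
    push Not at h
    exact hci ((Module.Basis.forall_coord_eq_zero_iff hB).1 fun b => h (hB.coord b))
  apply hℓ
  have h0 : ∀ j ∈ s, ℓ (c j) = 0 := by
    refine hv s (fun j => ℓ (c j)) ?_
    ext n
    have hn := congrArg (fun z : LaurentSeries L => ℓ (z.coeff n)) hc
    simp only [HahnSeries.coeff_sum, map_sum, HahnSeries.coeff_zero, map_zero] at hn ⊢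
    rw [← hn]
    refine Finset.sum_congr rfl fun j _ => ?_
    rw [algebraMap_laurentSeries_eq_single, algebraMap_laurentSeries_eq_single,
      HahnSeries.coeff_single_zero_mul, HahnSeries.coeff_single_zero_mul, coeffMap_coeff,
      mul_comm (c j), ← RingHom.algebraMap_toAlgebra f, ← Algebra.smul_def, map_smul, smul_eq_mul,
      mul_comm]
  exact h0 i hi

theorem coe_jBar_eq (N : ℕ) [NeZero N] :
    (Igusa.jBar N : LaurentSeries ℚbar) = jqModC ℚbar := by
  rw [Igusa.coe_jBar, ← jqModC_rat, coeffEmb, coeffMap_jqModC]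

theorem transcendental_jBar (N : ℕ) [NeZero N] : Transcendental ℚbar (Igusa.jBar N) := by
  rintro ⟨P, hP, h⟩
  refine ModFun.transcendental_jqModC ℚbar ⟨P, hP, ?_⟩
  rw [← coe_jBar_eq N]
  exact (Polynomial.aeval_algHom_apply (modularFunctionFieldBar N).val (Igusa.jBar N) P).trans
      ((congrArg (modularFunctionFieldBar N).val h).trans (map_zero _))

theorem coeffMap_mem_fullC (N : ℕ) {x : LaurentSeries ℚbar} (hx : x ∈ modularFunctionFieldBar N) :
    coeffMap qbarToC x ∈ modularFunctionFieldFullC ℂ N := by
  rw [mem_laurentBaseChange_iff] at hx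
  induction hx using Subfield.closure_induction with
  | mem y hy =>
    rcases hy with ⟨c, rfl⟩ | ⟨z, hz, rfl⟩
    · rw [algebraMap_laurentSeries_eq_single, coeffMap_single,
        ← algebraMap_laurentSeries_eq_single]
      exact (modularFunctionFieldFullC ℂ N).algebraMap_mem _
    · let E : IntermediateField ℚ (LaurentSeries ℚ) :=
        { (modularFunctionFieldFullC ℂ N).toSubfield.comap
            ((coeffMap qbarToC).comp (coeffEmb ℚbar)) with
          algebraMap_mem' := fun c => by
            show coeffMap qbarToC (coeffEmb ℚbar _) ∈ modularFunctionFieldFullC ℂ N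
            rw [show algebraMap ℚ (LaurentSeries ℚ) c = HahnSeries.single 0 c from
              ModularCurve.algebraMap_apply_eq_single c, coeffEmb, coeffMap_single, coeffMap_single,
              ← algebraMap_laurentSeries_eq_single]
            exact (modularFunctionFieldFullC ℂ N).algebraMap_mem _ }
      refine (show modularFunctionFieldFull N ≤ E from IntermediateField.adjoin_le_iff.2 ?_) hz
      rintro _ ⟨d, hne, hd, rfl⟩
      haveI := hne
      show coeffMap qbarToC (coeffEmb ℚbar _) ∈ modularFunctionFieldFullC ℂ N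
      rw [← jqModC_rat, coeffEmb, coeffMap_qExpand, coeffMap_qExpand, coeffMap_jqModC,
        coeffMap_jqModC]
      exact jqModCd_mem_full ℂ N hd
  | one => rw [map_one]; exact one_mem _
  | add x y _ _ hx hy => rw [map_add]; exact add_mem hx hy
  | neg x _ hx => rw [map_neg]; exact neg_mem hx
  | inv x _ hx => rw [map_inv₀]; exact inv_mem hx
  | mul x y _ _ hx hy => rw [map_mul]; exact mul_mem hx hy

theorem card_coset_eq (N : ℕ) [NeZero N] :
    Fintype.card (Gamma0.Coset N) = dedekindPsi N := by
  rw [← Nat.card_eq_fintype_card, Gamma0.card_coset]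

theorem finrank_jBar_le (N : ℕ) [NeZero N] :
    Module.finrank ℚbar⟮Igusa.jBar N⟯ (modularFunctionFieldBar N) ≤ dedekindPsi N := by
  classical
  by_contra hlt
  push Not at hlt
  obtain ⟨z, hz⟩ := exists_linearIndependent_of_le_finrank
    (R := ℚbar⟮Igusa.jBar N⟯) (M := modularFunctionFieldBar N)
    (n := Fintype.card (Gamma0.Coset N) + 1) (by rw [card_coset_eq]; omega)
  have hpow : LinearIndependent ℚbar (fun i : ℕ => (AdjoinSimple.gen ℚbar (Igusa.jBar N)) ^ i) := by
    refine LinearIndependent.of_comp ℚbar⟮Igusa.jBar N⟯.val.toLinearMap ?_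
    have h := (Polynomial.basisMonomials ℚbar).linearIndependent.map'
      (Polynomial.aeval (R := ℚbar) (Igusa.jBar N)).toLinearMap
      (LinearMap.ker_eq_bot.2 (transcendental_iff_injective.1 (transcendental_jBar N)))
    have e : (⇑(Polynomial.aeval (R := ℚbar) (Igusa.jBar N)).toLinearMap ∘
        ⇑(Polynomial.basisMonomials ℚbar) : ℕ → modularFunctionFieldBar N) =
        ⇑ℚbar⟮Igusa.jBar N⟯.val.toLinearMap ∘
          fun i => AdjoinSimple.gen ℚbar (Igusa.jBar N) ^ i := by
      funext i
      simp [Polynomial.coe_basisMonomials, Polynomial.aeval_monomial]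
    exact e ▸ h
  have hprod := linearIndependent_smul hpow hz
  have hser := linearIndependent_coeffMap qbarToC (I := ℕ × Fin (Fintype.card (Gamma0.Coset N) + 1))
    (v := fun p => (((AdjoinSimple.gen ℚbar (Igusa.jBar N)) ^ p.1 • z p.2 :
        modularFunctionFieldBar N) : LaurentSeries ℚbar)) (fun s c hc => by
      refine linearIndependent_iff'.1 hprod s c (Subtype.ext ?_)
      rw [AddSubmonoidClass.coe_finsetSum, ZeroMemClass.coe_zero, ← hc]
      refine Finset.sum_congr rfl fun p _ => ?_
      rw [← Algebra.smul_def]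
      rfl)
  obtain ⟨a, ha, hsum⟩ := Igusa.Fibre.exists_dependence_fullC
    (fun i => coeffMap qbarToC (z i : LaurentSeries ℚbar))
    (fun i => coeffMap_mem_fullC N (z i).2)
  apply ha
  have hi : ∀ i, (a i).natDegree < (Finset.univ.sup fun i => (a i).natDegree) + 1 := fun i =>
    Nat.lt_succ_of_le (Finset.le_sup (f := fun i => (a i).natDegree) (Finset.mem_univ i))
  set D := (Finset.univ.sup fun i => (a i).natDegree) + 1
  have key : ∑ p ∈ Finset.range D ×ˢ (Finset.univ : Finset (Fin (Fintype.card (Gamma0.Coset N) + 1))),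
      algebraMap ℂ (LaurentSeries ℂ) ((a p.2).coeff p.1) * coeffMap qbarToC (((AdjoinSimple.gen ℚbar (Igusa.jBar N)) ^ p.1 • z p.2 :
        modularFunctionFieldBar N) : LaurentSeries ℚbar) = 0 := by
    rw [Finset.sum_product_right, ← hsum]
    refine Finset.sum_congr rfl fun i _ => ?_
    rw [Polynomial.aeval_eq_sum_range' (hi i), Finset.sum_mul]
    refine Finset.sum_congr rfl fun m _ => ?_
    rw [Algebra.smul_def (AdjoinSimple.gen ℚbar (Igusa.jBar N) ^ m),
      Algebra.smul_def, mul_assoc]
    show _ * coeffMap qbarToC (((((AdjoinSimple.gen ℚbar (Igusa.jBar N)) ^ m :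
      ℚbar⟮Igusa.jBar N⟯) : modularFunctionFieldBar N) : LaurentSeries ℚbar) *
        (z i : LaurentSeries ℚbar)) = _
    rw [map_mul, SubmonoidClass.coe_pow, SubmonoidClass.coe_pow, AdjoinSimple.coe_gen, map_pow,
      coe_jBar_eq, coeffMap_jqModC]
  have hall := hser _ (fun p => (a p.2).coeff p.1) key
  funext i
  ext m
  rw [Pi.zero_apply, Polynomial.coeff_zero]
  by_cases hm : m < D
  · exact hall (m, i) (Finset.mem_product.2 ⟨Finset.mem_range.2 hm, Finset.mem_univ i⟩)
  · exact Polynomial.coeff_eq_zero_of_natDegree_lt (lt_of_lt_of_le (hi i) (not_lt.1 hm))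

section Residual

variable {M q : ℕ} [NeZero M] (A : ValuationSubring ℚbar)

theorem charP_residueField (hq : q.Prime) (hA : A.LiesOverPrime q) :
    CharP (ResidueField A) q := by
  haveI := Fact.mk hq
  refine CharP.charP_iff_prime_eq_zero hq |>.2 ?_
  rw [← map_natCast (residue A) q, residue_eq_zero_iff, mem_maximalIdeal, mem_nonunits_iff]
  intro hu
  have h1 : A.valuation ((q : A) : ℚbar) = 1 := (ValuationSubring.valuation_eq_one_iff A _).1 hu
  rw [show ((q : A) : ℚbar) = (q : ℚbar) from map_natCast A.subtype q] at h1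
  have hlt : A.valuation (q : ℚbar) < 1 := hA
  exact hlt.ne h1

theorem psi_le_finrank_jResidual (hq : q.Prime) (hqM : ¬ q ∣ M) (hA : A.LiesOverPrime q) :
    dedekindPsi M ≤ Module.finrank
      (ResidueField A)⟮(⟨jqModC (ResidueField A), jqModC_mem_full (ResidueField A) M⟩ :
        modularFunctionFieldFullC (ResidueField A) M)⟯
      (modularFunctionFieldFullC (ResidueField A) M) := by
  classical
  haveI := charP_residueField A hq hA
  set k := ResidueField A with hk
  set jb : modularFunctionFieldFullC k M := ⟨jqModC k, jqModC_mem_full k M⟩ with hjb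
  set jN : modularFunctionFieldFullC k M :=
    ⟨jqNModC k M, jqModCd_mem_full k M (dvd_refl M)⟩ with hjN
  let V : Subring ℂ := A.toSubring.map qbarToC
  let e : A ≃+* V := A.toSubring.equivMapOfInjective qbarToC qbarToC.injective
  let f : V →+* k := (residue A).comp e.symm.toRingHom
  have hroot : ∀ d, d ∣ M → ∃ z : Vˣ, Units.map V.subtype z = ModFun.zetaU d := by
    intro d hd
    have hd0 : d ≠ 0 := ne_zero_of_dvd_ne_zero (NeZero.ne M) hd
    have hz : (ModFun.zetaU d : ℂ) ^ d = 1 :=
      (Complex.isPrimitiveRoot_exp d hd0).pow_eq_one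
    have hmem : ∀ w : ℂ, w ^ d = 1 → w ∈ V := by
      intro w hw
      haveI : NeZero d := ⟨hd0⟩
      obtain ⟨z, hz⟩ := HasEnoughRootsOfUnity.exists_primitiveRoot ℚbar d
      obtain ⟨i, -, hi⟩ := (hz.map_of_injective qbarToC.injective).eq_pow_of_pow_eq_one hw
      refine ⟨z ^ i, ?_, by rw [map_pow]; exact hi⟩
      show z ^ i ∈ A
      refine pow_mem ?_ i
      rcases A.mem_or_inv_mem z with h | h
      · exact h
      · have : z = z⁻¹ ^ (d - 1) := by
          rw [← mul_left_inj' (pow_ne_zero (d - 1) (hz.ne_zero hd0)), ← pow_succ',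
            Nat.sub_add_cancel (Nat.one_le_iff_ne_zero.2 hd0), hz.pow_eq_one, ← mul_pow,
            inv_mul_cancel₀ (hz.ne_zero hd0), one_pow]
        show z ∈ A
        rw [this]
        exact pow_mem h _
    exact ⟨⟨⟨_, hmem _ hz⟩, ⟨_, hmem _ (by rw [inv_pow, hz, inv_one] :
        ((ModFun.zetaU d : ℂ)⁻¹) ^ d = 1)⟩,
      Subtype.ext (mul_inv_cancel₀ (ModFun.zetaU d).ne_zero),
      Subtype.ext (inv_mul_cancel₀ (ModFun.zetaU d).ne_zero)⟩, Units.ext rfl⟩
  have hMA : IsUnit (M : A) := by
    by_contra h
    have h1 : residue A (M : A) = 0 := (residue_eq_zero_iff _).2 h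
    rw [map_natCast, CharP.cast_eq_zero_iff k q] at h1
    exact hqM h1
  have hMV : IsUnit (M : V) := by simpa using hMA.map e.toRingHom
  have hind : LinearIndependent k⟮jb⟯ fun i : Fin (Fintype.card (Gamma0.Coset M)) => jN ^ (i : ℕ) := by
    refine (LinearIndependent.iff_fractionRing (Algebra.adjoin k {jb}) k⟮jb⟯).1 ?_
    rw [linearIndependent_iff']
    intro s c hc i hi
    have hr : ∀ r : Algebra.adjoin k {jb}, ∃ P : k[X], Polynomial.aeval jb P = r := fun r => by
      have : (r : modularFunctionFieldFullC k M) ∈ (Polynomial.aeval (R := k) jb).range := by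
        rw [← Algebra.adjoin_singleton_eq_range_aeval]; exact r.2
      exact this
    choose P hP using hr
    have h0 := Igusa.Fibre.independent_jqNModC hroot hMV f
      (fun i => if i ∈ s then P (c i) else 0) ?_
    · have h1 := congrFun h0 i
      simp only [hi, if_true, Pi.zero_apply] at h1
      apply Subtype.ext
      rw [← hP (c i), h1, map_zero]
      rfl
    · rw [← ZeroMemClass.coe_zero (modularFunctionFieldFullC k M), ← hc,
        ← Finset.sum_subset (Finset.subset_univ s) fun x _ hx => by simp [hx]]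
      push_cast
      refine Finset.sum_congr rfl fun l hl => ?_
      rw [if_pos hl, Algebra.smul_def]
      show _ = ((c l : modularFunctionFieldFullC k M) : LaurentSeries k) * _
      rw [← hP (c l)]
      exact (congrArg (· * _) (Polynomial.aeval_algHom_apply
        (modularFunctionFieldFullC k M).val jb (P (c l)))).trans rfl
  have htr : Transcendental k jb := by
    rintro ⟨P, hP, h⟩
    refine ModFun.transcendental_jqModC k ⟨P, hP, ?_⟩
    exact (Polynomial.aeval_algHom_apply (modularFunctionFieldFullC k M).val jb P).trans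
      ((congrArg (modularFunctionFieldFullC k M).val h).trans (map_zero _))
  haveI := finite_adjoin_of_transcendental (K := k) htr
  rw [← card_coset_eq M]
  simpa using hind.fintype_card_le_finrank

end Residual

section Poly

variable {K F : Type*} [Field K] [Field F] [Algebra K F]

theorem ord_aeval_of_ord_neg (v : Place K F) (R : K[X]) (hR : R ≠ 0) {t : F} (ht : v.ord t < 0) :
    v.ord (aeval t R) = R.natDegree * v.ord t := by
  suffices h : ∀ (n : ℕ) (R : K[X]), R.natDegree = n → R ≠ 0 →
      aeval t R ≠ 0 ∧ v.ord (aeval t R) = n * v.ord t from (h _ R rfl hR).2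
  intro n
  induction n with
  | zero =>
    intro R hd hR
    obtain ⟨c, rfl⟩ := Polynomial.natDegree_eq_zero.1 hd
    have hc : c ≠ 0 := fun h => hR (by rw [h, map_zero])
    rw [Polynomial.aeval_C, Fermat.Agent.Curve.ord_algebraMap, Nat.cast_zero, zero_mul]
    exact ⟨(_root_.map_ne_zero _).2 hc, rfl⟩
  | succ n ih =>
    intro R hd hR
    have ht0 : t ≠ 0 := fun h => by rw [h, Place.ord_zero] at ht; exact lt_irrefl _ ht
    have hdiv : R.divX.natDegree = n := by
      rw [Polynomial.natDegree_divX_eq_natDegree_tsub_one, hd, Nat.add_sub_cancel]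
    have hne : R.divX ≠ 0 := fun h => by
      have h' := R.divX_mul_X_add
      rw [h, zero_mul, zero_add] at h'
      rw [← h', Polynomial.natDegree_C] at hd
      omega
    obtain ⟨h0, hord⟩ := ih _ hdiv hne
    have hmain : v.ord (aeval t R.divX * t) = (n + 1 : ℕ) * v.ord t := by
      rw [Place.ord_mul _ h0 ht0, hord]; push_cast; ring
    have hlt : v.ord (aeval t R.divX * t) < 0 := by rw [hmain]; push_cast; nlinarith
    have hm0 : aeval t R.divX * t ≠ 0 := mul_ne_zero h0 ht0
    have heq : v.ord (aeval t R) = v.ord (aeval t R.divX * t) := by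
      conv_lhs => rw [← R.divX_mul_X_add]
      rw [map_add, map_mul, Polynomial.aeval_X, Polynomial.aeval_C]
      refine ord_add_eq_left v hm0 fun _ => ?_
      rw [Fermat.Agent.Curve.ord_algebraMap]
      exact hlt
    refine ⟨fun h => ?_, heq.trans hmain⟩
    rw [h, Place.ord_zero] at heq
    omega

theorem transcendental_aeval {t : F} (ht : Transcendental K t) {R : K[X]}
    (hR : R.natDegree ≠ 0) : Transcendental K (aeval t R) :=
  fun halg => ht (IsAlgebraic.of_aeval R hR
    (mem_nonZeroDivisors_of_ne_zero (leadingCoeff_ne_zero.2 (fun h => hR (by simp [h])))) halg)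

/-- `[F : K (R (t))] = deg R · [F : K (t)]`. -/
theorem finrank_adjoin_aeval [IsFunctionFieldOne K F] {t : F} (ht : Transcendental K t)
    {R : K[X]} (hR : R.natDegree ≠ 0) :
    Module.finrank K⟮aeval t R⟯ F = R.natDegree * Module.finrank K⟮t⟯ F := by
  have hR0 : R ≠ 0 := fun h => hR (by simp [h])
  have hpole : poleDivisor K (aeval t R) = R.natDegree • poleDivisor K t := by
    ext v
    rw [Finsupp.smul_apply, poleDivisor_apply, poleDivisor_apply, nsmul_eq_mul]
    rcases lt_or_ge (v.ord t) 0 with h | h
    · rw [ord_aeval_of_ord_neg v R hR0 h]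
      have : (0 : ℤ) ≤ R.natDegree := Int.natCast_nonneg _
      rw [max_eq_left (by nlinarith), max_eq_left (by linarith)]
      ring
    · have hmem : aeval t R ∈ v.toValuationSubring := by
        have ht' : t ∈ v.toValuationSubring := (mem_iff_ord_nonneg v).2 h 
        rw [Polynomial.aeval_eq_sum_range]
        refine sum_mem fun i _ => ?_
        rw [Algebra.smul_def]
        exact mul_mem (v.algebraMap_mem' _) (pow_mem ht' _)
      have h0 : 0 ≤ v.ord (aeval t R) := by
        exact (mem_iff_ord_nonneg v).1 hmem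
      rw [max_eq_right (by linarith), max_eq_right (by linarith), mul_zero]
  have h1 := degree_poleDivisor (transcendental_aeval ht hR)
  rw [hpole, map_nsmul, degree_poleDivisor ht, nsmul_eq_mul] at h1
  exact_mod_cast h1.symm

end Poly

end Fermat.Agent.BadReduction

end
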