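/-
S34, bad reduction of `X₀(Mq)`, `q ∤ M`: the degree count for the two components.

* `infRed_mem_fullC` : residual functions on the component through `∞` lie in `k X₀(M)`.
* `exists_pair_reduces` : reductions can be prescribed on both components.
* `finrank_x0Fun_eq` : `[F : ℚbar (x)] = 2 [k X₀(M) : k (x̄)]`.
-/
import Fermat.Agent.BadReduction.X0Components
import Fermat.Agent.BadReduction.X0DegreeAbstract
import Fermat.Agent.BadReduction.X0DegreeBound
import Fermat.Agent.ES.SpecialCoeff
import Mathlib.FieldTheory.Finite.GaloisField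
import Mathlib.RingTheory.Polynomial.Basic

set_option autoImplicit false
set_option linter.style.haveILetI false

noncomputable section

open ModularCurve IntermediateField IsLocalRing AlgebraicCurve Polynomial
open Fermat.Agent.Curve

namespace Fermat.Agent.BadReduction

local notation "ℚbar" => AlgebraicClosure ℚ

variable {M q : ℕ} [NeZero M] [hq : Fact q.Prime]

local instance neZero_prime_deg : NeZero q := ⟨hq.out.ne_zero⟩

variable (q) in
/-- There is a monic integral cubic which is irreducible modulo `q`. -/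
theorem exists_cubic :
    ∃ P : ℤ[X], P.Monic ∧ P.natDegree = 3 ∧ Irreducible (P.map (Int.castRingHom (ZMod q))) := by
  have hp := hq.out
  haveI : FiniteDimensional (ZMod q) (GaloisField q 3) := inferInstance
  obtain ⟨α, hα⟩ := Field.exists_primitive_element (ZMod q) (GaloisField q 3)
  have hint : IsIntegral (ZMod q) α := IsIntegral.of_finite (ZMod q) α
  have hmon := minpoly.monic hint
  obtain ⟨P, hP, hdeg, hPm⟩ := Polynomial.lifts_and_natDegree_eq_and_monic
    (Polynomial.map_surjective (Int.castRingHom (ZMod q)) ZMod.intCast_surjective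
      (minpoly (ZMod q) α) |> fun ⟨Q, hQ⟩ => (Polynomial.mem_lifts _).2 ⟨Q, hQ⟩) hmon
  refine ⟨P, hPm, ?_, hP ▸ minpoly.irreducible hint⟩
  rw [hdeg, ← IntermediateField.adjoin.finrank hint, hα, IntermediateField.finrank_top',
    GaloisField.finrank q (by norm_num : 3 ≠ 0)]

variable (q) in
/-- A fixed monic integral cubic, irreducible modulo `q`. -/
def cubic : ℤ[X] := (exists_cubic q).choose

theorem cubic_monic : (cubic q).Monic := (exists_cubic q).choose_spec.1

theorem cubic_natDegree : (cubic q).natDegree = 3 := (exists_cubic q).choose_spec.2.1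

theorem cubic_irreducible : Irreducible ((cubic q).map (Int.castRingHom (ZMod q))) :=
  (exists_cubic q).choose_spec.2.2

variable (M q) in
/-- `P (j)`. -/
def cubicJ : X0F M q := aeval (Igusa.jBar (M * q)) (cubic q)

variable (hqM : ¬ q ∣ M) (A : ValuationSubring ℚbar) (hA : A.LiesOverPrime q)

/-- The function `x = 1 / (P (j) P (j_q))`. -/
def x0Fun : X0F M q := (cubicJ M q * atkinLehner hqM (cubicJ M q))⁻¹

theorem atkinLehner_x0Fun : atkinLehner hqM (x0Fun hqM) = x0Fun hqM := by
  rw [x0Fun, map_inv₀, map_mul, atkinLehner_atkinLehner,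
    mul_comm (atkinLehner hqM (cubicJ M q))]

/-- The residual function field. -/
abbrev X0Res (M : ℕ) (A : ValuationSubring ℚbar) : Type :=
  modularFunctionFieldFullC (ResidueField A) M

variable (M) in
/-- The residual `j`. -/
def jRes : X0Res M A := ⟨jqModC (ResidueField A), jqModC_mem_full (ResidueField A) M⟩

variable (M) in
/-- The residual value of `x`. -/
def x0FunBar : X0Res M A := ((aeval (jRes M A) (cubic q)) ^ (q + 1))⁻¹

theorem aeval_int_eq {R : Type*} [CommRing R] [Algebra ℤ R] (x : R) (Q : ℤ[X]) :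
    aeval x Q = eval₂ (Int.castRingHom R) x Q := by
  rw [aeval_def, RingHom.ext_int (algebraMap ℤ R) (Int.castRingHom R)]

theorem aeval_map_int {k R : Type*} [CommRing k] [CommRing R] [Algebra k R] (x : R) (Q : ℤ[X]) :
    aeval x (Q.map (Int.castRingHom k)) = eval₂ (Int.castRingHom R) x Q := by
  rw [aeval_def, eval₂_map, RingHom.ext_int ((algebraMap k R).comp (Int.castRingHom k))]

section Reduces

variable (M q) in
/-- `z` is integral at `∞` with reduction `v`. -/
def Reduces (z : X0F M q) (v : LaurentSeries (ResidueField A)) : Prop :=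
  ∃ h : z ∈ infV M q A, infRed M q A ⟨z, h⟩ = v

variable {A} {z z' : X0F M q} {v v' : LaurentSeries (ResidueField A)}

theorem Reduces.zero : Reduces M q A 0 0 := ⟨zero_mem _, map_zero (infRed M q A)⟩

theorem Reduces.one : Reduces M q A 1 1 := ⟨one_mem _, map_one (infRed M q A)⟩

theorem Reduces.add (h : Reduces M q A z v) (h' : Reduces M q A z' v') :
    Reduces M q A (z + z') (v + v') := by
  obtain ⟨h, rfl⟩ := h
  obtain ⟨h', rfl⟩ := h'
  exact ⟨add_mem h h', by rw [← map_add]; rfl⟩

theorem Reduces.mul (h : Reduces M q A z v) (h' : Reduces M q A z' v') :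
    Reduces M q A (z * z') (v * v') := by
  obtain ⟨h, rfl⟩ := h
  obtain ⟨h', rfl⟩ := h'
  exact ⟨mul_mem h h', by rw [← map_mul]; rfl⟩

theorem Reduces.neg (h : Reduces M q A z v) : Reduces M q A (-z) (-v) := by
  obtain ⟨h, rfl⟩ := h
  exact ⟨neg_mem h, by rw [← map_neg]; rfl⟩

theorem Reduces.sub (h : Reduces M q A z v) (h' : Reduces M q A z' v') :
    Reduces M q A (z - z') (v - v') := by
  rw [sub_eq_add_neg, sub_eq_add_neg]; exact h.add h'.neg

theorem Reduces.pow (h : Reduces M q A z v) (n : ℕ) : Reduces M q A (z ^ n) (v ^ n) := by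
  obtain ⟨h, rfl⟩ := h
  exact ⟨pow_mem h n, by rw [← map_pow]; rfl⟩

theorem Reduces.ne_zero (h : Reduces M q A z v) (hv : v ≠ 0) : z ≠ 0 := by
  rintro rfl
  obtain ⟨h, rfl⟩ := h
  exact hv (map_zero (infRed M q A))

theorem Reduces.inv (h : Reduces M q A z v) (hv : v ≠ 0) : Reduces M q A z⁻¹ v⁻¹ := by
  have hz := h.ne_zero hv
  obtain ⟨h, rfl⟩ := h
  have hu : IsUnit (⟨z, h⟩ : infV M q A) := by
    by_contra hu
    exact hv ((gaussValRed_eq_zero_iff _ _ A _).2 hu)
  have hmem : z⁻¹ ∈ infV M q A := by
    obtain ⟨u, hu⟩ := hu.exists_right_inv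
    have : z * (u : X0F M q) = 1 := congrArg Subtype.val hu
    rw [inv_eq_of_mul_eq_one_right this]; exact u.2
  refine ⟨hmem, eq_inv_of_mul_eq_one_right ?_⟩
  rw [← map_mul, ← map_one (infRed M q A)]
  exact congrArg _ (Subtype.ext (mul_inv_cancel₀ hz))

theorem Reduces.eval₂ (h : Reduces M q A z v) (Q : ℤ[X]) :
    Reduces M q A (eval₂ (Int.castRingHom _) z Q) (eval₂ (Int.castRingHom _) v Q) := by
  induction Q using Polynomial.induction_on' with
  | add P R hP hR => rw [eval₂_add, eval₂_add]; exact hP.add hR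
  | monomial n c =>
    rw [eval₂_monomial, eval₂_monomial, eq_intCast, eq_intCast]
    exact Reduces.mul ⟨intCast_mem _ c, map_intCast (infRed M q A) c⟩ (h.pow n)

theorem reduces_algebraMap (a : A) :
    Reduces M q A (algebraMap ℚbar (X0F M q) a)
      (algebraMap (ResidueField A) (LaurentSeries (ResidueField A)) (residue A a)) :=
  ⟨(algebraMap_mem_gaussVal_iff _ (modularFunctionFieldBar_le_finFrac (M * q)) A).2 a.2,
    gaussValRed_algebraMap _ _ A a⟩

end Reduces

theorem qExpand_mul_eq_pow [CharP (ResidueField A) q] (d : ℕ) [NeZero d] [NeZero (q * d)] :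
    qExpand (ResidueField A) (q * d) (jqModC (ResidueField A)) =
      qExpand (ResidueField A) d (jqModC (ResidueField A)) ^ q := by
  rw [ES.pow_char_eq (p := q) (qExpand (ResidueField A) d (jqModC (ResidueField A))),
    coeffMap_qExpand, coeffMap_jqModC, qExpand_qExpand]

theorem reduces_jd (d : {d : ℕ // d ∈ (M * q).divisors}) [NeZero d.1] :
    Reduces M q A ⟨jdBar d, jdBar_mem d⟩
      (qExpand (ResidueField A) d.1 (jqModC (ResidueField A))) := by
  have e : (jdBar d : LaurentSeries ℚbar) =
      coeffMap A.subtype (coeffMap (Int.castRingHom A) (qExpand ℤ d.1 (jqModC ℤ))) := by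
    rw [jdBar, coeffEmb_qExpand_jq, coeffMap_coeffMap]
    exact coeffMap_congr (RingHom.ext_int _ _) _
  refine ⟨mem_gaussVal_of_coeffMap _ (modularFunctionFieldBar_le_finFrac (M * q)) A
    (x := ⟨jdBar d, jdBar_mem d⟩) _ e, ?_⟩
  refine (gaussValRed_coeffMap _ (modularFunctionFieldBar_le_finFrac (M * q)) A
    (x := ⟨jdBar d, jdBar_mem d⟩) _ e).trans ?_
  rw [coeffMap_coeffMap, coeffMap_qExpand, coeffMap_jqModC]

/-- `1` as a divisor of `M q`. -/
def oneIdx (M q : ℕ) [NeZero (M * q)] : {d : ℕ // d ∈ (M * q).divisors} :=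
  ⟨1, Nat.one_mem_divisors.2 (NeZero.ne _)⟩

theorem jBar_eq_jd : Igusa.jBar (M * q) = ⟨jdBar (oneIdx M q), jdBar_mem _⟩ := by
  refine Subtype.ext ?_
  rw [Igusa.coe_jBar]
  show _ = coeffEmb ℚbar (qExpand ℚ 1 jq)
  rw [qExpand_one_apply]

theorem reduces_jBar : Reduces M q A (Igusa.jBar (M * q)) (jqModC (ResidueField A)) := by
  haveI : NeZero (oneIdx M q).1 := ⟨one_ne_zero⟩
  rw [jBar_eq_jd]
  convert reduces_jd (A := A) (oneIdx M q) using 1
  exact (qExpand_one_apply _).symm

theorem reduces_atkinLehner_jBar [CharP (ResidueField A) q] :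
    Reduces M q A (atkinLehner hqM (Igusa.jBar (M * q))) (jqModC (ResidueField A) ^ q) := by
  haveI : NeZero (swapIdx hqM (oneIdx M q)).1 :=
    ⟨(Nat.pos_of_mem_divisors (swapIdx hqM (oneIdx M q)).2).ne'⟩
  rw [jBar_eq_jd, atkinLehner_apply, atkinHom_jdBar]
  convert reduces_jd (A := A) (swapIdx hqM (oneIdx M q)) using 1
  haveI : NeZero (q * 1) := ⟨by simpa using hq.out.ne_zero⟩
  have e : (swapIdx hqM (oneIdx M q)).1 = q * 1 := by
    show swapDiv M q 1 = q * 1
    rw [swapDiv, if_neg (by simpa using hq.out.ne_one), mul_comm]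
  rw [qExpand_congr e, qExpand_mul_eq_pow (A := A) 1, qExpand_one_apply]

theorem transcendental_jqModC_res : Transcendental (ResidueField A) (jqModC (ResidueField A)) :=
  ModFun.transcendental_jqModC (ResidueField A)

theorem jq_sub_pow_ne_zero :
    jqModC (ResidueField A) - jqModC (ResidueField A) ^ (q * q) ≠ 0 := by
  intro h
  refine transcendental_jqModC_res A ⟨X - X ^ (q * q), fun h0 => ?_, by simpa using h⟩
  have := congrArg (fun P : (ResidueField A)[X] => P.coeff 1) h0
  have h1 : q * q ≠ 1 := fun h => hq.out.ne_one (Nat.eq_one_of_mul_eq_one_right h)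
  simp [coeff_X_pow, Ne.symm h1] at this

/-- A function symmetric-complementary for `w_q`, with residues `1` and `0`. -/
theorem exists_indicator [CharP (ResidueField A) q] :
    ∃ ε : X0F M q, Reduces M q A ε 1 ∧ Reduces M q A (atkinLehner hqM ε) 0 ∧
      atkinLehner hqM ε = 1 - ε := by
  set J := Igusa.jBar (M * q) with hJ
  set J' := atkinLehner hqM J with hJ'
  set c := jqModC (ResidueField A) - jqModC (ResidueField A) ^ (q * q) with hc
  have he : Reduces M q A (J' - J ^ q) 0 := by
    have h := (reduces_atkinLehner_jBar hqM A).sub ((reduces_jBar (M := M) (q := q) A).pow q)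
    rwa [sub_self] at h
  have hf : Reduces M q A (J - J' ^ q) c := by
    rw [hc, pow_mul]
    exact (reduces_jBar (M := M) (q := q) A).sub ((reduces_atkinLehner_jBar hqM A).pow q)
  have hs : Reduces M q A ((J' - J ^ q) + (J - J' ^ q)) c := by simpa using he.add hf
  have hc0 : c ≠ 0 := jq_sub_pow_ne_zero A
  have hs0 : (J' - J ^ q) + (J - J' ^ q) ≠ 0 := hs.ne_zero hc0
  have hwJ : atkinLehner hqM J' = J := atkinLehner_atkinLehner hqM J
  have hw : atkinLehner hqM ((J - J' ^ q) * ((J' - J ^ q) + (J - J' ^ q))⁻¹) =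
      (J' - J ^ q) * ((J' - J ^ q) + (J - J' ^ q))⁻¹ := by
    rw [map_mul, map_inv₀, map_add, map_sub, map_sub, map_pow, map_pow, hwJ, ← hJ',
      add_comm (J - J' ^ q)]
  refine ⟨(J - J' ^ q) * ((J' - J ^ q) + (J - J' ^ q))⁻¹, ?_, ?_, ?_⟩
  · simpa [mul_inv_cancel₀ hc0] using hf.mul (hs.inv hc0)
  · rw [hw]; simpa using he.mul (hs.inv hc0)
  · rw [hw, eq_sub_iff_add_eq, ← add_mul, mul_inv_cancel₀ hs0]

theorem exists_both [CharP (ResidueField A) q] {z : X0F M q}
    {v : LaurentSeries (ResidueField A)} (h : Reduces M q A z v) :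
    ∃ z' : X0F M q, Reduces M q A z' v ∧ ∃ v', Reduces M q A (atkinLehner hqM z') v' := by
  by_cases hz : atkinLehner hqM z ∈ infV M q A
  · exact ⟨z, h, _, hz, rfl⟩
  obtain ⟨ε, hε, hwε, hcomp⟩ := exists_indicator hqM A
  set y := atkinLehner hqM z with hy
  have hy0 : y ≠ 0 := fun h0 => hz (h0 ▸ zero_mem _)
  have hyinv : Reduces M q A y⁻¹ 0 := by
    have hmem := ((infV M q A).mem_or_inv_mem y).resolve_left hz
    refine ⟨hmem, (gaussValRed_eq_zero_iff _ _ A _).2 fun hu => hz ?_⟩
    obtain ⟨u, hu⟩ := hu.exists_right_inv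
    have : y⁻¹ * (u : X0F M q) = 1 := congrArg Subtype.val hu
    rw [← inv_inv y, inv_eq_of_mul_eq_one_right this]
    exact u.2
  have hden : Reduces M q A (y⁻¹ + ε) 1 := by simpa using hyinv.add hε
  have hden' : Reduces M q A (1 + z * atkinLehner hqM ε) 1 := by
    simpa using Reduces.one.add (h.mul hwε)
  refine ⟨z * (1 + z * atkinLehner hqM ε)⁻¹, by simpa using h.mul (hden'.inv one_ne_zero),
    1⁻¹, ?_⟩
  have e : atkinLehner hqM (z * (1 + z * atkinLehner hqM ε)⁻¹) = (y⁻¹ + ε)⁻¹ := by
    rw [map_mul, map_inv₀, map_add, map_one, map_mul, atkinLehner_atkinLehner, ← hy]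
    field_simp
  rw [e]
  exact hden.inv one_ne_zero

/-- Reductions can be prescribed on both components. -/
theorem exists_pair_reduces [CharP (ResidueField A) q] {z₀ z₁ : X0F M q}
    {v₀ v₁ : LaurentSeries (ResidueField A)} (h₀ : Reduces M q A z₀ v₀)
    (h₁ : Reduces M q A z₁ v₁) :
    ∃ y : X0F M q, Reduces M q A y v₀ ∧ Reduces M q A (atkinLehner hqM y) v₁ := by
  obtain ⟨ε, hε, hwε, hcomp⟩ := exists_indicator hqM A
  obtain ⟨a, ha, a', ha'⟩ := exists_both hqM A h₀
  obtain ⟨b, hb, b', hb'⟩ := exists_both hqM A h₁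
  refine ⟨a * ε + atkinLehner hqM b * atkinLehner hqM ε, ?_, ?_⟩
  · simpa using (ha.mul hε).add (hb'.mul hwε)
  · rw [map_add, map_mul, map_mul, atkinLehner_atkinLehner, atkinLehner_atkinLehner]
    simpa using (ha'.mul hwε).add (hb.mul hε)

theorem exists_reduces_of_mem [CharP (ResidueField A) q] {v : LaurentSeries (ResidueField A)}
    (hv : v ∈ modularFunctionFieldFullC (ResidueField A) M) :
    ∃ z : X0F M q, Reduces M q A z v := by
  induction hv using Subfield.closure_induction with
  | mem y hy =>
    rcases hy with ⟨c, rfl⟩ | ⟨d, hne, hd, rfl⟩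
    · obtain ⟨a, rfl⟩ := residue_surjective c
      exact ⟨_, reduces_algebraMap a⟩
    · haveI := hne
      haveI : NeZero (⟨d, Nat.mem_divisors.2 ⟨hd.trans (dvd_mul_right M q), NeZero.ne _⟩⟩ :
        {d : ℕ // d ∈ (M * q).divisors}).1 := hne
      exact ⟨_, reduces_jd A
        ⟨d, Nat.mem_divisors.2 ⟨hd.trans (dvd_mul_right M q), NeZero.ne _⟩⟩⟩
  | one => exact ⟨_, Reduces.one⟩
  | add x y _ _ hx hy => exact ⟨_, hx.choose_spec.add hy.choose_spec⟩
  | neg x _ hx => exact ⟨_, hx.choose_spec.neg⟩
  | inv x _ hx =>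
    rcases eq_or_ne x 0 with rfl | h0
    · exact ⟨0, by rw [inv_zero]; exact Reduces.zero⟩
    · exact ⟨_, hx.choose_spec.inv h0⟩
  | mul x y _ _ hx hy => exact ⟨_, hx.choose_spec.mul hy.choose_spec⟩

theorem aeval_cubic_ne_zero :
    eval₂ (Int.castRingHom _) (jqModC (ResidueField A)) (cubic q) ≠ 0 := by
  intro h
  refine transcendental_jqModC_res A ⟨(cubic q).map (Int.castRingHom _),
    (cubic_monic.map _).ne_zero, ?_⟩
  rw [aeval_map_int, h]

theorem coe_x0FunBar : ((x0FunBar M A (q := q) : X0Res M A) : LaurentSeries (ResidueField A)) =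
    ((eval₂ (Int.castRingHom _) (jqModC (ResidueField A)) (cubic q)) ^ (q + 1))⁻¹ := by
  rw [x0FunBar, aeval_int_eq]
  show (modularFunctionFieldFullC (ResidueField A) M).val
    (((eval₂ (Int.castRingHom _) (jRes M A) (cubic q)) ^ (q + 1))⁻¹) = _
  rw [map_inv₀, map_pow]
  congr 2
  show (modularFunctionFieldFullC (ResidueField A) M).val.toRingHom _ = _
  rw [hom_eval₂, RingHom.ext_int (RingHom.comp _ _)]
  rfl

theorem reduces_x0Fun [CharP (ResidueField A) q] :
    Reduces M q A (x0Fun hqM)
      (x0FunBar M A (q := q) : LaurentSeries (ResidueField A)) := by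
  haveI : CharP (LaurentSeries (ResidueField A)) q :=
    charP_of_injective_algebraMap (algebraMap (ResidueField A) _).injective q
  have h1 := (reduces_jBar (M := M) (q := q) A).eval₂ (cubic q)
  have h2 := (reduces_atkinLehner_jBar (A := A) hqM).eval₂ (cubic q)
  have e : eval₂ (Int.castRingHom _) (jqModC (ResidueField A) ^ q) (cubic q) =
      eval₂ (Int.castRingHom _) (jqModC (ResidueField A)) (cubic q) ^ q := by
    rw [← frobenius_def q (eval₂ _ _ _), hom_eval₂, RingHom.ext_int (RingHom.comp _ _)]
    rfl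
  have ew : atkinLehner hqM (cubicJ M q) =
      eval₂ (Int.castRingHom _) (atkinLehner hqM (Igusa.jBar (M * q))) (cubic q) := by
    rw [cubicJ, aeval_int_eq]
    show (atkinLehner hqM).toRingEquiv.toRingHom _ = _
    rw [hom_eval₂, RingHom.ext_int (RingHom.comp _ _)]
    rfl
  rw [coe_x0FunBar, pow_succ', x0Fun, ew, cubicJ, aeval_int_eq, ← e]
  exact (h1.mul h2).inv (by
    rw [e]; exact mul_ne_zero (aeval_cubic_ne_zero A) (pow_ne_zero _ (aeval_cubic_ne_zero A)))

theorem transcendental_jRes : Transcendental (ResidueField A) (jRes M A) := fun h =>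
  transcendental_jqModC_res A (h.algHom (modularFunctionFieldFullC (ResidueField A) M).val)

theorem x0FunBar_eq : x0FunBar M A (q := q) =
    (aeval (jRes M A) (((cubic q).map (Int.castRingHom (ResidueField A))) ^ (q + 1)))⁻¹ := by
  rw [x0FunBar, map_pow, aeval_map_int, aeval_int_eq]

theorem natDegree_cubic_pow :
    (((cubic q).map (Int.castRingHom (ResidueField A))) ^ (q + 1)).natDegree = 3 * (q + 1) := by
  rw [natDegree_pow, cubic_monic.natDegree_map, cubic_natDegree, mul_comm]

theorem x0FunBar_transcendental' :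
    Transcendental (ResidueField A) (x0FunBar M A (q := q)) := by
  rw [x0FunBar_eq]
  exact transcendental_inv (transcendental_aeval (transcendental_jRes A)
    (by rw [natDegree_cubic_pow]; omega))

include hA in
theorem psi_le_finrank_x0FunBar (hqM : ¬ q ∣ M) :
    3 * (q + 1) * dedekindPsi M ≤
      Module.finrank (ResidueField A)⟮x0FunBar M A (q := q)⟯ (X0Res M A) := by
  have h1 : (ResidueField A)⟮x0FunBar M A (q := q)⟯ = (ResidueField A)⟮aeval (jRes M A)
      (((cubic q).map (Int.castRingHom (ResidueField A))) ^ (q + 1))⟯ := by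
    rw [x0FunBar_eq, adjoin_inv]
  rw [h1, finrank_adjoin_aeval (transcendental_jRes A) (by rw [natDegree_cubic_pow]; omega),
    natDegree_cubic_pow]
  exact Nat.mul_le_mul_left _ (psi_le_finrank_jResidual A hq.out hqM hA)

include hA in
theorem transcendental_x0Fun : Transcendental ℚbar (x0Fun hqM) := by
  haveI := charP_residueField A hq.out hA
  intro halg
  obtain ⟨c, hc⟩ : ∃ c, algebraMap ℚbar (X0F M q) c = x0Fun hqM := by
    have hint := halg.isIntegral
    exact minpoly.natDegree_eq_one_iff.1 (Polynomial.natDegree_eq_of_degree_eq_some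
      (IsAlgClosed.degree_eq_one_of_irreducible _ (minpoly.irreducible hint)))
  obtain ⟨hmem, hred⟩ := reduces_x0Fun hqM A
  have hcA : c ∈ A := (algebraMap_mem_gaussVal_iff _
    (modularFunctionFieldBar_le_finFrac (M * q)) A).1 (hc ▸ hmem)
  obtain ⟨h', hred'⟩ := reduces_algebraMap (M := M) (q := q) (A := A) ⟨c, hcA⟩
  refine x0FunBar_transcendental' (M := M) (q := q) A ?_
  have he : (x0FunBar M A (q := q) : LaurentSeries (ResidueField A)) =
      algebraMap (ResidueField A) _ (residue A ⟨c, hcA⟩) := by
    rw [← hred, ← hred']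
    congr 1
    exact Subtype.ext hc.symm
  rw [show x0FunBar M A (q := q) = algebraMap (ResidueField A) (X0Res M A) (residue A ⟨c, hcA⟩)
    from Subtype.ext he]
  exact isAlgebraic_algebraMap _

include hA in
theorem finrank_x0Fun_le : Module.finrank ℚbar⟮x0Fun hqM⟯ (X0F M q) ≤
    2 * (3 * (q + 1) * dedekindPsi M) := by
  have hP : ((cubic q).map (Int.castRingHom ℚbar)).natDegree = 3 := by
    rw [cubic_monic.natDegree_map, cubic_natDegree]
  have hT : cubicJ M q = aeval (Igusa.jBar (M * q)) ((cubic q).map (Int.castRingHom ℚbar)) := by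
    rw [cubicJ, aeval_map_int, aeval_int_eq]
  have ht : Transcendental ℚbar (cubicJ M q) :=
    hT ▸ transcendental_aeval (transcendental_jBar (M * q)) (by omega)
  have ht' : Transcendental ℚbar (atkinLehner hqM (cubicJ M q)) := fun h => ht (by
    have := h.algHom (atkinLehner hqM).symm.toAlgHom
    have e := (atkinLehner hqM).symm_apply_apply (cubicJ M q)
    exact (e ▸ this : IsAlgebraic ℚbar (cubicJ M q)))
  have hx := transcendental_x0Fun hqM A hA
  have hprod : Transcendental ℚbar (cubicJ M q * atkinLehner hqM (cubicJ M q)) := by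
    have := transcendental_inv hx
    rwa [x0Fun, inv_inv] at this
  have hd : Module.finrank ℚbar⟮cubicJ M q⟯ (X0F M q) ≤ 3 * dedekindPsi (M * q) := by
    rw [hT, finrank_adjoin_aeval (transcendental_jBar (M * q)) (by omega), hP]
    exact Nat.mul_le_mul_left _ (finrank_jBar_le (M * q))
  have hpsi : dedekindPsi (M * q) = dedekindPsi M * (q + 1) := by
    have hco : M.Coprime q := ((Nat.Prime.coprime_iff_not_dvd hq.out).2 hqM).symm
    rw [Gamma0.dedekindPsi_mul hco]
    have := Gamma0.dedekindPsi_prime_pow hq.out 0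
    rw [zero_add, pow_one, pow_zero] at this
    rw [this]
  refine (le_of_eq ?_).trans ((finrank_adjoin_mul_le ht ht' hprod).trans ?_)
  · rw [x0Fun, adjoin_inv]
  · rw [finrank_adjoin_algEquiv]
    rw [hpsi] at hd
    linarith

/-- A family of residual series is independent over `k (x̄)`. -/
def IndepX {I : Type*} [Fintype I] (u : I → LaurentSeries (ResidueField A)) : Prop :=
  ∀ a : I → (ResidueField A)[X], ∑ i, aeval
    (x0FunBar M A (q := q) : LaurentSeries (ResidueField A)) (a i) * u i = 0 → a = 0

include hA in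
theorem card_add_card_le {I J : Type} [Fintype I] [Fintype J]
    {u : I → LaurentSeries (ResidueField A)} {u' : J → LaurentSeries (ResidueField A)}
    (hu : IndepX (M := M) (q := q) A u) (hu' : IndepX (M := M) (q := q) A u')
    (hr : ∀ i, ∃ z, Reduces M q A z (u i)) (hr' : ∀ j, ∃ z, Reduces M q A z (u' j)) :
    Fintype.card I + Fintype.card J ≤ Module.finrank ℚbar⟮x0Fun hqM⟯ (X0F M q) := by
  classical
  haveI := charP_residueField A hq.out hA
  haveI := finite_adjoin_of_transcendental (transcendental_x0Fun hqM A hA)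
  have hl : ∀ p : I ⊕ J, ∃ y : X0F M q,
      Reduces M q A y (Sum.elim u 0 p) ∧ Reduces M q A (atkinLehner hqM y) (Sum.elim 0 u' p) := by
    rintro (i | j)
    · exact exists_pair_reduces hqM A (hr i).choose_spec Reduces.zero
    · exact exists_pair_reduces hqM A Reduces.zero (hr' j).choose_spec
  choose y hy hy' using hl
  let O : Subring (X0F M q) := (infV M q A).toSubring ⊓
    (infV M q A).toSubring.comap (atkinLehner hqM).toRingEquiv.toRingHom
  let r : Fin 2 → O →+* LaurentSeries (ResidueField A) := ![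
    (infRed M q A).comp (Subring.inclusion inf_le_left),
    (infRed M q A).comp (((atkinLehner hqM).toRingEquiv.toRingHom.comp O.subtype).codRestrict
      (infV M q A) fun z => (z.2).2)]
  let c : A →+* O := ((algebraMap ℚbar (X0F M q)).comp A.subtype).codRestrict O fun a =>
    ⟨(reduces_algebraMap a).1, by
      show atkinLehner hqM (algebraMap ℚbar (X0F M q) a) ∈ infV M q A
      rw [AlgEquiv.commutes]; exact (reduces_algebraMap a).1⟩
  have hx := reduces_x0Fun hqM A
  have hx' : Reduces M q A (atkinLehner hqM (x0Fun hqM))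
      (x0FunBar M A (q := q) : LaurentSeries (ResidueField A)) := by
    rw [atkinLehner_x0Fun]; exact hx
  rw [← Fintype.card_sum]
  refine card_le_finrank_of_red A (residue A) (L := fun _ : Fin 2 =>
    LaurentSeries (ResidueField A)) O c (fun _ => rfl) r
    (fun j a => by
      fin_cases j
      · exact (reduces_algebraMap (M := M) (q := q) a).2
      · refine Eq.trans ?_ (reduces_algebraMap (M := M) (q := q) a).2
        show infRed M q A _ = infRed M q A _
        congr 1
        refine Subtype.ext ?_
        exact AlgEquiv.commutes (atkinLehner hqM) (a : ℚbar))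
    ⟨x0Fun hqM, hx.1, hx'.1⟩ (fun _ => (x0FunBar M A (q := q) : LaurentSeries (ResidueField A)))
    (fun j => by
      fin_cases j
      · exact hx.2
      · exact hx'.2)
    (fun p => ⟨y p, (hy p).1, (hy' p).1⟩)
    (hind := ?_)
  intro a ha
  have h0 := ha (0 : Fin 2)
  have h1 := ha (1 : Fin 2)
  have e0 : ∀ p, r 0 ⟨y p, (hy p).1, (hy' p).1⟩ =
      Sum.elim u (0 : J → LaurentSeries (ResidueField A)) p := fun p => (hy p).2
  have e1 : ∀ p, r 1 ⟨y p, (hy p).1, (hy' p).1⟩ =
      Sum.elim (0 : I → LaurentSeries (ResidueField A)) u' p := fun p => (hy' p).2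
  simp only [e0, e1, Fintype.sum_sum_type, Sum.elim_inl, Sum.elim_inr, Pi.zero_apply,
    mul_zero, Finset.sum_const_zero, add_zero, zero_add] at h0 h1
  funext p
  rcases p with i | j
  · exact congrFun (hu _ h0) i
  · exact congrFun (hu' _ h1) j

theorem indepX_basis :
    IndepX (M := M) (q := q) A fun i : Fin (Module.finrank
      (ResidueField A)⟮x0FunBar M A (q := q)⟯ (X0Res M A)) =>
      (haveI := finite_adjoin_of_transcendental
        (x0FunBar_transcendental' (M := M) (q := q) A)
       ((Module.finBasis (ResidueField A)⟮x0FunBar M A (q := q)⟯ (X0Res M A) i : X0Res M A) :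
        LaurentSeries (ResidueField A))) := by
  intro a ha
  haveI := finite_adjoin_of_transcendental (x0FunBar_transcendental' (M := M) (q := q) A)
  set b := Module.finBasis (ResidueField A)⟮x0FunBar M A (q := q)⟯ (X0Res M A)
  let g : Fin _ → (ResidueField A)⟮x0FunBar M A (q := q)⟯ := fun i =>
    aeval (AdjoinSimple.gen (ResidueField A) (x0FunBar M A (q := q))) (a i)
  have hg : ∀ i, ((g i : X0Res M A)) = aeval (x0FunBar M A (q := q)) (a i) := fun i =>
    (aeval_algHom_apply (ResidueField A)⟮x0FunBar M A (q := q)⟯.val _ (a i)).symm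
  have h0 : ∑ i, g i • b i = 0 := by
    apply Subtype.ext
    rw [AddSubmonoidClass.coe_finsetSum, ZeroMemClass.coe_zero, ← ha]
    refine Finset.sum_congr rfl fun i _ => ?_
    rw [Algebra.smul_def, MulMemClass.coe_mul]
    congr 1
    show (((g i : X0Res M A)) : LaurentSeries (ResidueField A)) = _
    rw [hg]
    exact (aeval_algHom_apply (modularFunctionFieldFullC (ResidueField A) M).val _ (a i)).symm
  funext i
  have h := Fintype.linearIndependent_iff.1 b.linearIndependent g h0 i
  refine transcendental_iff.1 (x0FunBar_transcendental' (M := M) (q := q) A) _ ?_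
  rw [← hg, h]
  rfl

include hA in
/-- No degree is lost in the two components. -/
theorem finrank_x0Fun_eq : Module.finrank ℚbar⟮x0Fun hqM⟯ (X0F M q) =
    2 * Module.finrank (ResidueField A)⟮x0FunBar M A (q := q)⟯ (X0Res M A) := by
  haveI := charP_residueField A hq.out hA
  refine le_antisymm ((finrank_x0Fun_le hqM A hA).trans
    (Nat.mul_le_mul_left _ (psi_le_finrank_x0FunBar A hA hqM))) ?_
  have hr := fun i : Fin _ => exists_reduces_of_mem (q := q) A
    ((haveI := finite_adjoin_of_transcendental (x0FunBar_transcendental' (M := M) (q := q) A)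
      Module.finBasis (ResidueField A)⟮x0FunBar M A (q := q)⟯ (X0Res M A) i : X0Res M A)).2
  have h := card_add_card_le hqM A hA (indepX_basis A) (indepX_basis A) hr hr
  rw [Fintype.card_fin] at h
  omega

include hA in
/-- The residual functions on the component through `∞` lie in the function field of `X₀(M)`. -/
theorem infRed_mem_fullC (hqM : ¬ q ∣ M) (z : infV M q A) :
    infRed M q A z ∈ modularFunctionFieldFullC (ResidueField A) M := by
  haveI := charP_residueField A hq.out hA
  haveI := finite_adjoin_of_transcendental (x0FunBar_transcendental' (M := M) (q := q) A)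
  by_contra hz
  set b := Module.finBasis (ResidueField A)⟮x0FunBar M A (q := q)⟯ (X0Res M A)
  have hr := fun i : Fin _ => exists_reduces_of_mem (q := q) A (b i).2
  have hu : IndepX (M := M) (q := q) A (fun o : Option (Fin _) =>
      o.elim (infRed M q A z) fun i => (b i : LaurentSeries (ResidueField A))) := by
    intro a ha
    rw [Fintype.sum_option] at ha
    have h0 : a none = 0 := by
      by_contra hne
      apply hz
      have hx0 : aeval (x0FunBar M A (q := q) : LaurentSeries (ResidueField A)) (a none) ≠ 0 :=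
        fun h => hne (transcendental_iff.1 (x0FunBar_transcendental' (M := M) (q := q) A) _
          (Subtype.ext ((aeval_algHom_apply
            (modularFunctionFieldFullC (ResidueField A) M).val _ _).symm.trans h)))
      have hmem : ∀ p : (ResidueField A)[X],
          aeval (x0FunBar M A (q := q) : LaurentSeries (ResidueField A)) p ∈
            modularFunctionFieldFullC (ResidueField A) M := fun p => by
        rw [← IntermediateField.coe_val, aeval_algHom_apply]; exact Subtype.coe_prop _
      have e := eq_neg_of_add_eq_zero_left ha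
      rw [← eq_inv_mul_iff_mul_eq₀ hx0] at e
      simp only [Option.elim_none] at e
      rw [e]
      exact mul_mem (inv_mem (hmem _)) (neg_mem (sum_mem fun i _ => mul_mem (hmem _) (b i).2))
    rw [h0, map_zero, zero_mul, zero_add] at ha
    have h1 := indepX_basis A (fun i => a (some i)) ha
    funext o
    cases o with
    | none => exact h0
    | some i => exact congrFun h1 i
  have h := card_add_card_le hqM A hA hu (indepX_basis A) (by
    rintro (_ | i)
    · exact ⟨z, z.2, rfl⟩
    · exact hr i) hr
  rw [Fintype.card_option, Fintype.card_fin, finrank_x0Fun_eq hqM A hA] at h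
  omega

end Fermat.Agent.BadReduction

end
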