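/-
S34, bad reduction of `X₀(Mq)`, `q ∤ M`: the reductions on the two components, with values in
the function field of `X₀(M)` over the residue field.
-/
import Fermat.Agent.BadReduction.X0Degree

set_option autoImplicit false
set_option linter.style.haveILetI false

noncomputable section

open ModularCurve IntermediateField IsLocalRing AlgebraicCurve

namespace Fermat.Agent.BadReduction

local notation "ℚbar" => AlgebraicClosure ℚ

variable {M q : ℕ} [NeZero M] [hq : Fact q.Prime]

local instance neZero_primeModel : NeZero q := ⟨hq.out.ne_zero⟩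

variable (hqM : ¬ q ∣ M) (A : ValuationSubring ℚbar)

variable (hA : A.LiesOverPrime q)

/-- The reduction on the component through `∞`. -/
def redInf : infV M q A →+* X0Res M A :=
  (infRed M q A).codRestrict (modularFunctionFieldFullC (ResidueField A) M)
    (infRed_mem_fullC A hA hqM)

/-- The reduction on the two components. -/
def compPhi : ∀ i : Fin 2, compV hqM A i →+* X0Res M A
  | 0 => redInf hqM A hA
  | 1 => (redInf hqM A hA).comp
      (((atkinLehner hqM : X0F M q →+* X0F M q).comp
        (compV hqM A 1).subtype).codRestrict (infV M q A) fun x => x.2)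

theorem coe_compPhi_zero (x : compV hqM A 0) :
    (compPhi hqM A hA 0 x : LaurentSeries (ResidueField A)) = infRed M q A x := rfl

theorem coe_compPhi_one (x : compV hqM A 1) :
    (compPhi hqM A hA 1 x : LaurentSeries (ResidueField A)) =
      infRed M q A ⟨atkinLehner hqM (x : X0F M q), x.2⟩ := rfl

theorem compPhi_algebraMap : ∀ (i : Fin 2) (a : A),
    compPhi hqM A hA i
      ⟨algebraMap ℚbar (X0F M q) a, (algebraMap_mem_compV_iff hqM A i a).2 a.2⟩ =
      algebraMap (ResidueField A) (X0Res M A) (residue A a)
  | 0, a => Subtype.ext (gaussValRed_algebraMap _ _ A a)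
  | 1, a => Subtype.ext (by
      rw [coe_compPhi_one]
      refine Eq.trans ?_ (gaussValRed_algebraMap _ (modularFunctionFieldBar_le_finFrac (M * q)) A a)
      show gaussValRed _ _ A _ = _
      congr 1
      exact Subtype.ext (AlgEquiv.commutes _ _))

theorem exists_scale_compV : ∀ (i : Fin 2) (f : X0F M q), f ≠ 0 →
    ∃ c : ℚbar, ∃ h : c • f ∈ compV hqM A i, compPhi hqM A hA i ⟨c • f, h⟩ ≠ 0
  | 0, f, hf => by
    obtain ⟨c, h, hne⟩ := exists_scale_gaussVal _ (modularFunctionFieldBar_le_finFrac (M * q)) A hf
    exact ⟨c, h, fun h0 => hne (congrArg Subtype.val h0)⟩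
  | 1, f, hf => by
    obtain ⟨c, h, hne⟩ := exists_scale_gaussVal _ (modularFunctionFieldBar_le_finFrac (M * q)) A
      ((map_ne_zero (atkinLehner hqM)).2 hf)
    have hmem : c • f ∈ compV hqM A 1 := by
      rw [mem_compV_one, atkinLehner_smul]; exact h
    refine ⟨c, hmem, fun h0 => hne ?_⟩
    have := congrArg Subtype.val h0
    rw [coe_compPhi_one] at this
    refine Eq.trans ?_ this
    show gaussValRed _ _ A _ = gaussValRed _ _ A _
    congr 1
    exact Subtype.ext (atkinLehner_smul hqM c f).symm

/-- Inertia acts trivially on the residual fields. -/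
theorem compPhi_galois {σ : ℚbar ≃ₐ[ℚ] ℚbar} (hσ : σ ∈ A.inertiaSubgroupIn ℚ)
    (i : Fin 2) (x : compV hqM A i) :
    ∃ h : arithmeticGalois (modularFunctionFieldFull (M * q)) σ • (x : X0F M q) ∈ compV hqM A i,
      compPhi hqM A hA i ⟨_, h⟩ = compPhi hqM A hA i x := by
  obtain ⟨⟨σ', hσ'⟩, hker, rfl⟩ := Subgroup.mem_map.1 hσ
  have htriv : ∀ a : A,
      residue A ((⟨σ', hσ'⟩ : A.decompositionSubgroup ℚ) • a) = residue A a := fun a => by
    have h1 := RingEquiv.congr_fun (MonoidHom.mem_ker.1 hker) (residue A a)
    rw [RingAut.one_apply, MulSemiringAction.toRingAut_apply,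
      MulSemiringAction.toRingEquiv_apply_apply, ← ResidueField.residue_smul] at h1
    exact h1
  refine ⟨(galois_mem_compV_iff hqM A hσ' i _).2 x.2, ?_⟩
  match i, x with
  | 0, x =>
    refine Subtype.ext ?_
    rw [coe_compPhi_zero, coe_compPhi_zero]
    exact infRed_galois A hσ' htriv x.2
  | 1, x =>
    refine Subtype.ext ?_
    rw [coe_compPhi_one, coe_compPhi_one]
    have hx : atkinLehner hqM (x : X0F M q) ∈ infV M q A := x.2
    refine Eq.trans ?_ (infRed_galois A hσ' htriv hx)
    congr 1
    exact Subtype.ext (atkinLehner_galois hqM σ' _)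

end Fermat.Agent.BadReduction

end
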