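/-
S34, bad reduction of `X₀(Mq)`: the `MultiReduction` with components through `∞` and `w_q ∞`,
and the function `x = 1 / (P (j) P (j_q))`, where `P` is a monic integral cubic which is
irreducible modulo `q`.
-/
import Fermat.Agent.BadReduction.X0Model
import Fermat.Agent.Bad.Gluing
import Fermat.Agent.Igusa.JacobianSlice
import Mathlib.FieldTheory.Finite.GaloisField
import Mathlib.RingTheory.Polynomial.Basic

set_option autoImplicit false
set_option linter.style.haveILetI false

noncomputable section

open ModularCurve IntermediateField IsLocalRing AlgebraicCurve Polynomial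
open Fermat.Agent.Curve Fermat.Agent.Bad

namespace Fermat.Agent.BadReduction

local notation "ℚbar" => AlgebraicClosure ℚ

variable {M q : ℕ} [NeZero M] [hq : Fact q.Prime]

local instance neZero_prime' : NeZero q := ⟨hq.out.ne_zero⟩

variable (hqM : ¬ q ∣ M) (A : ValuationSubring ℚbar) (hA : A.LiesOverPrime q)

include hA in
theorem x0Fun_mem : ∀ i : Fin 2, x0Fun hqM ∈ compV hqM A i
  | 0 => by
    haveI := charP_residueField A hq.out hA
    exact (reduces_x0Fun hqM A).1
  | 1 => by
    haveI := charP_residueField A hq.out hA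
    rw [mem_compV_one, atkinLehner_x0Fun]
    exact (reduces_x0Fun hqM A).1

theorem compPhi_x0Fun (i : Fin 2) :
    compPhi hqM A hA i ⟨x0Fun hqM, x0Fun_mem hqM A hA i⟩ = x0FunBar M A (q := q) := by
  haveI := charP_residueField A hq.out hA
  refine Subtype.ext ?_
  fin_cases i
  · exact (reduces_x0Fun hqM A).2
  · refine Eq.trans ?_ (reduces_x0Fun hqM A).2
    show infRed M q A _ = infRed M q A _
    congr 1
    exact Subtype.ext (atkinLehner_x0Fun hqM)

theorem x0FunBar_transcendental :
    Transcendental (ResidueField A) (x0FunBar M A (q := q)) :=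
  x0FunBar_transcendental' A

include hA in
theorem exists_lift_compPhi (h : Fin 2 → X0Res M A) :
    ∃ f : X0F M q, ∃ hf : ∀ i, f ∈ compV hqM A i, ∀ i, compPhi hqM A hA i ⟨f, hf i⟩ = h i := by
  haveI := charP_residueField A hq.out hA
  obtain ⟨z₀, h₀⟩ := exists_reduces_of_mem (q := q) A (h 0).2
  obtain ⟨z₁, h₁⟩ := exists_reduces_of_mem (q := q) A (h 1).2
  obtain ⟨f, hf₀, hf₁⟩ := exists_pair_reduces hqM A h₀ h₁
  refine ⟨f, fun i => ?_, fun i => Subtype.ext ?_⟩
  · fin_cases i
    · exact hf₀.1
    · exact hf₁.1
  · fin_cases i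
    · exact hf₀.2
    · exact hf₁.2

include hqM hA in
/-- No degree is lost in the two components. -/
theorem finrank_adjoin_x0Fun :
    Module.finrank ℚbar⟮x0Fun hqM⟯ (X0F M q) =
      2 * Module.finrank (ResidueField A)⟮x0FunBar M A (q := q)⟯ (X0Res M A) :=
  finrank_x0Fun_eq hqM A hA

include hqM hA in
theorem finrank_adjoin_x0FunBar_pos :
    0 < Module.finrank (ResidueField A)⟮x0FunBar M A (q := q)⟯ (X0Res M A) :=
  finrank_adjoin_pos (x0FunBar_transcendental' A)

/-- The special fibre of `X₀(Mq)` above `q`: two copies of `X₀(M)`. -/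
def x0Reduction :
    MultiReduction A (X0F M q) (ResidueField A) (fun _ : Fin 2 => X0Res M A) where
  π := residue A
  π_surjective := residue_surjective
  V := compV hqM A
  mem_V_iff i a := algebraMap_mem_compV_iff hqM A i a
  φ := compPhi hqM A hA
  φ_algebraMap i a := compPhi_algebraMap hqM A hA i a
  exists_lift := exists_lift_compPhi hqM A hA
  exists_scale := exists_scale_compV hqM A hA
  x := x0Fun hqM
  x_mem := x0Fun_mem hqM A hA
  x_transcendental i := by
    rw [compPhi_x0Fun]; exact x0FunBar_transcendental A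
  degree_eq := by
    have e : ∀ i, Module.finrank (ResidueField A)⟮compPhi hqM A hA i ⟨_, x0Fun_mem hqM A hA i⟩⟯
        (X0Res M A) = Module.finrank (ResidueField A)⟮x0FunBar M A (q := q)⟯ (X0Res M A) :=
      fun i => congrArg
        (fun z : X0Res M A => Module.finrank (ResidueField A)⟮z⟯ (X0Res M A))
        (compPhi_x0Fun hqM A hA i)
    refine (finrank_adjoin_x0Fun hqM A hA).trans (Eq.trans ?_ (Fin.sum_univ_two _).symm)
    rw [e 0, e 1, two_mul]
  degree_pos i := by
    rw [compPhi_x0Fun]; exact finrank_adjoin_x0FunBar_pos hqM A hA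
  nonempty := inferInstance

end Fermat.Agent.BadReduction

end
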