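/-
The two degeneracy embeddings against the two components of the special fibre of `X₀(Mq)`:
reductions, and poles bounded by those of `x`.
-/
import Fermat.Agent.BadReduction.X0Reduction
import Fermat.Agent.BadReduction.X0FrobeniusData
import Fermat.Agent.Igusa.JacobianGood
import Fermat.Agent.HeckeJ.Degree
import Fermat.Agent.Bad.GluingFibre
import Fermat.Agent.Curve.BasicModular

set_option autoImplicit false
set_option linter.style.haveILetI false
set_option linter.unusedSectionVars false
set_option synthInstance.maxHeartbeats 400000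

noncomputable section

open ModularCurve IntermediateField IsLocalRing AlgebraicCurve Polynomial
open Fermat.Agent.Curve Fermat.Agent.Curve.RedAux Fermat.Agent.Bad

namespace Fermat.Agent.BadReduction

local notation "ℚbar" => AlgebraicClosure ℚ

section Along

variable {K F F' : Type*} [Field K] [Field F] [Field F'] [Algebra K F] [Algebra K F']
  [IsFunctionFieldOne K F] [IsFunctionFieldOne K F']

/-- Pole bounds are preserved by finite embeddings. -/
theorem map_mem_L_poleDivisor (φ : F' →ₐ[K] F) (hφ : φ.toRingHom.IsIntegral) {N : ℕ} {f y : F'}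
    (hf : f ∈ riemannRochSpace (N • poleDivisor K y)) :
    φ f ∈ riemannRochSpace (N • poleDivisor K (φ y)) := by
  rcases eq_or_ne f 0 with rfl | hf0
  · rw [map_zero]; exact zero_mem _
  letI := algebraAlong φ
  haveI := isScalarTower_along φ
  haveI := isIntegral_along φ hφ
  have hf0' : φ f ≠ 0 := (map_ne_zero φ).2 hf0
  refine (mem_L_iff hf0').2 fun w => ?_
  have h := (mem_L_iff hf0).1 hf (w.restrict F')
  have e1 : w.ord (φ f) = _ := w.ord_restrict (F := F') f
  have e2 : w.ord (φ y) = _ := w.ord_restrict (F := F') y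
  rw [Finsupp.smul_apply, nsmul_eq_mul, poleDivisor_apply] at h ⊢
  rw [e1, e2]
  set e : ℤ := (Place.ramificationIndex (F := F') w : ℤ)
  have he : 0 ≤ e := Int.natCast_nonneg _
  have := mul_le_mul_of_nonneg_left h he
  refine le_trans (le_of_eq ?_) this
  rw [mul_neg, ← mul_left_comm (N : ℤ) e, mul_max_of_nonneg _ _ he, mul_zero, mul_neg]

omit [IsFunctionFieldOne K F] in
/-- Integral elements over a valuation subring belong to it. -/
theorem mem_place_of_eval₂_eq_zero {R : Type*} [CommRing R] (v : Place K F) (p : R[X])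
    (hp : p.Monic) (g : R →+* F) (hg : ∀ r, g r ∈ v.toValuationSubring) {z : F}
    (hz : p.eval₂ g z = 0) : z ∈ v.toValuationSubring := by
  have hint : IsIntegral v.toValuationSubring z :=
    ⟨p.map (g.codRestrict v.toValuationSubring hg), hp.map _, by
      rw [eval₂_map]; exact hz⟩
  obtain ⟨y, hy⟩ := IsIntegrallyClosed.isIntegral_iff.mp hint
  exact hy ▸ y.2

/-- Ring homomorphisms commute with integral polynomials. -/
theorem map_aeval_int {R S : Type*} [CommRing R] [CommRing S] (g : R →+* S) (z : R) (p : ℤ[X]) :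
    g (aeval z p) = aeval (g z) p := by
  rw [aeval_def, hom_eval₂, aeval_def]
  exact eval₂_congr (Subsingleton.elim _ _) rfl rfl

end Along

variable {M q : ℕ} [NeZero M] [hq : Fact q.Prime]

local instance neZero_prime_compat : NeZero q := ⟨hq.out.ne_zero⟩

variable (hqM : ¬ q ∣ M) (A : ValuationSubring ℚbar) (hA : A.LiesOverPrime q)

local notation "αF" => heckeAlphaBar ℚbar M q
local notation "βF" => heckeBetaBar ℚbar M q

section Y

variable (M q) in
/-- `P (j)` at level `M`. -/
def cubicJM : modularFunctionFieldBar M := aeval (Igusa.jBar M) (cubic q)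

theorem heckeAlphaBar_jBar : αF (Igusa.jBar M) = Igusa.jBar (M * q) :=
  Subtype.ext (coe_heckeAlphaBar M q _)

theorem heckeAlphaBar_cubicJM : αF (cubicJM M q) = cubicJ M q := by
  rw [cubicJM, cubicJ, ← heckeAlphaBar_jBar]
  exact map_aeval_int (αF).toRingHom _ _

theorem heckeBetaBar_cubicJM : βF (cubicJM M q) = atkinLehner hqM (cubicJ M q) := by
  rw [← heckeAlphaBar_cubicJM, atkinLehner_alpha]

theorem coe_heckeBetaBar_jBar :
    (βF (Igusa.jBar M) : LaurentSeries ℚbar) = jqNModC ℚbar q := by
  rw [coe_heckeBetaBar, Igusa.coe_jBar]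
  show qExpand ℚbar q (coeffEmb ℚbar jq) = qExpand ℚbar q (jqModC ℚbar)
  rw [← jqModC_rat, coeffEmb, coeffMap_jqModC]

include hqM in
/-- `j` and `j_q` have the same places of regularity. -/
theorem beta_jBar_mem_iff (v : Place ℚbar (X0F M q)) :
    βF (Igusa.jBar M) ∈ v.toValuationSubring ↔ αF (Igusa.jBar M) ∈ v.toValuationSubring := by
  obtain ⟨data⟩ := ModFun.nonempty_modularPolynomialData q
  have h : data.Φ.eval₂ (eval₂RingHom (Int.castRingHom (X0F M q)) (αF (Igusa.jBar M)))
      (βF (Igusa.jBar M)) = 0 := by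
    apply (modularFunctionFieldBar (M * q)).val.toRingHom.injective
    rw [map_zero, hom_eval₂,
      show (modularFunctionFieldBar (M * q)).val.toRingHom (βF (Igusa.jBar M)) = jqNModC ℚbar q
        from coe_heckeBetaBar_jBar]
    refine Eq.trans ?_ (Curve.eval₂_modularPolynomial_eq_zero ℚbar data)
    congr 1
    refine Polynomial.ringHom_ext' (Subsingleton.elim _ _) ?_
    simp only [RingHom.comp_apply, coe_eval₂RingHom, eval₂_X]
    show ((αF (Igusa.jBar M) : X0F M q) : LaurentSeries ℚbar) = jqModC ℚbar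
    rw [coe_heckeAlphaBar, Igusa.coe_jBar, ← jqModC_rat, coeffEmb, coeffMap_jqModC]
  have key : ∀ a b : X0F M q,
      data.Φ.eval₂ (eval₂RingHom (Int.castRingHom (X0F M q)) a) b = 0 →
        a ∈ v.toValuationSubring → b ∈ v.toValuationSubring := fun a b he ha => by
    refine mem_place_of_eval₂_eq_zero v data.Φ data.monic _ (fun p => ?_) he
    induction p using Polynomial.induction_on' with
    | add p p' hp hp' => rw [map_add]; exact add_mem hp hp'
    | monomial n c =>
      rw [coe_eval₂RingHom, eval₂_monomial]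
      exact mul_mem (intCast_mem _ c) (pow_mem ha n)
  have h' : data.Φ.eval₂ (eval₂RingHom (Int.castRingHom (X0F M q)) (βF (Igusa.jBar M)))
      (αF (Igusa.jBar M)) = 0 := by
    have e := congrArg (atkinLehner hqM : X0F M q →+* X0F M q) h
    rw [map_zero, hom_eval₂] at e
    refine Eq.trans ?_ e
    congr 1
    · refine Polynomial.ringHom_ext' (Subsingleton.elim _ _) ?_
      simp only [RingHom.comp_apply, coe_eval₂RingHom, eval₂_X]
      exact (atkinLehner_alpha hqM _).symm
    · exact (atkinLehner_beta hqM _).symm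
  exact ⟨key _ _ h', key _ _ h⟩

/-- A value of a monic polynomial is regular exactly where its argument is. -/
theorem aeval_mem_place_iff {K F : Type*} [Field K] [Field F] [Algebra K F] (v : Place K F)
    {p : ℤ[X]} (hp : p.Monic) (hd : p.natDegree ≠ 0) (z : F) :
    aeval z p ∈ v.toValuationSubring ↔ z ∈ v.toValuationSubring := by
  constructor
  · intro h
    refine mem_place_of_eval₂_eq_zero v
      (p.map (algebraMap ℤ v.toValuationSubring) - C (⟨_, h⟩ : v.toValuationSubring)) ?_
      v.toValuationSubring.subtype (fun r => r.2) ?_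
    · refine (hp.map _).sub_of_left (lt_of_le_of_lt degree_C_le ?_)
      rw [hp.degree_map, degree_eq_natDegree hp.ne_zero]
      exact_mod_cast Nat.pos_of_ne_zero hd
    · rw [eval₂_sub, eval₂_map, eval₂_C]
      show _ - aeval z p = 0
      rw [aeval_def]
      exact sub_eq_zero.2 (eval₂_congr (Subsingleton.elim _ _) rfl rfl)
  · intro h
    rw [aeval_eq_sum_range]
    exact sum_mem fun n _ => zsmul_mem (pow_mem h n) _

theorem cubicJ_ne_zero : cubicJ M q ≠ 0 := by
  intro h
  have h1 := congrArg (fun z : X0F M q => (z : LaurentSeries ℚbar)) h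
  refine ((cubic_monic (q := q)).map (Int.castRingHom ℚbar)).ne_zero
    (transcendental_iff.1 (Curve.transcendental_jqModC' ℚbar) _ ?_)
  rw [aeval_def, eval₂_map]
  refine Eq.trans ?_ h1
  show _ = (modularFunctionFieldBar (M * q)).val.toRingHom (cubicJ M q)
  rw [cubicJ, aeval_def, hom_eval₂]
  refine eval₂_congr (Subsingleton.elim _ _) ?_ rfl
  show jqModC ℚbar = coeffEmb ℚbar jq
  rw [← jqModC_rat, coeffEmb, coeffMap_jqModC]

include hqM in
/-- The pole bound: `α f * β g` has poles bounded by `N` times those of `x`. -/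
theorem mul_mem_polarSp {N : ℕ} {f g : modularFunctionFieldBar M}
    (hf : f ∈ riemannRochSpace (N • poleDivisor ℚbar (cubicJM M q)⁻¹))
    (hg : g ∈ riemannRochSpace (N • poleDivisor ℚbar (cubicJM M q)⁻¹)) :
    αF f * βF g ∈ (x0Reduction hqM A hA).polarSp N := by
  have h1 := map_mem_L_poleDivisor (αF) (Curve.isIntegral_toRingHom _) hf
  have h2 := map_mem_L_poleDivisor (βF) (Curve.isIntegral_toRingHom _) hg
  rw [map_inv₀, heckeAlphaBar_cubicJM] at h1
  rw [map_inv₀, heckeBetaBar_cubicJM hqM] at h2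
  refine L_mono ?_ (mul_mem_L h1 h2)
  refine Finsupp.le_def.2 fun v => ?_
  show _ ≤ (N • poleDivisor ℚbar (x0Fun hqM)) v
  have hw0 : atkinLehner hqM (cubicJ M q) ≠ 0 := (_root_.map_ne_zero _).2 cubicJ_ne_zero
  simp only [Finsupp.add_apply, Finsupp.smul_apply, poleDivisor_apply, x0Fun, v.ord_inv,
    v.ord_mul cubicJ_ne_zero hw0, nsmul_eq_mul, neg_neg]
  rw [← mul_add]
  refine mul_le_mul_of_nonneg_left ?_ (Int.natCast_nonneg N)
  have hd : (cubic q).natDegree ≠ 0 := by rw [cubic_natDegree]; norm_num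
  have iff1 : 0 ≤ v.ord (cubicJ M q) ↔ 0 ≤ v.ord (atkinLehner hqM (cubicJ M q)) := by
    rw [← mem_iff_ord_nonneg, ← mem_iff_ord_nonneg, cubicJ,
      aeval_mem_place_iff v cubic_monic hd,
      show atkinLehner hqM (aeval (Igusa.jBar (M * q)) (cubic q)) =
        aeval (atkinLehner hqM (Igusa.jBar (M * q))) (cubic q) from
        map_aeval_int (atkinLehner hqM : X0F M q →+* X0F M q) _ _,
      aeval_mem_place_iff v cubic_monic hd, ← heckeAlphaBar_jBar]
    rw [atkinLehner_alpha, beta_jBar_mem_iff hqM v]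
  omega

end Y

variable [CharP (ResidueField A) q] [IsAlgClosed (ResidueField A)]

section Red


theorem infRed_of_series (x : X0F M q) {u v : LaurentSeries A} (g : LaurentSeries (ResidueField A))
    (hv : coeffMap (residue A) v ≠ 0)
    (e : (x : LaurentSeries ℚbar) * coeffMap A.subtype v = coeffMap A.subtype u)
    (hg : g * coeffMap (residue A) v = coeffMap (residue A) u) :
    ∃ h : x ∈ infV M q A, infRed M q A ⟨x, h⟩ = g := by
  have hx : x ∈ infV M q A := ⟨u, v, hv, e⟩
  refine ⟨hx, (infRed_eq A ⟨x, hx⟩ hv e).trans ?_⟩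
  rw [← hg, mul_div_assoc, div_self hv, mul_one]

theorem red_mul_of_quotient (T : (Igusa.x0GoodReduction hqM hA).V) (u v : LaurentSeries A)
    (e : ((T : modularFunctionFieldBar M) : LaurentSeries ℚbar) * coeffMap A.subtype v =
      coeffMap A.subtype u)
    (hu : coeffMap A.subtype u ∈ modularFunctionFieldBar M)
    (hv : coeffMap A.subtype v ∈ modularFunctionFieldBar M) :
    ((Igusa.x0GoodReduction hqM hA).φ T : LaurentSeries (ResidueField A)) *
      coeffMap (residue A) v = coeffMap (residue A) u := by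
  obtain ⟨huV, huφ⟩ := Igusa.x0GoodReduction_φ_coeffMap hqM hA u hu
  obtain ⟨hvV, hvφ⟩ := Igusa.x0GoodReduction_φ_coeffMap hqM hA v hv
  have hT : T * ⟨_, hvV⟩ = ⟨_, huV⟩ := Subtype.ext (Subtype.ext e)
  rw [← huφ, ← hT, map_mul, IntermediateField.coe_mul, hvφ]

theorem infRed_alpha (T : (Igusa.x0GoodReduction hqM hA).V) :
    ∃ h : αF (T : modularFunctionFieldBar M) ∈ infV M q A,
      infRed M q A ⟨_, h⟩ =
        ((Igusa.x0GoodReduction hqM hA).φ T : LaurentSeries (ResidueField A)) := by
  obtain ⟨u, v, hv, e, hu', hv'⟩ := Igusa.x0GoodReduction_exists_quotient hqM hA T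
  have hg := red_mul_of_quotient hqM A hA T u v e hu' hv'
  refine infRed_of_series A (αF (T : modularFunctionFieldBar M)) _ hv ?_ hg
  rw [coe_heckeAlphaBar]
  exact e

theorem infRed_beta (T : (Igusa.x0GoodReduction hqM hA).V) :
    ∃ h : βF (T : modularFunctionFieldBar M) ∈ infV M q A,
      infRed M q A ⟨_, h⟩ = qExpand (ResidueField A) q
        ((Igusa.x0GoodReduction hqM hA).φ T : LaurentSeries (ResidueField A)) := by
  obtain ⟨u, v, hv, e, hu', hv'⟩ := Igusa.x0GoodReduction_exists_quotient hqM hA T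
  have hg := red_mul_of_quotient hqM A hA T u v e hu' hv'
  refine infRed_of_series A (u := qExpand A q u) (v := qExpand A q v)
    (βF (T : modularFunctionFieldBar M)) _ ?_ ?_ ?_
  · rw [coeffMap_qExpand]
    exact fun h => hv (qExpand_injective q (h.trans (map_zero _).symm))
  · rw [coe_heckeBetaBar, coeffMap_qExpand, coeffMap_qExpand, ← map_mul, e]
  · rw [coeffMap_qExpand, coeffMap_qExpand, ← map_mul, hg]

theorem compPhi_zero_alpha (T : (Igusa.x0GoodReduction hqM hA).V) :
    ∃ h : αF (T : modularFunctionFieldBar M) ∈ compV hqM A 0,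
      compPhi hqM A hA 0 ⟨_, h⟩ = (Igusa.x0GoodReduction hqM hA).φ T := by
  obtain ⟨h, e⟩ := infRed_alpha hqM A hA T
  exact ⟨h, Subtype.ext ((coe_compPhi_zero hqM A hA _).trans e)⟩

theorem compPhi_zero_beta (T : (Igusa.x0GoodReduction hqM hA).V) :
    ∃ h : βF (T : modularFunctionFieldBar M) ∈ compV hqM A 0,
      compPhi hqM A hA 0 ⟨_, h⟩ = resPhi (ResidueField A) q M ((Igusa.x0GoodReduction hqM hA).φ T) := by
  obtain ⟨h, e⟩ := infRed_beta hqM A hA T
  exact ⟨h, Subtype.ext ((coe_compPhi_zero hqM A hA _).trans e)⟩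

theorem compPhi_one_alpha (T : (Igusa.x0GoodReduction hqM hA).V) :
    ∃ h : αF (T : modularFunctionFieldBar M) ∈ compV hqM A 1,
      compPhi hqM A hA 1 ⟨_, h⟩ = resPhi (ResidueField A) q M ((Igusa.x0GoodReduction hqM hA).φ T) := by
  obtain ⟨h, e⟩ := infRed_beta hqM A hA T
  rw [← atkinLehner_alpha hqM] at h
  refine ⟨h, Subtype.ext ((coe_compPhi_one hqM A hA _).trans (Eq.trans ?_ e))⟩
  exact congrArg (infRed M q A) (Subtype.ext (atkinLehner_alpha hqM _))

theorem compPhi_one_beta (T : (Igusa.x0GoodReduction hqM hA).V) :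
    ∃ h : βF (T : modularFunctionFieldBar M) ∈ compV hqM A 1,
      compPhi hqM A hA 1 ⟨_, h⟩ = (Igusa.x0GoodReduction hqM hA).φ T := by
  obtain ⟨h, e⟩ := infRed_alpha hqM A hA T
  rw [← atkinLehner_beta hqM] at h
  refine ⟨h, Subtype.ext ((coe_compPhi_one hqM A hA _).trans (Eq.trans ?_ e))⟩
  exact congrArg (infRed M q A) (Subtype.ext (atkinLehner_beta hqM _))

theorem baseReduction_x0 :
    NewformRep.BaseReduction (x0Reduction hqM A hA) (Igusa.x0GoodReduction hqM hA).V (Igusa.x0GoodReduction hqM hA).φ where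
  ker x hx := ((Igusa.x0GoodReduction hqM hA).φ_eq_zero_iff x).2 hx
  scale := (Igusa.x0GoodReduction hqM hA).exists_scale
  mem_iff := (Igusa.x0GoodReduction hqM hA).mem_V_iff
  red_algebraMap a h := by
    refine ((Igusa.x0GoodReduction hqM hA).φ_algebraMap a).trans ?_
    rw [Igusa.x0GoodReduction_π hqM hA]
    rfl

include hqM in
theorem finrankAlong_alpha : finrankAlong ℚbar (αF) = q + 1 := by
  rw [HeckeJ.finrankAlong_heckeAlphaBar (L := ℚbar) (N := M) (ℓ := q) hq.out, HeckeJ.levelIndex, if_neg hqM]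

include hqM in
theorem finrankAlong_beta : finrankAlong ℚbar (βF) = q + 1 := by
  rw [← finrankAlong_alpha (q := q) hqM]
  symm
  exact @Algebra.finrank_eq_of_equiv_equiv _ _ _ _ (algebraAlong (αF)) _ _ _ _
    (algebraAlong (βF)) (RingEquiv.refl _) (atkinLehner hqM).toRingEquiv
    (RingHom.ext fun x => (atkinLehner_alpha hqM x).symm)

theorem degeneracyReduction_alpha :
    NewformRep.DegeneracyReduction (x0Reduction hqM A hA)
      (x0FrobeniusData (ResidueField A) q M) (αF) (Igusa.x0GoodReduction hqM hA).V (Igusa.x0GoodReduction hqM hA).φ 0 1 where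
  fst := compPhi_zero_alpha hqM A hA
  snd := compPhi_one_alpha hqM A hA
  degree := finrankAlong_alpha hqM

theorem degeneracyReduction_beta :
    NewformRep.DegeneracyReduction (x0Reduction hqM A hA)
      (x0FrobeniusData (ResidueField A) q M) (βF) (Igusa.x0GoodReduction hqM hA).V (Igusa.x0GoodReduction hqM hA).φ 1 0 where
  fst := compPhi_one_beta hqM A hA
  snd := compPhi_zero_beta hqM A hA
  degree := finrankAlong_beta hqM

end Red

end Fermat.Agent.BadReduction

end
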