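/-
Multiplication by a base point free pencil on Riemann–Roch spaces of large degree.
-/
import Fermat.Agent.Curve.ReductionAux
import Fermat.Agent.Curve.RiemannRochFunctions

set_option autoImplicit false
set_option linter.style.haveILetI false

noncomputable section

open AlgebraicCurve Fermat.Agent.Curve Fermat.Agent.Curve.RedAux

namespace Fermat.Agent.BadReduction

variable {k E : Type*} [Field k] [Field E] [Algebra k E] [IsAlgClosed k] [IsFunctionFieldOne k E]

/-- The base point free pencil trick. -/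
theorem exists_pencil_bound : ∃ c : ℤ, ∀ (G H : Divisor k E) (s₁ s₂ : E),
    s₁ ∈ riemannRochSpace G → s₂ ∈ riemannRochSpace G → s₁ ≠ 0 → s₂ ≠ 0 →
    (∀ v : Place k E, v.ord s₁ = -G v ∨ v.ord s₂ = -G v) →
    0 ≤ Divisor.degree G → c ≤ Divisor.degree H - Divisor.degree G →
    ∀ W : Submodule k E, (∀ f ∈ riemannRochSpace H, s₁ * f ∈ W) →
      (∀ f ∈ riemannRochSpace H, s₂ * f ∈ W) → riemannRochSpace (G + H) ≤ W := by
  obtain ⟨c, hc⟩ := exists_finrank_L_eq (K := k) (F := E)
  refine ⟨c, fun G H s₁ s₂ h₁ h₂ n₁ n₂ hbpf hG hH W hW₁ hW₂ => ?_⟩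
  haveI := finite_L H
  haveI := finite_L (G + H)
  haveI := finite_L (H - G)
  let μ : riemannRochSpace H × riemannRochSpace H →ₗ[k] E :=
    ((LinearMap.mulLeft k s₁).comp (riemannRochSpace H).subtype).coprod
      ((LinearMap.mulLeft k s₂).comp (riemannRochSpace H).subtype)
  have hμ : ∀ p, μ p = s₁ * (p.1 : E) + s₂ * (p.2 : E) := fun p => rfl
  have hle : LinearMap.range μ ≤ riemannRochSpace (G + H) := by
    rintro _ ⟨p, rfl⟩
    rw [hμ]
    exact add_mem (mul_mem_L h₁ p.1.2) (mul_mem_L h₂ p.2.2)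
  -- the kernel embeds into `L (H - G)`
  have hmem : ∀ p : LinearMap.ker μ, (p.1.1 : E) / s₂ ∈ riemannRochSpace (H - G) := by
    rintro ⟨⟨a, b⟩, hp⟩
    rw [LinearMap.mem_ker, hμ] at hp
    rcases eq_or_ne (a : E) 0 with ha | ha
    · simp only [ha, zero_div]; exact zero_mem _
    have e : (b : E) = -s₁ * ((a : E) / s₂) := by
      field_simp
      linear_combination hp
    have hz : (a : E) / s₂ ≠ 0 := div_ne_zero ha n₂
    have hb : (b : E) ≠ 0 := e ▸ mul_ne_zero (neg_ne_zero.2 n₁) hz
    refine (mem_L_iff hz).2 fun v => ?_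
    have h1 := (mem_L_iff ha).1 a.2 v
    have h2 := (mem_L_iff hb).1 b.2 v
    rw [e, v.ord_mul (neg_ne_zero.2 n₁) hz, ord_neg] at h2
    rw [ord_div v ha n₂, Finsupp.sub_apply] at *
    rcases hbpf v with h | h <;> omega
  let ψ : LinearMap.ker μ →ₗ[k] riemannRochSpace (H - G) :=
    { toFun := fun p => ⟨(p.1.1 : E) / s₂, hmem p⟩
      map_add' := fun p p' => Subtype.ext (add_div _ _ _)
      map_smul' := fun r p => Subtype.ext (by
        show ((r • p.1.1 : riemannRochSpace H) : E) / s₂ = r • ((p.1.1 : E) / s₂)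
        rw [Submodule.coe_smul, div_eq_mul_inv, div_eq_mul_inv, smul_mul_assoc]) }
  have hψ : Function.Injective ψ := by
    intro p p' h
    have h1 : (p.1.1 : E) / s₂ = (p'.1.1 : E) / s₂ := congrArg Subtype.val h
    have ha : (p.1.1 : E) = p'.1.1 := (div_left_inj' n₂).1 h1
    have hp := p.2
    have hp' := p'.2
    rw [LinearMap.mem_ker, hμ] at hp hp'
    have hb : (p.1.2 : E) = p'.1.2 :=
      mul_left_cancel₀ n₂ (by linear_combination hp - hp' - s₁ * ha)
    exact Subtype.ext (Prod.ext (Subtype.ext ha) (Subtype.ext hb))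
  have hker := LinearMap.finrank_le_finrank_of_injective hψ
  have hrn := LinearMap.finrank_range_add_finrank_ker μ
  rw [Module.finrank_prod] at hrn
  have d1 := hc H (by omega)
  have d2 := hc (H - G) (by rw [map_sub]; omega)
  have d3 := hc (G + H) (by rw [map_add]; omega)
  rw [map_sub] at d2
  rw [map_add] at d3
  have heq : LinearMap.range μ = riemannRochSpace (G + H) :=
    Submodule.eq_of_le_of_finrank_le hle (by omega)
  rw [← heq]
  rintro _ ⟨p, rfl⟩
  rw [hμ]
  exact add_mem (hW₁ _ p.1.2) (hW₂ _ p.2.2)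

/-- A base point free space of sections contains a base point free pencil. -/
theorem exists_pencil (V : Submodule k E) (G : Divisor k E) (hV : V ≤ riemannRochSpace G)
    (h : ∀ v : Place k E, ∃ s ∈ V, s ≠ 0 ∧ v.ord s = -G v) :
    ∃ s₁ ∈ V, ∃ s₂ ∈ V, s₁ ≠ 0 ∧ s₂ ≠ 0 ∧
      ∀ v : Place k E, v.ord s₁ = -G v ∨ v.ord s₂ = -G v := by
  classical
  obtain ⟨v₀⟩ := nonempty_place (K := k) (F := E)
  obtain ⟨s₁, hs₁, n₁, -⟩ := h v₀
  obtain ⟨D, hD, -⟩ := HasPrincipalDivisors.exists_divisor (K := k) s₁ n₁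
  have hout : ∀ v, v ∉ (D + G).support → v.ord s₁ = -G v := fun v hv => by
    rw [Finsupp.notMem_support_iff, Finsupp.add_apply, hD v] at hv
    omega
  let p : Place k E → Submodule k V := fun v =>
    (riemannRochSpace (G - Finsupp.single v 1)).comap V.subtype
  by_cases hS : (D + G).support = ∅
  · exact ⟨s₁, hs₁, s₁, hs₁, n₁, n₁, fun v => Or.inl (hout v (by simp [hS]))⟩
  have htop : (⊤ : Submodule k V) ∉ (D + G).support.image p := by
    intro hmem
    obtain ⟨v, -, hv⟩ := Finset.mem_image.1 hmem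
    obtain ⟨s, hs, ns, hsv⟩ := h v
    have hs' : s ∈ riemannRochSpace (G - Finsupp.single v 1) :=
      Submodule.comap_subtype_eq_top.1 hv hs
    have := (mem_L_iff ns).1 hs' v
    rw [Finsupp.sub_apply, Finsupp.single_eq_same] at this
    omega
  obtain ⟨⟨s₂, hs₂⟩, hs⟩ := (Set.ne_univ_iff_exists_notMem _).mp
    (Subspace.biUnion_ne_univ_of_top_notMem htop)
  simp only [Set.mem_iUnion, SetLike.mem_coe, not_exists, Finset.mem_image] at hs
  have hnot : ∀ v ∈ (D + G).support, s₂ ∉ riemannRochSpace (G - Finsupp.single v 1) :=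
    fun v hv hmem => hs (p v) ⟨v, hv, rfl⟩ hmem
  obtain ⟨w, hw⟩ := Finset.nonempty_of_ne_empty hS
  have n₂ : s₂ ≠ 0 := fun e => hnot w hw (e ▸ zero_mem _)
  refine ⟨s₁, hs₁, s₂, hs₂, n₁, n₂, fun v => ?_⟩
  by_cases hv : v ∈ (D + G).support
  · refine Or.inr (le_antisymm ?_ ((mem_L_iff n₂).1 (hV hs₂) v))
    by_contra hlt
    refine hnot v hv ((mem_L_iff n₂).2 fun u => ?_)
    have hu := (mem_L_iff n₂).1 (hV hs₂) u
    rcases eq_or_ne u v with rfl | huv
    · rw [Finsupp.sub_apply, Finsupp.single_eq_same]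
      omega
    · rw [Finsupp.sub_apply, Finsupp.single_eq_of_ne huv, sub_zero]
      exact hu
  · exact Or.inl (hout v hv)

/-- Multiples of a function `y` by `L (a Z)` fill the multiples of its pole divisor `Z`. -/
theorem exists_pow_span_bound : ∃ c : ℤ, ∀ (y : E) (m a N : ℕ) (W : Submodule k E),
    y ≠ 0 → c ≤ ((a : ℤ) - m) * Divisor.degree (poleDivisor k y) →
    (∀ t ∈ riemannRochSpace (a • poleDivisor k y), ∀ i ≤ N, t * y ^ (m * i) ∈ W) →
    riemannRochSpace ((a + m * N) • poleDivisor k y) ≤ W := by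
  obtain ⟨c, hc⟩ := exists_pencil_bound (k := k) (E := E)
  refine ⟨c, fun y m a N W hy hdeg hW => ?_⟩
  have hd : 0 ≤ Divisor.degree (poleDivisor k y) := RedAux.degree_nonneg (poleDivisor_nonneg y)
  have key : ∀ b i, i + b ≤ N → ∀ f ∈ riemannRochSpace ((a + m * b) • poleDivisor k y),
      f * y ^ (m * i) ∈ W := by
    intro b
    induction b with
    | zero =>
      intro i hi f hf
      exact hW f (by simpa using hf) i (by omega)
    | succ b ih =>
      intro i hi
      have he : (a + m * (b + 1)) • poleDivisor k y =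
          m • poleDivisor k y + (a + m * b) • poleDivisor k y := by
        rw [← add_smul]; congr 1; ring
      rw [he]
      let W' : Submodule k E := W.comap (LinearMap.mulRight k (y ^ (m * i)))
      show riemannRochSpace _ ≤ W'
      have hym : y ^ m ∈ riemannRochSpace (m • poleDivisor k y) := by
        refine (mem_L_iff (pow_ne_zero _ hy)).2 fun v => ?_
        rw [ord_pow, Finsupp.smul_apply, nsmul_eq_mul, poleDivisor_apply, ← mul_neg]
        exact mul_le_mul_of_nonneg_left (by omega) (Int.natCast_nonneg m)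
      refine hc _ _ 1 (y ^ m) (one_mem_L (nsmul_nonneg (poleDivisor_nonneg y) m)) hym one_ne_zero
        (pow_ne_zero _ hy) (fun v => ?_) ?_ ?_ W' (fun f hf => ?_) fun f hf => ?_
      · rw [v.ord_one, ord_pow, Finsupp.smul_apply, nsmul_eq_mul, poleDivisor_apply]
        rcases le_total 0 (v.ord y) with h | h
        · exact Or.inl (by rw [max_eq_right (by omega)]; simp)
        · exact Or.inr (by rw [max_eq_left (by omega)]; ring)
      · rw [map_nsmul]
        exact nsmul_nonneg hd m
      · rw [map_nsmul, map_nsmul, nsmul_eq_mul, nsmul_eq_mul]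
        push_cast
        have : 0 ≤ ((m : ℤ) * b) * Divisor.degree (poleDivisor k y) :=
          mul_nonneg (mul_nonneg (Int.natCast_nonneg m) (Int.natCast_nonneg b)) hd
        linarith
      · show 1 * f * y ^ (m * i) ∈ W
        rw [one_mul]
        exact ih i (by omega) f hf
      · show y ^ m * f * y ^ (m * i) ∈ W
        rw [mul_comm (y ^ m) f, mul_assoc, ← pow_add,
          show m + m * i = m * (i + 1) by ring]
        exact ih (i + 1) (by omega) f hf
  intro f hf
  simpa using key N 0 (by omega) f hf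

end Fermat.Agent.BadReduction

end
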