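/-
Sections vanishing exactly at the places of `X₀(M)` over `F_{q ^ 2}` seen by the rational
functions of a large multiple of the zeros of `P (j)`.
-/
import Fermat.Agent.BadReduction.X0Compat
import Fermat.Agent.BadReduction.X0Frobenius
import Fermat.Agent.Bad.GluingValue
import Mathlib.FieldTheory.Finite.Extension
import Mathlib.Algebra.CharP.Algebra

set_option autoImplicit false
set_option linter.style.haveILetI false
set_option linter.unusedSectionVars false
set_option synthInstance.maxHeartbeats 400000

noncomputable section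

open ModularCurve IntermediateField AlgebraicCurve Polynomial
open Fermat.Agent.Curve Fermat.Agent.Curve.RedAux Fermat.Agent.Bad
open scoped Pointwise

namespace Fermat.Agent.BadReduction

theorem laurent_mem_range_iff {k : Type*} [Field k] (f : LaurentSeries k) :
    f ∈ (HahnSeries.ofPowerSeries ℤ k).range ↔ ∀ n < 0, f.coeff n = 0 := by
  constructor
  · rintro ⟨p, rfl⟩ n hn
    exact ofPowerSeries_coeff_of_neg _ hn
  · intro h
    refine ⟨PowerSeries.mk fun n => f.coeff n, ?_⟩
    ext n
    rcases le_or_gt 0 n with hn | hn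
    · lift n to ℕ using hn
      rw [HahnSeries.ofPowerSeries_apply_coeff, PowerSeries.coeff_mk]
    · rw [ofPowerSeries_coeff_of_neg _ hn, h n hn]

theorem laurent_mem_or_inv {k : Type*} [Field k] (f : LaurentSeries k) :
    f ∈ (HahnSeries.ofPowerSeries ℤ k).range ∨ f⁻¹ ∈ (HahnSeries.ofPowerSeries ℤ k).range := by
  rcases eq_or_ne f 0 with rfl | hf
  · exact Or.inl (zero_mem _)
  rcases le_or_gt 0 f.order with h | h
  · exact Or.inl ((laurent_mem_range_iff f).2 fun n hn =>
      HahnSeries.coeff_eq_zero_of_lt_order (by omega))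
  · refine Or.inr ((laurent_mem_range_iff _).2 fun n hn =>
      HahnSeries.coeff_eq_zero_of_lt_order ?_)
    have h1 := HahnSeries.order_mul hf (inv_ne_zero hf)
    rw [mul_inv_cancel₀ hf, HahnSeries.order_one] at h1
    omega

section Residual

variable (k : Type*) [Field k] (q : ℕ) [hq : Fact q.Prime] [CharP k q] [IsAlgClosed k] [NeZero q]
  (M : ℕ) [NeZero M]

local notation "E" => modularFunctionFieldFullC k M

/-- The ring of series regular at the cusp `∞`. -/
def resCuspRing : ValuationSubring E where
  toSubring := (HahnSeries.ofPowerSeries ℤ k).range.comap (modularFunctionFieldFullC k M).val.toRingHom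
  mem_or_inv_mem' x := laurent_mem_or_inv (x : LaurentSeries k)

theorem mem_resCuspRing_iff {f : E} :
    f ∈ resCuspRing k M ↔ ∀ n < 0, (f : LaurentSeries k).coeff n = 0 :=
  laurent_mem_range_iff _

theorem resJ_notMem_resCuspRing : resJ k M ∉ resCuspRing k M := fun h => by
  have := (mem_resCuspRing_iff k M).1 h (-1) (by norm_num)
  rw [show ((resJ k M : E) : LaurentSeries k) = jqModC k from rfl, coeff_jqModC_neg_one] at this
  exact one_ne_zero this

/-- The cusp `∞`. -/
def resCusp : Place k E where
  toValuationSubring := resCuspRing k M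
  algebraMap_mem' a := (mem_resCuspRing_iff k M).2 fun n hn => by
    rw [show ((algebraMap k E a : E) : LaurentSeries k) = algebraMap k (LaurentSeries k) a from rfl,
      algebraMap_laurentSeries_eq_single, HahnSeries.coeff_single_of_ne hn.ne]
  ne_top' h := resJ_notMem_resCuspRing k M (h ▸ ValuationSubring.mem_top _)
  isPrincipalIdealRing' := by
    have hj : resJ k M ≠ 0 := fun h => resJ_notMem_resCuspRing k M (h ▸ zero_mem _)
    refine isPrincipalIdealRing_of_mem_nonunits
      (t := (resJ k M)⁻¹) (transcendental_inv (transcendental_resJ k M)) _ (fun a => ?_) ?_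
    · exact (mem_resCuspRing_iff k M).2 fun n hn => by
        rw [show ((algebraMap k E a : E) : LaurentSeries k) =
          algebraMap k (LaurentSeries k) a from rfl,
          algebraMap_laurentSeries_eq_single, HahnSeries.coeff_single_of_ne hn.ne]
    · refine (ValuationSubring.mem_nonunits_iff_or _).2 (Or.inr ?_)
      rw [inv_inv]
      exact resJ_notMem_resCuspRing k M

theorem resFrob_mem_resCusp_iff (f : E) :
    resFrob k q M f ∈ (resCusp k M).toValuationSubring ↔
      f ∈ (resCusp k M).toValuationSubring := by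
  show resFrob k q M f ∈ resCuspRing k M ↔ f ∈ resCuspRing k M
  rw [mem_resCuspRing_iff, mem_resCuspRing_iff]
  refine forall₂_congr fun n _ => ?_
  rw [coe_resFrob, coeffMap_coeff, frobenius_def, pow_eq_zero_iff hq.out.ne_zero]

/-- `1 / P (j)`. -/
def resY : E := (aeval (resJ k M) (cubic q))⁻¹

theorem aeval_cubic_notMem_resCusp :
    aeval (resJ k M) (cubic q) ∉ (resCusp k M).toValuationSubring := fun h =>
  resJ_notMem_resCuspRing k M
    ((aeval_mem_place_iff (resCusp k M) cubic_monic (by rw [cubic_natDegree]; norm_num) _).1 h)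

theorem resY_ord_cusp : 0 < (resCusp k M).ord (resY k q M) := by
  rw [resY, Place.ord_inv]
  have := mt (mem_of_ord_nonneg (resCusp k M)) (aeval_cubic_notMem_resCusp k q M)
  omega

theorem resY_ne_zero : resY k q M ≠ 0 := fun h => by
  have := resY_ord_cusp k q M
  rw [h, Place.ord_zero] at this
  omega

theorem resY_transcendental : Transcendental k (resY k q M) :=
  transcendental_of_ord_ne_zero (resCusp k M) (resY_ord_cusp k q M).ne'

theorem resFrob_resY : resFrob k q M (resY k q M) = resY k q M := by
  rw [resY, map_inv₀]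
  exact congrArg (·⁻¹)
    ((map_aeval_int (resFrob k q M).toRingHom _ _).trans
      (congrArg (fun z => aeval z (cubic q)) (resFrob_resJ k q M)))

/-- The divisor of zeros of `P (j)`. -/
abbrev resZ : Divisor k E := poleDivisor k (resY k q M)

theorem resZ_degree_pos : 0 < Divisor.degree (resZ k q M) := by
  rw [degree_poleDivisor (resY_transcendental k q M)]
  exact_mod_cast finrank_adjoin_pos (resY_transcendental k q M)

theorem resZ_cusp : resZ k q M (resCusp k M) = 0 := by
  rw [poleDivisor_apply]
  have := resY_ord_cusp k q M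
  omega

/-- An element of `L (m Z)` fixed by the arithmetic Frobenius. -/
def IsRational (m : ℕ) (f : E) : Prop :=
  f ∈ riemannRochSpace (m • resZ k q M) ∧ resFrob k q M f = f

theorem resZ_smul_inv (v : Place k E) :
    resZ k q M ((resFrobAut k q M)⁻¹ • v) = resZ k q M v := by
  rw [poleDivisor_apply, poleDivisor_apply]
  have := ES.ord_coeffAut M (constFrob k q) (resY k q M) v
  rw [show ES.coeffAut M (constFrob k q) • resY k q M = resY k q M from resFrob_resY k q M] at this
  rw [this]
  rfl

theorem resFrob_mem_L {m : ℕ} {f : E} (hf : f ∈ riemannRochSpace (m • resZ k q M)) :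
    resFrob k q M f ∈ riemannRochSpace (m • resZ k q M) := by
  rcases eq_or_ne f 0 with rfl | hf0
  · rw [map_zero]; exact zero_mem _
  refine (mem_L_iff ((_root_.map_ne_zero _).2 hf0)).2 fun v => ?_
  have h := (mem_L_iff hf0).1 hf ((resFrobAut k q M)⁻¹ • v)
  rw [Finsupp.smul_apply, nsmul_eq_mul, resZ_smul_inv] at h
  rw [Finsupp.smul_apply, nsmul_eq_mul]
  exact h.trans_eq (ES.ord_coeffAut M (constFrob k q) f v).symm

variable (halg : ∀ a : k, ∃ n, 0 < n ∧ a ^ q ^ n = a)

set_option maxHeartbeats 800000 in
include halg in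
/-- Rational functions separate pairs of places. -/
theorem exists_rational_notMem : ∃ m₀ : ℕ, ∀ m, m₀ ≤ m → ∀ v w : Place k E,
    ∃ u, IsRational k q M m u ∧ ∀ a : k, u - algebraMap k E a ∉
      riemannRochSpace (m • resZ k q M - Finsupp.single v 1 - Finsupp.single w 1) := by
  obtain ⟨c, hc⟩ := exists_finrank_L_eq (K := k) (F := E)
  refine ⟨(c + 2).toNat, fun m hm v w => ?_⟩
  by_contra hcon
  push Not at hcon
  set D := m • resZ k q M with hD
  set D' := D - Finsupp.single v 1 - Finsupp.single w 1 with hD'
  let W : Submodule k E := riemannRochSpace D' ⊔ k ∙ (1 : E)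
  have hle : riemannRochSpace D ≤ W := by
    refine le_of_rational k q M halg (fun f hf => resFrob_mem_L k q M hf) fun f hf hfix => ?_
    obtain ⟨a, ha⟩ := hcon f ⟨hf, hfix⟩
    refine Submodule.mem_sup.2 ⟨_, ha, algebraMap k E a, ?_, sub_add_cancel f _⟩
    exact Submodule.mem_span_singleton.2 ⟨a, (Algebra.algebraMap_eq_smul_one a).symm⟩
  haveI := finite_L D'
  haveI := finite_L D
  have h1 : Module.finrank k (riemannRochSpace D) ≤
      Module.finrank k (riemannRochSpace D' ⊔ k ∙ (1 : E) : Submodule k E) :=
    Submodule.finrank_mono hle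
  have h2 := Submodule.finrank_add_le_finrank_add_finrank (riemannRochSpace D') (k ∙ (1 : E))
  rw [finrank_span_singleton (one_ne_zero : (1 : E) ≠ 0)] at h2
  have hdeg : (m : ℤ) ≤ Divisor.degree D := by
    rw [hD, map_nsmul, nsmul_eq_mul]
    exact le_mul_of_one_le_right (Int.natCast_nonneg m) (resZ_degree_pos k q M)
  have hdeg' : Divisor.degree D' = Divisor.degree D - 2 := by
    rw [hD', map_sub, map_sub, Divisor.degree_single, Divisor.degree_single, RedAux.deg_one,
      RedAux.deg_one, Nat.cast_one]
    omega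
  have d1 := hc D (by omega)
  have d2 := hc D' (by omega)
  omega

/-- The sections. -/
def resSection (t u : E) : E := u * t ^ (q - 1) * (t ^ q) ^ q - t ^ q * (u ^ q) ^ q

theorem resSection_mul_self (s t : E) :
    resSection k q M t (s * t) = t ^ (q ^ 2 + q) * (s - s ^ q ^ 2) := by
  have hr : q - 1 + 1 = q := Nat.sub_add_cancel hq.out.one_le
  have e : t ^ q = t ^ (q - 1) * t := by rw [← pow_succ, hr]
  rw [resSection, ← pow_mul (s * t), ← pow_two, pow_add t, ← pow_mul t, ← pow_two, mul_pow, e]
  ring

theorem resSection_one (u : E) : resSection k q M 1 u = u - u ^ q ^ 2 := by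
  have := resSection_mul_self k q M u 1
  simpa using this

theorem ord_sub_pow {v : Place k E} {s : E} (hs : v.ord s ≠ 0) :
    s - s ^ q ^ 2 ≠ 0 := by
  intro h
  have h1 := congrArg v.ord (sub_eq_zero.1 h)
  rw [ord_pow] at h1
  have h2 : 1 < (q : ℤ) ^ 2 := by
    have : 1 < q ^ 2 := Nat.one_lt_pow two_ne_zero hq.out.one_lt
    exact_mod_cast this
  push_cast at h1
  exact hs (by
    by_contra h3
    have := mul_right_cancel₀ h3 (h1.symm.trans (one_mul _).symm)
    omega)

theorem pow_mem_LZ {a : ℕ} {f : E} (hf : f ∈ riemannRochSpace (a • resZ k q M)) (n : ℕ) :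
    f ^ n ∈ riemannRochSpace ((n * a) • resZ k q M) := by
  rw [mul_smul]; exact Bad.pow_mem_L hf n

theorem mul_mem_LZ {a b : ℕ} {f g : E} (hf : f ∈ riemannRochSpace (a • resZ k q M))
    (hg : g ∈ riemannRochSpace (b • resZ k q M)) :
    f * g ∈ riemannRochSpace ((a + b) • resZ k q M) := by
  rw [add_smul]; exact mul_mem_L hf hg

theorem resSection_mem {m : ℕ} {t u : E} (ht : t ∈ riemannRochSpace (m • resZ k q M))
    (hu : u ∈ riemannRochSpace (m • resZ k q M)) :
    resSection k q M t u ∈ riemannRochSpace ((q * m * (q + 1)) • resZ k q M) := by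
  obtain ⟨r, hr⟩ : ∃ r, q = r + 1 := ⟨q - 1, by have := hq.out.one_le; omega⟩
  refine sub_mem ?_ ?_
  · have h := mul_mem_LZ k q M (mul_mem_LZ k q M hu (pow_mem_LZ k q M ht (q - 1)))
      (pow_mem_LZ k q M (pow_mem_LZ k q M ht q) q)
    rwa [show m + (q - 1) * m + q * (q * m) = q * m * (q + 1) by
      subst hr; simp only [Nat.add_sub_cancel]; ring] at h
  · have h := mul_mem_LZ k q M (pow_mem_LZ k q M ht q)
      (pow_mem_LZ k q M (pow_mem_LZ k q M hu q) q)
    rwa [show q * m + q * (q * m) = q * m * (q + 1) by ring] at h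

omit [IsAlgClosed k] in
/-- The cubic has no root fixed by the square of Frobenius. -/
theorem cubic_aeval_ne_zero {a : k} (ha : a ^ q ^ 2 = a) : aeval a (cubic q) ≠ 0 := by
  intro h
  letI : Algebra (ZMod q) k := ZMod.algebra k q
  have hirr := cubic_irreducible (q := q)
  set P := (cubic q).map (Int.castRingHom (ZMod q))
  have hroot : aeval a P = 0 := by
    rw [aeval_def, eval₂_map, ← h, aeval_def]
    exact eval₂_congr (Subsingleton.elim _ _) rfl rfl
  have hdvd : P ∣ X ^ (Nat.card (ZMod q)) ^ 2 - X := by
    have h1 : minpoly (ZMod q) a ∣ X ^ (Nat.card (ZMod q)) ^ 2 - X :=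
      minpoly.dvd _ a (by simp [ha])
    rwa [← minpoly.eq_of_irreducible_of_monic hirr hroot (cubic_monic.map _)] at h1
  have h3 := hirr.natDegree_dvd_of_dvd_X_pow_card_pow_sub_X hdvd
  rw [cubic_monic.natDegree_map, cubic_natDegree] at h3
  exact absurd (Nat.le_of_dvd two_pos h3) (by norm_num)

omit [CharP k q] [IsAlgClosed k] in
theorem ord_aeval_monic {v : Place k E} {p : ℤ[X]} (hp : p.Monic) {z : E}
    (hz : v.ord z < 0) : v.ord (aeval z p) = p.natDegree * v.ord z := by
  have hz0 : z ≠ 0 := fun h => by rw [h, Place.ord_zero] at hz; omega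
  conv_lhs => rw [hp.as_sum, map_add, map_pow, aeval_X]
  rw [ord_add_eq_left v (pow_ne_zero _ hz0), ord_pow]
  intro hne
  rw [ord_pow]
  refine lt_of_lt_of_le (?_ : _ < ((p.natDegree : ℤ) - 1) * v.ord z) ?_
  · rw [sub_mul, one_mul]; omega
  rw [map_sum] at hne ⊢
  refine le_ord_sum v _ _ _ (fun i hi hne' => ?_) hne
  rw [Finset.mem_range] at hi
  rw [map_mul, map_pow, aeval_X, aeval_C] at hne' ⊢
  have hc : algebraMap ℤ E (p.coeff i) = algebraMap k E ((p.coeff i : ℤ) : k) := by simp
  rw [v.ord_mul (left_ne_zero_of_mul hne') (right_ne_zero_of_mul hne'), hc, ord_algebraMap,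
    zero_add, ord_pow]
  exact mul_le_mul_of_nonpos_right (by omega) hz.le

theorem resJ_mul_resY_mem :
    resJ k M * resY k q M ∈ riemannRochSpace (resZ k q M) := by
  have hj : resJ k M ≠ 0 := fun h => resJ_notMem_resCuspRing k M (h ▸ zero_mem _)
  refine (mem_L_iff (mul_ne_zero hj (resY_ne_zero k q M))).2 fun v => ?_
  rw [v.ord_mul hj (resY_ne_zero k q M), poleDivisor_apply]
  by_cases h : 0 ≤ v.ord (resJ k M)
  · omega
  · have := ord_aeval_monic k M (cubic_monic (q := q)) (not_le.1 h) (v := v)
    rw [cubic_natDegree] at this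
    rw [resY, v.ord_inv, this]
    push_cast
    omega

set_option maxHeartbeats 2000000 in
include halg in
/-- A base point free space of sections, with base locus made of places fixed by `c ^ 2`. -/
theorem exists_sections : ∃ m₀ : ℕ, ∀ m, m₀ ≤ m → ∃ S : Finset (Place k E),
    (∀ v ∈ S, resZ k q M v = 0) ∧
    (∀ v ∈ S, ∀ f : E, resFrob k q M (resFrob k q M f) ∈ v.toValuationSubring ↔
      f ∈ v.toValuationSubring) ∧
    ∃ V : Submodule k E,
      V = Submodule.span k
        {e | ∃ t u, IsRational k q M m t ∧ IsRational k q M m u ∧ e = resSection k q M t u} ∧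
      V ≤ riemannRochSpace
        ((q * m * (q + 1)) • resZ k q M - ∑ v ∈ S, Finsupp.single v 1) ∧
      ∀ v, ∃ s ∈ V, s ≠ 0 ∧
        v.ord s = -(((q * m * (q + 1)) • resZ k q M - ∑ w ∈ S, Finsupp.single w 1 :
          Divisor k E) v) := by
  classical
  obtain ⟨m₁, hm₁⟩ := exists_rational_notMem k q M halg
  refine ⟨max m₁ 1, fun m hm => ?_⟩
  have hm1 : 1 ≤ m := le_trans (le_max_right _ _) hm
  replace hm₁ := hm₁ m (le_trans (le_max_left _ _) hm)
  haveI : CharP E q := charP_of_injective_algebraMap (algebraMap k E).injective q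
  have hq1 : 1 < q ^ 2 := Nat.one_lt_pow two_ne_zero hq.out.one_lt
  set Z := resZ k q M with hZ
  set y := resY k q M with hy
  set D : Divisor k E := (q * m * (q + 1)) • Z with hD
  have hZ0 : ∀ v, 0 ≤ Z v := fun v => by rw [hZ, poleDivisor_apply]; omega
  have hone : IsRational k q M m 1 :=
    ⟨one_mem_L (nsmul_nonneg (poleDivisor_nonneg _) m), map_one _⟩
  have hym : ∀ j, j ≤ m → IsRational k q M m (y ^ j) := fun j hj => by
    refine ⟨?_, by rw [map_pow, resFrob_resY]⟩
    have := pow_mem_LZ k q M (a := 1) (by rw [one_smul]; exact mem_L_poleDivisor y) j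
    exact L_mono (by rw [mul_one]; exact nsmul_le_nsmul_left (poleDivisor_nonneg _) hj) this
  let P : Place k E → Prop := fun v => ∀ t u, IsRational k q M m t → IsRational k q M m u →
    resSection k q M t u ∈ riemannRochSpace (D - Finsupp.single v 1)
  -- finiteness
  have hy0 : (resCusp k M).ord y ≠ 0 := (resY_ord_cusp k q M).ne'
  have he1 : resSection k q M 1 y ≠ 0 := by
    rw [resSection_one]; exact ord_sub_pow k q M hy0
  obtain ⟨De, hDe, -⟩ := HasPrincipalDivisors.exists_divisor (K := k) _ he1
  let S := (De + D).support.filter P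
  have hS : ∀ v, v ∈ S ↔ P v := fun v => by
    refine ⟨fun h => (Finset.mem_filter.1 h).2, fun h => Finset.mem_filter.2 ⟨?_, h⟩⟩
    have hy1 : IsRational k q M m y := by simpa using hym 1 hm1
    have h1 := (mem_L_iff he1).1 (h 1 y hone hy1) v
    rw [Finsupp.sub_apply, Finsupp.single_eq_same] at h1
    rw [Finsupp.mem_support_iff, Finsupp.add_apply, hDe v]
    omega
  have hBv : ∀ v, (∑ w ∈ S, Finsupp.single w 1 : Divisor k E) v = if v ∈ S then 1 else 0 :=
    fun v => by
      rw [Finsupp.finsetSum_apply]
      simp [Finsupp.single_apply]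
  -- values at a place of `S`
  have hreg : ∀ v ∈ S, Z v = 0 := by
    intro v hv
    by_contra hne
    have hZv : 0 < Z v := lt_of_le_of_ne (hZ0 v) (Ne.symm hne)
    have hyv : v.ord y = -(Z v) := by
      rw [hZ, poleDivisor_apply, ← hy] at hZv ⊢
      omega
    have hP : 0 < v.ord (aeval (resJ k M) (cubic q)) := by
      have : v.ord y = -(v.ord (aeval (resJ k M) (cubic q))) := by rw [hy, resY, v.ord_inv]
      omega
    have hjv : resJ k M ∈ v.toValuationSubring :=
      (aeval_mem_place_iff v cubic_monic (by rw [cubic_natDegree]; norm_num) _).1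
        (mem_of_ord_nonneg v hP.le)
    have hjc : (resCusp k M).ord (resJ k M) ≠ 0 := fun h =>
      resJ_notMem_resCuspRing k M (mem_of_ord_nonneg (resCusp k M) h.ge)
    have hu : IsRational k q M m (resJ k M * y ^ m) := by
      refine ⟨?_, by rw [map_mul, map_pow, resFrob_resJ, resFrob_resY]⟩
      have h2 := pow_mem_LZ k q M (a := 1) (f := y)
        (by rw [one_smul]; exact mem_L_poleDivisor y) (m - 1)
      rw [mul_one] at h2
      have h1 := mul_mem_LZ k q M (a := 1) (f := resJ k M * y)
        (by rw [one_smul]; exact resJ_mul_resY_mem k q M) h2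
      rwa [mul_assoc, ← pow_succ', Nat.sub_add_cancel hm1, Nat.add_sub_cancel' hm1] at h1
    have he := (hS v).1 hv _ _ (hym m le_rfl) hu
    have hne2 : resJ k M - resJ k M ^ q ^ 2 ≠ 0 := ord_sub_pow k q M hjc
    rw [resSection_mul_self] at he
    have h1 := (mem_L_iff (mul_ne_zero (pow_ne_zero _ (pow_ne_zero _ (resY_ne_zero k q M))) hne2)).1
      he v
    rw [v.ord_mul (pow_ne_zero _ (pow_ne_zero _ (resY_ne_zero k q M))) hne2, ord_pow, ord_pow,
      hyv, Finsupp.sub_apply, Finsupp.single_eq_same, hD, Finsupp.smul_apply, nsmul_eq_mul] at h1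
    have hd : 1 ≤ v.ord (resJ k M - resJ k M ^ q ^ 2) := by
      push_cast at h1
      linarith [h1]
    set a := placeValue v (resJ k M) with ha
    have hdiff := (placeValue_eq_zero_iff v (sub_mem hjv (pow_mem hjv _))).2 (Or.inr hd)
    rw [placeValue_sub v hjv (pow_mem hjv _), placeValue_pow v hjv, sub_eq_zero] at hdiff
    refine cubic_aeval_ne_zero k q hdiff.symm ?_
    have hmem : aeval (resJ k M) (cubic q) ∈ v.toValuationSubring := mem_of_ord_nonneg v hP.le
    have h0 := (placeValue_eq_zero_iff v hmem).2 (Or.inr hP)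
    apply (residue_algebraMap_bij v).1
    rw [map_zero, map_aeval_int, algebraMap_placeValue v hjv, ← map_aeval_int,
      ← map_zero (algebraMap k v.ResidueField), ← h0, algebraMap_placeValue v hmem]
    exact congrArg _ (Subtype.ext (map_aeval_int v.toValuationSubring.subtype _ _))
  -- values of rational functions at a place of `S`
  have hval : ∀ v ∈ S, ∀ u, IsRational k q M m u → ∃ a : k, a ^ q ^ 2 = a ∧
      (u - algebraMap k E a = 0 ∨ 1 ≤ v.ord (u - algebraMap k E a)) := by
    intro v hv u hu
    have huv : u ∈ v.toValuationSubring := mem_of_zero_or_le v ((eq_or_ne u 0).imp id fun h => by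
      have := (mem_L_iff h).1 hu.1 v
      rw [Finsupp.smul_apply, hreg v hv, smul_zero, neg_zero] at this
      exact this)
    refine ⟨placeValue v u, ?_, (placeValue_eq_zero_iff v (sub_mem huv (v.algebraMap_mem' _))).1
      (by rw [placeValue_sub v huv (v.algebraMap_mem' _), placeValue_algebraMap, sub_self])⟩
    have h1 := (hS v).1 hv 1 u hone hu
    rw [resSection_one] at h1
    have h2 : placeValue v (u - u ^ q ^ 2) = 0 :=
      (placeValue_eq_zero_iff v (sub_mem huv (pow_mem huv _))).2 ((eq_or_ne _ 0).imp id fun h => by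
        have := (mem_L_iff h).1 h1 v
        rw [hD, Finsupp.sub_apply, Finsupp.single_eq_same, Finsupp.smul_apply, hreg v hv,
          smul_zero] at this
        omega)
    rw [placeValue_sub v huv (pow_mem huv _), placeValue_pow v huv, sub_eq_zero] at h2
    exact h2.symm
  refine ⟨S, hreg, ?_, _, rfl, Submodule.span_le.2 ?_, fun v => ?_⟩
  · intro v hv f
    set g := resFrobAut k q M * resFrobAut k q M with hg
    have hgv : g⁻¹ • v = v := by
      by_contra hne
      obtain ⟨u, hu, hnot⟩ := hm₁ v (g⁻¹ • v)
      obtain ⟨a, ha, hor⟩ := hval v hv u hu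
      refine hnot a ?_
      rcases eq_or_ne (u - algebraMap k E a) 0 with h0 | h0
      · rw [h0]; exact zero_mem _
      refine (mem_L_iff h0).2 fun w => ?_
      have hw := (mem_L_iff h0).1 (sub_mem hu.1 (by
        rw [Algebra.algebraMap_eq_smul_one]
        exact Submodule.smul_mem _ a hone.1)) w
      have hv1 := hor.resolve_left h0
      have hfix : g • (u - algebraMap k E a) = u - algebraMap k E a := by
        rw [hg, mul_smul, resFrobAut_smul, resFrobAut_smul, map_sub, hu.2, map_sub, hu.2]
        congr 1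
        show resFrobAut k q M • (resFrobAut k q M • algebraMap k E a) = _
        rw [SemilinearAut.smul_algebraMap, SemilinearAut.smul_algebraMap]
        show algebraMap k E ((a ^ q) ^ q) = _
        rw [← pow_mul, ← pow_two, ha]
      have hv2 : (g⁻¹ • v).ord (u - algebraMap k E a) = v.ord (u - algebraMap k E a) := by
        conv_rhs => rw [← smul_inv_smul g v, ← hfix]
        exact (SemilinearAut.ord_smul g _ _).symm
      have z2 : Z (g⁻¹ • v) = 0 := by
        rw [hg, mul_inv_rev, mul_smul, hZ, resZ_smul_inv, resZ_smul_inv]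
        exact hreg v hv
      simp only [Finsupp.sub_apply, Finsupp.smul_apply, nsmul_eq_mul, ← hZ] at hw ⊢
      rcases eq_or_ne w v with rfl | hwv
      · rw [Finsupp.single_eq_same, Finsupp.single_eq_of_ne (Ne.symm hne), hreg w hv, mul_zero]
        omega
      rw [Finsupp.single_eq_of_ne hwv]
      rcases eq_or_ne w (g⁻¹ • v) with rfl | hwv'
      · rw [Finsupp.single_eq_same, z2, mul_zero, hv2]
        omega
      · rw [Finsupp.single_eq_of_ne hwv']
        omega
    have hmem : f ∈ (g⁻¹ • v).toValuationSubring ↔ g • f ∈ v.toValuationSubring := by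
      show f ∈ g⁻¹ • v.toValuationSubring ↔ _
      rw [ValuationSubring.mem_pointwise_smul_iff_inv_smul_mem, inv_inv]
    rw [hgv] at hmem
    refine Iff.trans ?_ hmem.symm
    rw [hg, mul_smul, resFrobAut_smul, resFrobAut_smul]
  · rintro e ⟨t, u, ht, hu, rfl⟩
    rcases eq_or_ne (resSection k q M t u) 0 with h0 | h0
    · rw [h0]; exact zero_mem _
    refine (mem_L_iff h0).2 fun v => ?_
    have hall := (mem_L_iff h0).1 (resSection_mem k q M ht.1 hu.1) v
    rw [Finsupp.sub_apply, hBv]
    split_ifs with hv
    · have := (mem_L_iff h0).1 ((hS v).1 hv t u ht hu) v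
      rw [Finsupp.sub_apply, Finsupp.single_eq_same] at this
      omega
    · rw [sub_zero]
      exact hall
  · rw [Finsupp.sub_apply, hBv]
    by_cases hv : v ∈ S
    · rw [if_pos hv, hD, Finsupp.smul_apply, hreg v hv, smul_zero]
      obtain ⟨u, hu, hnot⟩ := hm₁ v v
      obtain ⟨a, ha, hor⟩ := hval v hv u hu
      have h0 : u - algebraMap k E a ≠ 0 := fun h => hnot a (h ▸ zero_mem _)
      have h1 : v.ord (u - algebraMap k E a) = 1 := by
        refine le_antisymm ?_ (hor.resolve_left h0)
        by_contra hlt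
        refine hnot a ((mem_L_iff h0).2 fun w => ?_)
        have hw := (mem_L_iff h0).1 (sub_mem hu.1 (by
          rw [Algebra.algebraMap_eq_smul_one]
          exact Submodule.smul_mem _ a hone.1)) w
        simp only [Finsupp.sub_apply, Finsupp.smul_apply, nsmul_eq_mul, ← hZ] at hw ⊢
        rcases eq_or_ne w v with rfl | hwv
        · rw [Finsupp.single_eq_same, hreg w hv, mul_zero]
          omega
        · rw [Finsupp.single_eq_of_ne hwv]
          omega
      have e : resSection k q M 1 u =
          (u - algebraMap k E a) + -((u - algebraMap k E a) ^ q ^ 2) := by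
        rw [resSection_one, sub_pow_char_pow, ← map_pow, ha]
        ring
      have hord : v.ord (resSection k q M 1 u) = 1 := by
        rw [e, ord_add_eq_left v h0 (fun _ => ?_), h1]
        rw [ord_neg, ord_pow, h1, mul_one]
        exact_mod_cast hq1
      exact ⟨_, Submodule.subset_span ⟨1, u, hone, hu, rfl⟩,
        fun h => by rw [h, Place.ord_zero] at hord; omega, by rw [hord]; norm_num⟩
    · rw [if_neg hv, sub_zero]
      have hnP := mt (hS v).2 hv
      simp only [P] at hnP
      push Not at hnP
      obtain ⟨t, u, ht, hu, hnot⟩ := hnP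
      have h0 : resSection k q M t u ≠ 0 := fun h => hnot (h ▸ zero_mem _)
      refine ⟨_, Submodule.subset_span ⟨t, u, ht, hu, rfl⟩, h0,
        le_antisymm ?_ ((mem_L_iff h0).1 (resSection_mem k q M ht.1 hu.1) v)⟩
      by_contra hlt
      refine hnot ((mem_L_iff h0).2 fun w => ?_)
      have hw := (mem_L_iff h0).1 (resSection_mem k q M ht.1 hu.1) w
      simp only [Finsupp.sub_apply]
      rcases eq_or_ne w v with rfl | hwv
      · rw [Finsupp.single_eq_same]
        omega
      · rw [Finsupp.single_eq_of_ne hwv, sub_zero]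
        exact hw

end Residual

end Fermat.Agent.BadReduction

end
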