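/-
(Z) for `X₀(M q)`: tuples with bounded poles vanishing on a finite set of branches, all fixed by
the square of Frobenius, lie in the special fibre.
-/
import Fermat.Agent.BadReduction.X0Sections
import Fermat.Agent.BadReduction.X0Pencil
import Fermat.Agent.Curve.ReductionMap
import Fermat.Agent.MW.WeakReduction

set_option autoImplicit false
set_option linter.style.haveILetI false
set_option linter.unusedSectionVars false
set_option synthInstance.maxHeartbeats 400000

noncomputable section

open ModularCurve IntermediateField IsLocalRing AlgebraicCurve Polynomial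
open Fermat.Agent.Curve Fermat.Agent.Curve.RedAux Fermat.Agent.Bad

namespace Fermat.Agent.BadReduction

local notation "ℚbar" => AlgebraicClosure ℚ

theorem poleDivisor_pow_eq {K F : Type*} [Field K] [Field F] [Algebra K F] [IsFunctionFieldOne K F]
    (f : F) (n : ℕ) : poleDivisor K (f ^ n) = n • poleDivisor K f := by
  ext v
  rw [Finsupp.smul_apply, poleDivisor_apply, poleDivisor_apply, ord_pow, nsmul_eq_mul,
    mul_max_of_nonneg _ _ (Int.natCast_nonneg n), mul_zero, mul_neg]

variable {M q : ℕ} [NeZero M] [hq : Fact q.Prime]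

local instance neZero_prime_cond : NeZero q := ⟨hq.out.ne_zero⟩

variable (hqM : ¬ q ∣ M) (A : ValuationSubring ℚbar) (hA : A.LiesOverPrime q)
  [CharP (ResidueField A) q] [IsAlgClosed (ResidueField A)]

local notation "αF" => heckeAlphaBar ℚbar M q
local notation "βF" => heckeBetaBar ℚbar M q

local instance condFieldRes : Field (X0Res M A) := inferInstance
local instance condAlgRes : Algebra (ResidueField A) (X0Res M A) := inferInstance
local instance condModRes : Module (ResidueField A) (X0Res M A) := inferInstance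
local instance condPiMod : Module (ResidueField A) (Fin 2 → X0Res M A) := inferInstance
local instance condFFRes : IsFunctionFieldOne (ResidueField A) (X0Res M A) := inferInstance
local instance condFieldBar : Field (modularFunctionFieldBar M) := inferInstance
local instance condAlgBar : Algebra ℚbar (modularFunctionFieldBar M) := inferInstance
local instance condModBar : Module ℚbar (modularFunctionFieldBar M) := inferInstance
local instance condFFBar : IsFunctionFieldOne ℚbar (modularFunctionFieldBar M) := inferInstance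
local instance condFieldTop : Field (X0F M q) := inferInstance
local instance condAlgTop : Algebra ℚbar (X0F M q) := inferInstance
local instance condModTop : Module ℚbar (X0F M q) := inferInstance
local instance condFFTop : IsFunctionFieldOne ℚbar (X0F M q) := inferInstance

theorem x0Reduction_xb (i : Fin 2) :
    (x0Reduction hqM A hA).xb i = resY (ResidueField A) q M ^ (q + 1) := by
  refine (compPhi_x0Fun hqM A hA i).trans ?_
  unfold x0FunBar resY resJ jRes
  rw [inv_pow]

theorem poleDivisor_xb (i : Fin 2) :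
    poleDivisor (ResidueField A) ((x0Reduction hqM A hA).xb i) =
      (q + 1) • resZ (ResidueField A) q M := by
  rw [x0Reduction_xb, poleDivisor_pow_eq]

theorem polarFibre_apply_mem {N : ℕ} {h : Fin 2 → X0Res M A}
    (hh : h ∈ (x0Reduction hqM A hA).polarFibre N) (i : Fin 2) :
    h i ∈ riemannRochSpace ((N * (q + 1)) • resZ (ResidueField A) q M) := by
  have := ((x0Reduction hqM A hA).mem_polarFibre.1 hh) i
  rw [poleDivisor_xb, ← mul_smul] at this
  exact this

/-- `1 / P (j)` at level `M` reduces to `1 / P (j)`. -/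
theorem red_cubicJM_inv :
    ∃ h : (cubicJM M q)⁻¹ ∈ (Igusa.x0GoodReduction hqM hA).V,
      (Igusa.x0GoodReduction hqM hA).φ ⟨_, h⟩ = resY (ResidueField A) q M := by
  have hser : coeffMap A.subtype ((cubic q).eval₂ (Int.castRingHom _) (jqModC A)) =
      (cubicJM M q : LaurentSeries ℚbar) := by
    show _ = (modularFunctionFieldBar M).val.toRingHom (cubicJM M q)
    rw [cubicJM, aeval_def, hom_eval₂, hom_eval₂]
    refine eval₂_congr (Subsingleton.elim _ _) ?_ rfl
    rw [coeffMap_jqModC]
    show jqModC ℚbar = coeffEmb ℚbar jq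
    rw [← jqModC_rat, coeffEmb, coeffMap_jqModC]
  have hmem : coeffMap A.subtype ((cubic q).eval₂ (Int.castRingHom _) (jqModC A)) ∈
      modularFunctionFieldBar M :=
    hser ▸ (cubicJM M q).2
  obtain ⟨h, e⟩ := Igusa.x0GoodReduction_φ_coeffMap hqM hA _ hmem
  have hcu : (⟨_, hmem⟩ : modularFunctionFieldBar M) = cubicJM M q := Subtype.ext hser
  have hP : cubicJM M q ∈ (Igusa.x0GoodReduction hqM hA).V := hcu ▸ h
  have hφ : (Igusa.x0GoodReduction hqM hA).φ ⟨_, hP⟩ =
      aeval (resJ (ResidueField A) M) (cubic q) := by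
    refine Subtype.ext ?_
    rw [show (⟨cubicJM M q, hP⟩ : (Igusa.x0GoodReduction hqM hA).V) = ⟨_, h⟩ from
      Subtype.ext hcu.symm, e]
    show _ = (modularFunctionFieldFullC (ResidueField A) M).val.toRingHom
      (aeval (resJ (ResidueField A) M) (cubic q))
    rw [aeval_def, hom_eval₂, hom_eval₂]
    refine eval₂_congr (Subsingleton.elim _ _) ?_ rfl
    exact coeffMap_jqModC _
  have hne : (Igusa.x0GoodReduction hqM hA).φ ⟨_, hP⟩ ≠ 0 := fun h0 =>
    resY_ne_zero (ResidueField A) q M (by rw [resY, ← hφ, h0, inv_zero])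
  obtain ⟨⟨r, hr⟩, hrr⟩ := isUnit_iff_exists_inv.1
    (not_not.1 (mt ((Igusa.x0GoodReduction hqM hA).φ_eq_zero_iff ⟨_, hP⟩).2 hne))
  have hr' : cubicJM M q * r = 1 := congrArg Subtype.val hrr
  have hinv : (cubicJM M q)⁻¹ = r := inv_eq_of_mul_eq_one_right hr'
  refine ⟨hinv ▸ hr, ?_⟩
  rw [resY, ← hφ]
  refine eq_inv_of_mul_eq_one_right ?_
  rw [← map_mul, ← map_one (Igusa.x0GoodReduction hqM hA).φ]
  refine congrArg _ (Subtype.ext ?_)
  show cubicJM M q * (cubicJM M q)⁻¹ = 1
  rw [hinv, hr']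

/-- Rational functions with poles bounded by the zeros of `P (j)` lift to characteristic zero. -/
theorem exists_lift_bound : ∃ n₀ : ℕ, ∀ N, n₀ ≤ N →
    ∀ t ∈ riemannRochSpace (N • resZ (ResidueField A) q M),
      ∃ T : (Igusa.x0GoodReduction hqM hA).V,
        (T : modularFunctionFieldBar M) ∈
          riemannRochSpace (N • poleDivisor ℚbar (cubicJM M q)⁻¹) ∧
        (Igusa.x0GoodReduction hqM hA).φ T = t := by
  classical
  set G := Igusa.x0GoodReduction hqM hA with hG
  obtain ⟨hY, hYφ⟩ := red_cubicJM_inv hqM A hA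
  have hφne : G.φ ⟨_, hY⟩ ≠ 0 := hYφ ▸ resY_ne_zero (ResidueField A) q M
  have hy0 : (cubicJM M q)⁻¹ ≠ 0 := fun e => hφne (by
    rw [show (⟨_, hY⟩ : G.V) = 0 from Subtype.ext e, map_zero])
  obtain ⟨Dy, hDy, -⟩ := HasPrincipalDivisors.exists_divisor (K := ℚbar) _ hy0
  set P := poleDivisor ℚbar (cubicJM M q)⁻¹ with hP
  have hnn : 0 ≤ P + Dy := Finsupp.le_def.2 fun v => by
    rw [Finsupp.add_apply, hP, poleDivisor_apply, hDy v, Finsupp.zero_apply]; omega
  have hmap : ∀ {D : Divisor ℚbar (modularFunctionFieldBar M)}, 0 ≤ D → 0 ≤ G.divMap D := by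
    intro D hD
    rw [G.divMap_apply]
    refine Finsupp.le_def.2 fun v => ?_
    rw [Finsupp.zero_apply, Finsupp.mapDomain, Finsupp.sum, Finsupp.finsetSum_apply]
    refine Finset.sum_nonneg fun w _ => ?_
    rw [Finsupp.single_apply]
    split_ifs
    · exact Finsupp.le_def.1 hD w
    · exact le_rfl
  have hle : resZ (ResidueField A) q M ≤ G.divMap P := Finsupp.le_def.2 fun v => by
    have h1 := Finsupp.le_def.1 (hmap hnn) v
    have h2 := Finsupp.le_def.1 (hmap (poleDivisor_nonneg (K := ℚbar) (cubicJM M q)⁻¹)) v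
    rw [map_add, Finsupp.add_apply, G.divMap_apply_eq_ord ⟨_, hY⟩ hφne hDy v, hYφ,
      Finsupp.zero_apply] at h1
    rw [Finsupp.zero_apply, ← hP] at h2
    rw [poleDivisor_apply]
    omega
  have hpos : 0 < Divisor.degree P := by
    have h1 := RedAux.degree_mono hle
    rw [G.degree_divMap] at h1
    exact lt_of_lt_of_le (resZ_degree_pos (ResidueField A) q M) h1
  obtain ⟨c, hc⟩ := G.exists_bound_reduceSubspace_eq
  refine ⟨c.toNat, fun N hN t ht => ?_⟩
  have hd : c ≤ Divisor.degree (N • P) := by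
    rw [map_nsmul, nsmul_eq_mul]
    have : (N : ℤ) ≤ (N : ℤ) * Divisor.degree P :=
      le_mul_of_one_le_right (Int.natCast_nonneg N) hpos
    omega
  have ht' : t ∈ riemannRochSpace (G.divMap (N • P)) := by
    rw [map_nsmul]
    exact L_mono (nsmul_le_nsmul_right hle N) ht
  rw [← hc _ hd] at ht'
  obtain ⟨T, hT, rfl⟩ := ht'
  exact ⟨T, hT, rfl⟩

/-- Reductions of a product. -/
theorem red_mul_apply (i : Fin 2) {f g : X0F M q} (hf : f ∈ compV hqM A i)
    (hg : g ∈ compV hqM A i) (hint : f * g ∈ (x0Reduction hqM A hA).integers) :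
    (x0Reduction hqM A hA).red ⟨f * g, hint⟩ i =
      compPhi hqM A hA i ⟨f, hf⟩ * compPhi hqM A hA i ⟨g, hg⟩ := by
  rw [← map_mul]
  rfl

/-- The tuple of `α T * β U`. -/
theorem pair_mem {N : ℕ} {T U : (Igusa.x0GoodReduction hqM hA).V}
    (hT : (T : modularFunctionFieldBar M) ∈
      riemannRochSpace (N • poleDivisor ℚbar (cubicJM M q)⁻¹))
    (hU : (U : modularFunctionFieldBar M) ∈
      riemannRochSpace (N • poleDivisor ℚbar (cubicJM M q)⁻¹)) :
    ![(Igusa.x0GoodReduction hqM hA).φ T *
        resPhi (ResidueField A) q M ((Igusa.x0GoodReduction hqM hA).φ U),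
      resPhi (ResidueField A) q M ((Igusa.x0GoodReduction hqM hA).φ T) *
        (Igusa.x0GoodReduction hqM hA).φ U] ∈
      (x0Reduction hqM A hA).spFibre ((x0Reduction hqM A hA).polarSp N) := by
  obtain ⟨a0, ea0⟩ := compPhi_zero_alpha hqM A hA T
  obtain ⟨b0, eb0⟩ := compPhi_zero_beta hqM A hA U
  obtain ⟨a1, ea1⟩ := compPhi_one_alpha hqM A hA T
  obtain ⟨b1, eb1⟩ := compPhi_one_beta hqM A hA U
  have hint : αF (T : modularFunctionFieldBar M) * βF (U : modularFunctionFieldBar M) ∈
      (x0Reduction hqM A hA).integers := (x0Reduction hqM A hA).mem_integers.2 fun i => by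
    fin_cases i
    · exact mul_mem a0 b0
    · exact mul_mem a1 b1
  refine ⟨⟨_, hint⟩, mul_mem_polarSp hqM A hA hT hU, funext fun i => ?_⟩
  fin_cases i
  · exact (red_mul_apply hqM A hA 0 a0 b0 hint).trans (congrArg₂ (· * ·) ea0 eb0)
  · exact (red_mul_apply hqM A hA 1 a1 b1 hint).trans (congrArg₂ (· * ·) ea1 eb1)

/-- `w_q` exchanges the components of the special fibres. -/
theorem swap_mem {N : ℕ} {h : Fin 2 → X0Res M A}
    (hh : h ∈ (x0Reduction hqM A hA).spFibre ((x0Reduction hqM A hA).polarSp N)) :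
    ![h 1, h 0] ∈ (x0Reduction hqM A hA).spFibre ((x0Reduction hqM A hA).polarSp N) := by
  obtain ⟨⟨f, hf⟩, hfN, rfl⟩ := hh
  have hf' := (x0Reduction hqM A hA).mem_integers.1 hf
  have h1 : atkinLehner hqM (atkinLehner hqM f) ∈ infV M q A := by
    rw [atkinLehner_atkinLehner]; exact hf' 0
  have hint : atkinLehner hqM f ∈ (x0Reduction hqM A hA).integers :=
    (x0Reduction hqM A hA).mem_integers.2 fun i => by
      fin_cases i
      · exact hf' 1
      · exact h1
  refine ⟨⟨_, hint⟩, ?_, funext fun i => ?_⟩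
  · show atkinLehner hqM f ∈ riemannRochSpace (N • (x0Reduction hqM A hA).poleX)
    rcases eq_or_ne f 0 with rfl | hf0
    · rw [map_zero]; exact zero_mem _
    refine (mem_L_iff ((_root_.map_ne_zero _).2 hf0)).2 fun v => ?_
    obtain ⟨w, rfl⟩ : ∃ w, atkinLehner hqM • w = v := ⟨(atkinLehner hqM)⁻¹ • v, smul_inv_smul _ v⟩
    have h2 := (mem_L_iff hf0).1 hfN w
    have ex : (atkinLehner hqM • w).ord (x0Reduction hqM A hA).x =
        w.ord (x0Reduction hqM A hA).x := by
      conv_lhs => rw [show (x0Reduction hqM A hA).x = atkinLehner hqM (x0Fun hqM) from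
        (atkinLehner_x0Fun hqM).symm]
      exact Place.ord_smul _ _ _
    rw [Place.ord_smul, Finsupp.smul_apply, MultiReduction.poleX, poleDivisor_apply, ex]
    rw [Finsupp.smul_apply, MultiReduction.poleX, poleDivisor_apply] at h2
    exact h2
  · rw [MultiReduction.red_apply]
    fin_cases i
    · exact Subtype.ext rfl
    · refine Subtype.ext ?_
      show infRed M q A ⟨_, h1⟩ = infRed M q A ⟨f, hf' 0⟩
      exact congrArg (infRed M q A) (Subtype.ext (atkinLehner_atkinLehner hqM f))

/-- For large `N` every component of the bound extends to a tuple of the special fibre. -/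
theorem exists_proj_full : ∃ N₁ : ℕ, ∀ N, N₁ ≤ N → ∀ i,
    ∀ a ∈ riemannRochSpace
      (N • poleDivisor (ResidueField A) ((x0Reduction hqM A hA).xb i)),
      ∃ h ∈ (x0Reduction hqM A hA).spFibre ((x0Reduction hqM A hA).polarSp N), h i = a := by
  obtain ⟨n₀, hn₀⟩ := exists_lift_bound hqM A hA
  obtain ⟨c, hc⟩ := exists_pow_span_bound (k := ResidueField A) (E := X0Res M A)
  refine ⟨n₀ + q + c.toNat, fun N hN i a ha => ?_⟩
  set Z := resZ (ResidueField A) q M with hZ
  set S := (x0Reduction hqM A hA).spFibre ((x0Reduction hqM A hA).polarSp N)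
  obtain ⟨hY, hYφ⟩ := red_cubicJM_inv hqM A hA
  let W : Submodule (ResidueField A) (X0Res M A) := S.map (LinearMap.proj 0)
  have hW : riemannRochSpace ((N + q * N) • Z) ≤ W := by
    refine hc (resY (ResidueField A) q M) q N N W (resY_ne_zero _ q M) ?_ fun t ht j hj => ?_
    · have h1 : (c.toNat : ℤ) ≤ (N : ℤ) - q := by omega
      have h2 := le_mul_of_one_le_right (a := (N : ℤ) - q)
        (b := Divisor.degree (resZ (ResidueField A) q M)) (by omega) (resZ_degree_pos _ q M)
      exact (Int.self_le_toNat c).trans (h1.trans h2)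
    · obtain ⟨T, hT, rfl⟩ := hn₀ N (by omega) t ht
      have hU : ((⟨_, hY⟩ : (Igusa.x0GoodReduction hqM hA).V) ^ j :
          (Igusa.x0GoodReduction hqM hA).V).1 ∈
          riemannRochSpace (N • poleDivisor ℚbar (cubicJM M q)⁻¹) :=
        L_mono (nsmul_le_nsmul_left (poleDivisor_nonneg _) hj)
          (Bad.pow_mem_L (mem_L_poleDivisor _) j)
      refine ⟨_, pair_mem hqM A hA hT hU, ?_⟩
      show _ * resPhi (ResidueField A) q M _ = _
      have hΦy : resPhi (ResidueField A) q M (resY (ResidueField A) q M) =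
          resY (ResidueField A) q M ^ q := by
        conv_lhs => rw [← resFrob_resY (ResidueField A) q M]
        exact resPhi_resFrob _ q M _
      rw [map_pow, map_pow, hYφ, hΦy, ← pow_mul]
  rw [poleDivisor_xb, ← mul_smul, show N * (q + 1) = N + q * N by ring] at ha
  obtain ⟨h, hh, rfl⟩ := hW ha
  fin_cases i
  · exact ⟨h, hh, rfl⟩
  · exact ⟨![h 1, h 0], swap_mem hqM A hA hh, rfl⟩

set_option maxHeartbeats 1000000 in
/-- The sections lie in the conductor. -/
theorem single_resSection_mem {m : ℕ} (hm : ∀ t ∈ riemannRochSpace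
      (m • resZ (ResidueField A) q M), ∃ T : (Igusa.x0GoodReduction hqM hA).V,
      (T : modularFunctionFieldBar M) ∈
        riemannRochSpace (m • poleDivisor ℚbar (cubicJM M q)⁻¹) ∧
      (Igusa.x0GoodReduction hqM hA).φ T = t)
    {t u : X0Res M A} (ht : IsRational (ResidueField A) q M m t)
    (hu : IsRational (ResidueField A) q M m u) :
    Pi.single (M := fun _ : Fin 2 => X0Res M A) 0 (resSection (ResidueField A) q M t u) ∈
      (x0Reduction hqM A hA).spFibre ((x0Reduction hqM A hA).polarSp (q * m)) := by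
  obtain ⟨T, hT, rfl⟩ := hm t ht.1
  obtain ⟨U, hU, rfl⟩ := hm u hu.1
  have hpow : ∀ {a : ℕ} {X : (Igusa.x0GoodReduction hqM hA).V}, (X : modularFunctionFieldBar M) ∈
      riemannRochSpace (a • poleDivisor ℚbar (cubicJM M q)⁻¹) → ∀ n, ((X ^ n : (Igusa.x0GoodReduction hqM hA).V) :
      modularFunctionFieldBar M) ∈
        riemannRochSpace ((n * a) • poleDivisor ℚbar (cubicJM M q)⁻¹) := fun hX n => by
    rw [mul_smul]; exact Bad.pow_mem_L hX n
  have hUT : ((U * T ^ (q - 1) : (Igusa.x0GoodReduction hqM hA).V) : modularFunctionFieldBar M) ∈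
      riemannRochSpace ((q * m) • poleDivisor ℚbar (cubicJM M q)⁻¹) := by
    have := mul_mem_L hU (hpow hT (q - 1))
    rwa [← add_smul, show m + (q - 1) * m = q * m by
      rw [add_comm, ← Nat.succ_mul, Nat.succ_eq_add_one, Nat.sub_add_cancel hq.out.one_le]]
      at this
  have h := sub_mem (pair_mem hqM A hA hUT (hpow hT q))
    (pair_mem hqM A hA (hpow hT q) (hpow hU q))
  have hΦ : ∀ z : X0Res M A, resFrob (ResidueField A) q M z = z →
      resPhi (ResidueField A) q M z = z ^ q := fun z hz => by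
    conv_lhs => rw [← hz]
    exact resPhi_resFrob _ q M z
  convert h using 1
  refine funext (Fin.forall_fin_two.2 ⟨?_, ?_⟩)
  · rw [Pi.single_eq_same, Pi.sub_apply, Matrix.cons_val_zero, Matrix.cons_val_zero, resSection]
    simp only [map_mul, map_pow, hΦ _ ht.2, hΦ _ hu.2]
  · rw [Pi.single_eq_of_ne (by decide : (1 : Fin 2) ≠ 0), Pi.sub_apply, Matrix.cons_val_one,
      Matrix.cons_val_one, Matrix.cons_val_fin_one, Matrix.cons_val_fin_one]
    simp only [map_mul, map_pow, hΦ _ ht.2, hΦ _ hu.2]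
    rw [mul_assoc, ← pow_succ, Nat.sub_add_cancel hq.out.one_le, mul_comm, sub_self]

set_option maxHeartbeats 1600000 in
/-- (Z) with branches fixed by the square of Frobenius. -/
theorem exists_conductor_frobenius :
    ∃ B : Finset (Σ _ : Fin 2, Place (ResidueField A) (X0Res M A)),
      (∀ b ∈ B, 0 ≤ b.2.ord ((x0Reduction hqM A hA).xb b.1)) ∧
      (∀ i, ∃ b ∈ B, b.1 = i) ∧
      (∀ b ∈ B, ∀ f : X0Res M A,
        resFrob (ResidueField A) q M (resFrob (ResidueField A) q M f) ∈ b.2.toValuationSubring ↔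
          f ∈ b.2.toValuationSubring) ∧
      ∃ N₀ : ℕ, ∀ N, N₀ ≤ N → ∀ h ∈ (x0Reduction hqM A hA).polarFibre N,
        (∀ b ∈ B, MultiReduction.VanishesAt b 1 h) →
          h ∈ (x0Reduction hqM A hA).spFibre ((x0Reduction hqM A hA).polarSp N) := by
  classical
  obtain ⟨m₀, hm₀⟩ := exists_sections (ResidueField A) q M fun a => MW.exists_pow_pow_eq hA a
  obtain ⟨n₀, hn₀⟩ := exists_lift_bound hqM A hA
  set m := max m₀ n₀ with hm
  obtain ⟨S, hreg, hfix, V, hV, hVle, hbpf⟩ := hm₀ m (le_max_left _ _)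
  obtain ⟨N₁, hN₁⟩ := exists_proj_full hqM A hA
  obtain ⟨c, hc⟩ := exists_pencil_bound (k := ResidueField A) (E := X0Res M A)
  set Z := resZ (ResidueField A) q M with hZ
  set G₀ : Divisor (ResidueField A) (X0Res M A) :=
    (q * m * (q + 1)) • Z - ∑ v ∈ S, Finsupp.single v 1 with hG₀
  obtain ⟨s₁, hs₁, s₂, hs₂, n₁, n₂, hp⟩ := exists_pencil V G₀ hVle hbpf
  have hdeg : 0 ≤ Divisor.degree G₀ := by
    obtain ⟨D, hD, hD0⟩ := HasPrincipalDivisors.exists_divisor (K := ResidueField A) s₁ n₁
    have h1 : 0 ≤ G₀ + D := Finsupp.le_def.2 fun v => by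
      have := (mem_L_iff n₁).1 (hVle hs₁) v
      rw [Finsupp.zero_apply, Finsupp.add_apply, hD v]
      omega
    have h2 := RedAux.degree_nonneg h1
    rwa [map_add, hD0, add_zero] at h2
  let cusp := resCusp (ResidueField A) M
  refine ⟨Finset.univ.sigma fun _ => insert cusp S, fun b hb => ?_,
    fun i => ⟨⟨i, cusp⟩, Finset.mem_sigma.2 ⟨Finset.mem_univ _, Finset.mem_insert_self _ _⟩, rfl⟩,
    fun b hb f => ?_, q * m + (max N₁ (c + Divisor.degree G₀).toNat), fun N hN h hh hvan => ?_⟩
  · have hb' := (Finset.mem_sigma.1 hb).2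
    have hy : 0 ≤ b.2.ord (resY (ResidueField A) q M) := by
      rcases Finset.mem_insert.1 hb' with he | he
      · rw [he]; exact (resY_ord_cusp _ q M).le
      · have := hreg _ he
        rw [poleDivisor_apply] at this
        omega
    rw [x0Reduction_xb, ord_pow]
    exact mul_nonneg (Int.natCast_nonneg _) hy
  · rcases Finset.mem_insert.1 (Finset.mem_sigma.1 hb).2 with he | he
    · rw [he]
      exact (resFrob_mem_resCusp_iff _ q M _).trans (resFrob_mem_resCusp_iff _ q M f)
    · exact hfix _ he f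
  -- the conductor on the first component
  obtain ⟨N', rfl⟩ : ∃ N', N = q * m + N' := ⟨N - q * m, by omega⟩
  set R := x0Reduction hqM A hA with hR
  let I : Submodule (ResidueField A) (X0Res M A) :=
    (R.spFibre (R.polarSp (q * m + N'))).comap
      (LinearMap.single (ResidueField A) (fun _ : Fin 2 => X0Res M A) 0)
  have hVI : ∀ s ∈ V, Pi.single (M := fun _ : Fin 2 => X0Res M A) 0 s ∈
      R.spFibre (R.polarSp (q * m)) := by
    suffices V ≤ (R.spFibre (R.polarSp (q * m))).comap
        (LinearMap.single (ResidueField A) (fun _ : Fin 2 => X0Res M A) 0) from fun s hs => this hs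
    rw [hV, Submodule.span_le]
    rintro _ ⟨t, u, ht, hu, rfl⟩
    exact single_resSection_mem hqM A hA (hn₀ m (le_max_right _ _)) ht hu
  have hmul : ∀ s ∈ V, ∀ f ∈ riemannRochSpace ((N' * (q + 1)) • Z), s * f ∈ I := by
    intro s hs f hf
    obtain ⟨g, hg, rfl⟩ := hN₁ N' (by omega) 0 f (by rwa [poleDivisor_xb, ← mul_smul])
    show Pi.single (M := fun _ : Fin 2 => X0Res M A) 0 (s * g 0) ∈
      R.spFibre (R.polarSp (q * m + N'))
    rw [Pi.single_mul_left]
    exact R.mul_mem_spFibre_polar (hVI s hs) hg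
  have hI : riemannRochSpace (((q * m + N') * (q + 1)) • Z - ∑ v ∈ S, Finsupp.single v 1) ≤ I := by
    have e : ((q * m + N') * (q + 1)) • Z - ∑ v ∈ S, Finsupp.single v 1 =
        G₀ + (N' * (q + 1)) • Z := by
      rw [hG₀, add_mul, add_smul]; abel
    rw [e]
    refine hc G₀ _ s₁ s₂ (hVle hs₁) (hVle hs₂) n₁ n₂ hp hdeg ?_ I (hmul s₁ hs₁) (hmul s₂ hs₂)
    rw [map_nsmul, nsmul_eq_mul]
    have h1 : (N' : ℤ) ≤ ((N' * (q + 1) : ℕ) : ℤ) := by
      exact_mod_cast Nat.le_mul_of_pos_right N' (Nat.succ_pos q)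
    have h2 : ((N' * (q + 1) : ℕ) : ℤ) ≤ ((N' * (q + 1) : ℕ) : ℤ) * Divisor.degree Z :=
      le_mul_of_one_le_right (Int.natCast_nonneg _) (resZ_degree_pos _ q M)
    omega
  have hmem : ∀ i, Pi.single (M := fun _ : Fin 2 => X0Res M A) 0 (h i) ∈
      R.spFibre (R.polarSp (q * m + N')) := by
    intro i
    apply hI
    rcases eq_or_ne (h i) 0 with h0 | h0
    · rw [h0]; exact zero_mem _
    refine (mem_L_iff h0).2 fun v => ?_
    have hp' := (mem_L_iff h0).1 (polarFibre_apply_mem hqM A hA hh i) v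
    rw [Finsupp.sub_apply, Finsupp.finsetSum_apply]
    simp only [Finsupp.single_apply, Finset.sum_ite_eq', ← hZ] at hp' ⊢
    split_ifs with hv
    · have h1 : (1 : ℤ) ≤ v.ord (h i) :=
        (hvan ⟨i, v⟩ (Finset.mem_sigma.2 ⟨Finset.mem_univ _, Finset.mem_insert_of_mem hv⟩)).resolve_left h0
      rw [Finsupp.smul_apply, show Z v = 0 from hreg v hv, smul_zero]
      omega
    · rw [sub_zero]
      exact hp'
  have h0 := hmem 0
  have h1 := swap_mem hqM A hA (hmem 1)
  have e : h = Pi.single (M := fun _ : Fin 2 => X0Res M A) 0 (h 0) +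
      ![Pi.single (M := fun _ : Fin 2 => X0Res M A) 0 (h 1) 1,
        Pi.single (M := fun _ : Fin 2 => X0Res M A) 0 (h 1) 0] := by
    funext i
    fin_cases i <;> simp
  rw [e]
  exact add_mem h0 h1

omit [CharP (ResidueField A) q] [IsAlgClosed (ResidueField A)] in
/-- (Z) The conductor of the special fibre is reduced. -/
theorem exists_conductor_proof :
    ∃ B : Finset (Σ _ : Fin 2, Place (ResidueField A) (X0Res M A)),
      (∀ b ∈ B, 0 ≤ b.2.ord ((x0Reduction hqM A hA).xb b.1)) ∧
      (∀ i, ∃ b ∈ B, b.1 = i) ∧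
      ∃ N₀ : ℕ, ∀ N, N₀ ≤ N → ∀ h ∈ (x0Reduction hqM A hA).polarFibre N,
        (∀ b ∈ B, MultiReduction.VanishesAt b 1 h) →
          h ∈ (x0Reduction hqM A hA).spFibre ((x0Reduction hqM A hA).polarSp N) := by
  haveI := charP_residue_of_liesOverPrime hq.out hA
  haveI := (x0Reduction hqM A hA).isAlgClosed_residue
  obtain ⟨B, h1, h2, -, h3⟩ := exists_conductor_frobenius hqM A hA
  exact ⟨B, h1, h2, h3⟩

end Fermat.Agent.BadReduction

end
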