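/-
A Frobenius at `q` reduces to the coefficientwise Frobenius on both components of the special
fibre of `X₀(M q)`.
-/
import Fermat.Agent.BadReduction.X0Reduction
import Fermat.Agent.BadReduction.X0FrobeniusData
import Fermat.Prelude.Def_EllipticCurve_FrobeniusTrace

set_option autoImplicit false
set_option linter.style.haveILetI false

noncomputable section

open ModularCurve IntermediateField IsLocalRing AlgebraicCurve Polynomial
open Fermat.Agent.Curve Fermat.Agent.Bad

namespace Fermat.Agent.BadReduction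

local notation "ℚbar" => AlgebraicClosure ℚ

section Fixed

variable {N : ℕ} [NeZero N]

theorem galois_smul_jBar (σ : ℚbar ≃ₐ[ℚ] ℚbar) :
    arithmeticGalois (modularFunctionFieldFull N) σ • Igusa.jBar N = Igusa.jBar N :=
  Subtype.ext (by rw [coe_galois_smul, Igusa.coe_jBar]; exact coeffMap_coeffEmb σ _)

/-- Integral polynomials in a fixed function are fixed. -/
theorem galois_smul_aeval (σ : ℚbar ≃ₐ[ℚ] ℚbar) (P : ℤ[X]) {f : modularFunctionFieldBar N}
    (hf : arithmeticGalois (modularFunctionFieldFull N) σ • f = f) :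
    arithmeticGalois (modularFunctionFieldFull N) σ • aeval f P = aeval f P := by
  have h := Polynomial.map_aeval_eq_aeval_map (R := ℤ) (S := modularFunctionFieldBar N)
    (T := ℤ) (U := modularFunctionFieldBar N) (φ := RingHom.id ℤ)
    (ψ := MulSemiringAction.toRingHom
      (SemilinearAut (AlgebraicClosure ℚ) (modularFunctionFieldBar N))
      (modularFunctionFieldBar N) (arithmeticGalois (modularFunctionFieldFull N) σ))
    (RingHom.ext_int _ _) P f
  rw [Polynomial.map_id, MulSemiringAction.toRingHom_apply, MulSemiringAction.toRingHom_apply,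
    hf] at h
  exact h

end Fixed

variable {M q : ℕ} [NeZero M] [hq : Fact q.Prime]

local instance neZero_prime'' : NeZero q := ⟨hq.out.ne_zero⟩

theorem galois_smul_x0Fun (hqM : ¬ q ∣ M) (σ : ℚbar ≃ₐ[ℚ] ℚbar) :
    arithmeticGalois (modularFunctionFieldFull (M * q)) σ • x0Fun (q := q) hqM = x0Fun hqM := by
  have h : arithmeticGalois (modularFunctionFieldFull (M * q)) σ • cubicJ M q = cubicJ M q :=
    galois_smul_aeval σ _ (galois_smul_jBar σ)
  rw [x0Fun, smul_inv'', smul_mul', ← atkinLehner_galois, h]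

variable (A : ValuationSubring ℚbar)

theorem residue_frobenius {σ : ℚbar ≃ₐ[ℚ] ℚbar} (hσ : A.IsFrobeniusAt σ q) (a : A) :
    residue A ((⟨σ, hσ.mem_decompositionSubgroup⟩ : A.decompositionSubgroup ℚ) • a) =
      residue A a ^ q := by
  rw [← hσ.smul_residue_eq, ResidueField.residue_smul]

theorem infRed_frobenius [CharP (ResidueField A) q] {σ : ℚbar ≃ₐ[ℚ] ℚbar}
    (hσ : A.IsFrobeniusAt σ q) {x : X0F M q} (hx : x ∈ infV M q A) :
    infRed M q A ⟨_, galois_mem_infV A hσ.mem_decompositionSubgroup hx⟩ =
      coeffMap (frobenius (ResidueField A) q) (infRed M q A ⟨x, hx⟩) := by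
  let g : A →+* A := MulSemiringAction.toRingHom (A.decompositionSubgroup ℚ) A
    ⟨σ, hσ.mem_decompositionSubgroup⟩
  haveI : IsLocalHom g := ⟨fun a ha => by
    have h := ha.map (MulSemiringAction.toRingHom (A.decompositionSubgroup ℚ) A
      ⟨σ, hσ.mem_decompositionSubgroup⟩⁻¹)
    rwa [MulSemiringAction.toRingHom_apply, MulSemiringAction.toRingHom_apply, inv_smul_smul]
      at h⟩
  obtain ⟨y₁, y₂, hne, e⟩ := id hx
  obtain ⟨h1, h2⟩ := galois_quotient_eq A g σ (fun _ => rfl) x hne e
  have hred : ∀ y : LaurentSeries A, coeffMap (residue A) (coeffMap g y) =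
      coeffMap (frobenius (ResidueField A) q) (coeffMap (residue A) y) := fun y => by
    rw [coeffMap_coeffMap, coeffMap_coeffMap]
    exact coeffMap_congr (RingHom.ext fun a => residue_frobenius A hσ a) _
  rw [infRed_eq A ⟨_, galois_mem_infV A hσ.mem_decompositionSubgroup hx⟩ h1 h2,
    infRed_eq A ⟨x, hx⟩ hne e, hred, hred, map_div₀]

variable (hqM : ¬ q ∣ M) (hA : A.LiesOverPrime q) [CharP (ResidueField A) q]
  [IsAlgClosed (ResidueField A)]

theorem compPhi_frobenius {σ : ℚbar ≃ₐ[ℚ] ℚbar} (hσ : A.IsFrobeniusAt σ q) (i : Fin 2)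
    (x : compV hqM A i) :
    compPhi hqM A hA i
        ⟨arithmeticGalois (modularFunctionFieldFull (M * q)) σ • (x : X0F M q),
          (galois_mem_compV_iff hqM A hσ.mem_decompositionSubgroup i _).2 x.2⟩ =
      resFrob (ResidueField A) q M (compPhi hqM A hA i x) := by
  match i, x with
  | 0, x =>
    refine Subtype.ext ?_
    rw [coe_resFrob, coe_compPhi_zero, coe_compPhi_zero]
    exact infRed_frobenius A hσ x.2
  | 1, x =>
    refine Subtype.ext ?_
    rw [coe_resFrob, coe_compPhi_one, coe_compPhi_one]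
    have hx : atkinLehner hqM (x : X0F M q) ∈ infV M q A := x.2
    refine Eq.trans ?_ (infRed_frobenius A hσ hx)
    congr 1
    exact Subtype.ext (atkinLehner_galois hqM σ _)

/-- A Frobenius at `q` is a Frobenius action on the reduction of `X₀(M q)`. -/
theorem frobeniusAction_x0 {σ : ℚbar ≃ₐ[ℚ] ℚbar} (hσ : A.IsFrobeniusAt σ q) :
    NewformRep.FrobeniusAction (x0Reduction hqM A hA) (x0FrobeniusData (ResidueField A) q M)
      (arithmeticGalois (modularFunctionFieldFull (M * q)) σ) where
  mem_A_iff a := by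
    rw [baseAut_arithmeticGalois]
    constructor
    · intro ha
      have h := (((⟨σ, hσ.mem_decompositionSubgroup⟩ : A.decompositionSubgroup ℚ)⁻¹) •
        (⟨σ a, ha⟩ : A)).2
      exact (σ.symm_apply_apply a) ▸ h
    · intro ha
      exact ((⟨σ, hσ.mem_decompositionSubgroup⟩ : A.decompositionSubgroup ℚ) • (⟨a, ha⟩ : A)).2
  π_apply a := by
    refine Eq.trans ?_ (residue_frobenius A hσ a)
    exact congrArg (residue A) (Subtype.ext rfl)
  mem_V_iff i f := galois_mem_compV_iff hqM A hσ.mem_decompositionSubgroup i f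
  φ_smul i f := compPhi_frobenius A hqM hA hσ i f
  smul_poleX := by
    refine Finsupp.ext fun v => ?_
    have h := SemilinearAut.ord_smul (arithmeticGalois (modularFunctionFieldFull (M * q)) σ)
      ((arithmeticGalois (modularFunctionFieldFull (M * q)) σ)⁻¹ • v) (x0Fun hqM)
    rw [smul_inv_smul, galois_smul_x0Fun] at h
    show (_ • poleDivisor ℚbar (x0Fun hqM)) v = poleDivisor ℚbar (x0Fun hqM) v
    rw [SemilinearAut.divisor_smul_apply, poleDivisor_apply, poleDivisor_apply, h]

end Fermat.Agent.BadReduction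

end
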