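/-
The Atkin–Lehner involution times a Frobenius at `q` on the special fibre of `X₀(M q)`: it
exchanges the two components and the two branches at every node, hence acts by `- q` on the
classes trivial on the components.  On the torsion killed by both degeneracy push-forwards this
gives `σ² + (q + 1) w σ + q = 0`.
-/
import Fermat.Agent.BadReduction.X0Compat
import Fermat.Agent.BadReduction.X0Sections
import Fermat.Agent.BadReduction.X0FrobeniusAction
import Fermat.Agent.Bad.GluingGlued
import Fermat.Agent.NewformRep.GeometryAbstract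
import Fermat.Agent.Mazur.LocalRank

set_option autoImplicit false
set_option linter.style.haveILetI false
set_option linter.unusedSectionVars false
set_option synthInstance.maxHeartbeats 400000
set_option maxHeartbeats 1000000

noncomputable section

open ModularCurve IntermediateField IsLocalRing AlgebraicCurve Polynomial
open Fermat.Agent.Curve Fermat.Agent.Curve.RedAux Fermat.Agent.Bad
open Fermat.Agent.Bad.MultiReduction

namespace Fermat.Agent.BadReduction

local notation "ℚbar" => AlgebraicClosure ℚ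

section Generic

variable {K : Type*} [Field K] [IsAlgClosed K] {A : ValuationSubring K}
  {F : Type*} [Field F] [Algebra K F] {k : Type*} [Field k] {E : Type*} [Field E] [Algebra k E]

/-- The inverse of an integral value reduces to the inverse. -/
theorem exists_inv_aeval_lift (G : Curve.GoodReduction A F k E) (j : G.V) (p : ℤ[X])
    (hne : aeval (G.φ j) p ≠ 0) :
    ∃ h : (aeval (j : F) p)⁻¹ ∈ G.V, G.φ ⟨_, h⟩ = (aeval (G.φ j) p)⁻¹ := by
  have hz : ((aeval j p : G.V) : F) = aeval (j : F) p := map_aeval_int G.V.subtype _ _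
  have hzφ : G.φ (aeval j p) = aeval (G.φ j) p := map_aeval_int G.φ _ _
  have hne' : G.φ (aeval j p) ≠ 0 := hzφ ▸ hne
  refine ⟨hz ▸ G.inv_mem_of_φ_ne_zero hne', ?_⟩
  rw [← hzφ, ← G.φ_inv hne']
  congr 1
  exact Subtype.ext (congrArg (·⁻¹) hz).symm

/-- Reductions of functions with poles on those of a lift `y` separate the places away from the
poles of the reduction of `y`. -/
theorem exists_separating_of_lift [IsFunctionFieldOne K F] [IsFunctionFieldOne k E]
    (G : Curve.GoodReduction A F k E) (y : G.V)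
    (hy : Transcendental k (G.φ y)) {v w : Place k E} (hv : G.φ y ∈ v.toValuationSubring)
    (hw : G.φ y ∈ w.toValuationSubring) (hne : v ≠ w) :
    ∃ (m : ℕ) (T : G.V), (T : F) ∈ riemannRochSpace (m • poleDivisor K (y : F)) ∧
      G.φ T ∈ riemannRochSpace (m • poleDivisor k (G.φ y)) ∧
      placeValue v (G.φ T) ≠ placeValue w (G.φ T) := by
  classical
  haveI := G.isAlgClosed_residue
  set D := poleDivisor K (y : F) with hD
  set Z := poleDivisor k (G.φ y) with hZ
  have hD0 : (0 : Divisor k E) ≤ G.divMap D := by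
    simpa using G.divMap_mono (poleDivisor_nonneg (y : F))
  have hle : Z ≤ G.divMap D :=
    (poleDivisor_le_iff hD0).2 (G.φ_mem_riemannRochSpace _ (mem_L_poleDivisor _))
  obtain ⟨c, hc⟩ := exists_exact_pole (k := k) (E := E)
  obtain ⟨c', hc'⟩ := G.exists_bound_reduceSubspace_eq
  set m := (c + 1).toNat + c'.toNat with hm
  have hZpos : 1 ≤ Divisor.degree Z := by
    rw [hZ, degree_poleDivisor hy]
    exact_mod_cast finrank_adjoin_pos hy
  have hdegZ : (m : ℤ) ≤ Divisor.degree (m • Z) := by
    rw [map_nsmul, nsmul_eq_mul]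
    exact le_mul_of_one_le_right (Int.natCast_nonneg m) hZpos
  have hdeg' : c' ≤ Divisor.degree (m • D) := by
    rw [map_nsmul, nsmul_eq_mul]
    have h2 : (m : ℤ) ≤ (m : ℤ) * Divisor.degree D :=
      le_mul_of_one_le_right (Int.natCast_nonneg m)
        (le_trans hZpos (G.degree_poleDivisor_φ_le y))
    omega
  obtain ⟨f, hf, hf0, hfv⟩ := hc (m • Z - Finsupp.single w 1) v (by
    rw [map_sub, Divisor.degree_single, RedAux.deg_one, Nat.cast_one]
    omega)
  have hZ0 : ∀ u : Place k E, G.φ y ∈ u.toValuationSubring → (m • Z) u = 0 := fun u hu => by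
    rw [Finsupp.smul_apply, hZ, poleDivisor_apply,
      max_eq_right (by have := ord_nonneg_of_mem u hu; omega), smul_zero]
  have hfL : f ∈ riemannRochSpace (m • Z) := L_mono (sub_le_self _ (by simp)) hf
  have hfT : f ∈ G.reduceSubspace (riemannRochSpace (m • D)) := by
    rw [hc' _ hdeg', map_nsmul]
    exact L_mono (nsmul_le_nsmul_right hle m) hfL
  obtain ⟨T, hT, rfl⟩ := G.mem_reduceSubspace.1 hfT
  refine ⟨m, T, hT, hfL, ?_⟩
  have hov : v.ord (G.φ T) = 0 := by
    rw [hfv, Finsupp.sub_apply, hZ0 v hv, Finsupp.single_eq_of_ne hne]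
    simp
  have how : 1 ≤ w.ord (G.φ T) := by
    have := (mem_L_iff hf0).1 hf w
    rw [Finsupp.sub_apply, hZ0 w hw, Finsupp.single_eq_same] at this
    omega
  rw [(placeValue_eq_zero_iff w (mem_of_ord_nonneg w (by omega))).2 (Or.inr how)]
  exact (placeValue_ne_zero_iff v (mem_of_ord_nonneg v (by omega))).2 ⟨hf0, hov⟩

end Generic

variable {M q : ℕ} [NeZero M] [hq : Fact q.Prime]

local instance neZero_primeFA : NeZero q := ⟨hq.out.ne_zero⟩

variable (A : ValuationSubring ℚbar) (hqM : ¬ q ∣ M) (hA : A.LiesOverPrime q)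
  [CharP (ResidueField A) q] [IsAlgClosed (ResidueField A)]

local notation "αF" => heckeAlphaBar ℚbar M q
local notation "βF" => heckeBetaBar ℚbar M q
local notation "kA" => ResidueField A

section Separation

theorem exists_lift_resJ :
    ∃ h : Igusa.jBar M ∈ (Igusa.x0GoodReduction hqM hA).V,
      (Igusa.x0GoodReduction hqM hA).φ ⟨_, h⟩ = resJ kA M := by
  have hj : ((Igusa.jBar M : modularFunctionFieldBar M) : LaurentSeries ℚbar) =
      coeffMap A.subtype (jqModC A) := by
    rw [Igusa.coe_jBar', coeffMap_jqModC]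
  obtain ⟨hV, hφ⟩ := Igusa.x0GoodReduction_φ_coeffMap hqM hA (jqModC A)
    (hj ▸ (Igusa.jBar M).2)
  have key : ∀ z : modularFunctionFieldBar M,
      z = ⟨coeffMap A.subtype (jqModC A), hj ▸ (Igusa.jBar M).2⟩ →
      ∃ h : z ∈ (Igusa.x0GoodReduction hqM hA).V,
        (Igusa.x0GoodReduction hqM hA).φ ⟨_, h⟩ = resJ kA M := by
    rintro _ rfl
    exact ⟨hV, Subtype.ext (hφ.trans (coeffMap_jqModC _))⟩
  exact key _ (Subtype.ext hj)

theorem exists_lift_resY :
    ∃ h : (cubicJM M q)⁻¹ ∈ (Igusa.x0GoodReduction hqM hA).V,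
      (Igusa.x0GoodReduction hqM hA).φ ⟨_, h⟩ = resY kA q M := by
  obtain ⟨hj, hjφ⟩ := exists_lift_resJ A hqM hA
  obtain ⟨h, e⟩ := exists_inv_aeval_lift (Igusa.x0GoodReduction hqM hA) ⟨_, hj⟩ (cubic q)
    (by rw [hjφ]; exact fun h => resY_ne_zero kA q M (by rw [resY, h, inv_zero]))
  exact ⟨h, e.trans (by rw [hjφ]; rfl)⟩

/-- Reductions of functions with poles on the zeros of `P (j)` separate the places away from
them. -/
theorem exists_separating {v w : Place kA (X0Res M A)}
    (hv : resY kA q M ∈ v.toValuationSubring) (hw : resY kA q M ∈ w.toValuationSubring)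
    (hne : v ≠ w) :
    ∃ (m : ℕ) (T : (Igusa.x0GoodReduction hqM hA).V),
      (T : modularFunctionFieldBar M) ∈
        riemannRochSpace (m • poleDivisor ℚbar (cubicJM M q)⁻¹) ∧
      (Igusa.x0GoodReduction hqM hA).φ T ∈ riemannRochSpace (m • resZ kA q M) ∧
      placeValue v ((Igusa.x0GoodReduction hqM hA).φ T) ≠
        placeValue w ((Igusa.x0GoodReduction hqM hA).φ T) := by
  obtain ⟨h, hφ⟩ := exists_lift_resY A hqM hA
  have := exists_separating_of_lift (Igusa.x0GoodReduction hqM hA) ⟨_, h⟩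
    (hφ ▸ resY_transcendental kA q M) (v := v) (w := w) (hφ ▸ hv) (hφ ▸ hw) hne
  rw [hφ] at this
  exact this

/-- The tuples of `α T` and of `β T` in the special fibre. -/
theorem degeneracy_tuple_mem {m : ℕ} {T : (Igusa.x0GoodReduction hqM hA).V}
    (hT : (T : modularFunctionFieldBar M) ∈
      riemannRochSpace (m • poleDivisor ℚbar (cubicJM M q)⁻¹)) (i : Fin 2) :
    ∃ t ∈ (x0Reduction hqM A hA).spFibre ((x0Reduction hqM A hA).polarSp m),
      t i = (Igusa.x0GoodReduction hqM hA).φ T ∧
      ∀ j, j ≠ i → t j = resPhi kA q M ((Igusa.x0GoodReduction hqM hA).φ T) := by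
  let R := x0Reduction hqM A hA
  have h1 : (1 : modularFunctionFieldBar M) ∈
      riemannRochSpace (m • poleDivisor ℚbar (cubicJM M q)⁻¹) :=
    one_mem_L (nsmul_nonneg (poleDivisor_nonneg _) m)
  obtain ⟨a0, e0⟩ := compPhi_zero_alpha hqM A hA T
  obtain ⟨a1, e1⟩ := compPhi_one_alpha hqM A hA T
  obtain ⟨b0, f0⟩ := compPhi_zero_beta hqM A hA T
  obtain ⟨b1, f1⟩ := compPhi_one_beta hqM A hA T
  have key : ∀ g : X0F M q, g ∈ R.polarSp m → ∀ hg : ∀ l, g ∈ compV hqM A l,
      (fun l => compPhi hqM A hA l ⟨g, hg l⟩) ∈ R.spFibre (R.polarSp m) := fun g hg hg' =>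
    R.mem_spFibre.2 ⟨⟨g, R.mem_integers.2 hg'⟩, hg, rfl⟩
  match i with
  | 0 =>
    have hg := mul_mem_polarSp hqM A hA hT h1
    rw [map_one, mul_one] at hg
    exact ⟨_, key _ hg (Fin.forall_fin_two.2 ⟨a0, a1⟩), e0,
      Fin.forall_fin_two.2 ⟨fun h => absurd rfl h, fun _ => e1⟩⟩
  | 1 =>
    have hg := mul_mem_polarSp hqM A hA h1 hT
    rw [map_one, one_mul] at hg
    exact ⟨_, key _ hg (Fin.forall_fin_two.2 ⟨b0, b1⟩), f1,
      Fin.forall_fin_two.2 ⟨fun _ => f0, fun h => absurd rfl h⟩⟩

end Separation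

section Swap

theorem compPhi_atkinLehner : ∀ (i : Fin 2) (g : X0F M q) (h : g ∈ compV hqM A i)
    (h' : atkinLehner hqM g ∈ compV hqM A (Equiv.swap 0 1 i)),
    compPhi hqM A hA (Equiv.swap 0 1 i) ⟨_, h'⟩ = compPhi hqM A hA i ⟨g, h⟩
  | 0, g, h, h' => by
    show compPhi hqM A hA 1 ⟨atkinLehner hqM g, _⟩ = _
    refine Subtype.ext ((coe_compPhi_one hqM A hA _).trans
      (Eq.trans ?_ (coe_compPhi_zero hqM A hA _).symm))
    exact congrArg (infRed M q A) (Subtype.ext (atkinLehner_atkinLehner hqM g))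
  | 1, g, h, h' => rfl

theorem atkinLehner_mem_compV_iff : ∀ (i : Fin 2) (g : X0F M q),
    atkinLehner hqM g ∈ compV hqM A (Equiv.swap 0 1 i) ↔ g ∈ compV hqM A i
  | 0, g => by
    show atkinLehner hqM (atkinLehner hqM g) ∈ infV M q A ↔ _
    rw [atkinLehner_atkinLehner]
    rfl
  | 1, g => Iff.rfl

variable {σ : ℚbar ≃ₐ[ℚ] ℚbar}

/-- `w` times a Frobenius, as an automorphism of the reduction. -/
def atkinFrobenius (hσ : A.IsFrobeniusAt σ q) : ReductionAut (x0Reduction hqM A hA) :=
  let hF := frobeniusAction_x0 A hqM hA hσ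
  haveI : PerfectRing kA q := perfectRing_of_isAlgClosed kA q
  { g := SemilinearAut.ofAlgAut (atkinLehner hqM) *
      arithmeticGalois (modularFunctionFieldFull (M * q)) σ
    mem_A_iff := fun a => by
      rw [SemilinearAut.baseAut_mul, SemilinearAut.baseAut_ofAlgAut, one_mul]
      exact hF.mem_A_iff a
    σk := frobeniusEquiv kA q
    π_apply := fun a => by
      refine Eq.trans ?_ ((hF.π_apply a).trans rfl)
      congr 2
    τ := Equiv.swap 0 1
    mem_V_iff := fun i f => by
      rw [mul_smul, SemilinearAut.ofAlgAut_smul]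
      exact (atkinLehner_mem_compV_iff A hqM i _).trans (hF.mem_V_iff i f)
    θ := fun _ => resFrob kA q M
    θ_algebraMap := fun i a => (x0FrobeniusData kA q M).c_algebraMap a
    φ_smul := fun i f => by
      refine Eq.trans ?_ (hF.φ_smul i f)
      refine Eq.trans ?_ (compPhi_atkinLehner A hqM hA i _ ((hF.mem_V_iff i f).2 f.2)
        ((atkinLehner_mem_compV_iff A hqM i _).2 ((hF.mem_V_iff i f).2 f.2)))
      exact congrArg _ (Subtype.ext (mul_smul _ _ (f : X0F M q)))
    smul_poleX := by
      rw [mul_smul, hF.smul_poleX]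
      refine Finsupp.ext fun v => ?_
      have h := SemilinearAut.ord_smul (SemilinearAut.ofAlgAut (atkinLehner hqM))
        ((SemilinearAut.ofAlgAut (atkinLehner hqM))⁻¹ • v) (x0Fun hqM)
      rw [smul_inv_smul, SemilinearAut.ofAlgAut_smul, atkinLehner_x0Fun] at h
      show (_ • poleDivisor ℚbar (x0Fun hqM)) v = poleDivisor ℚbar (x0Fun hqM) v
      rw [SemilinearAut.divisor_smul_apply, poleDivisor_apply, poleDivisor_apply, h] }

/-- Regularity of a branch in terms of `1 / P (j)`. -/
theorem resY_mem_iff (i : Fin 2) (v : Place kA (X0Res M A)) :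
    0 ≤ v.ord ((x0Reduction hqM A hA).xb i) ↔ resY kA q M ∈ v.toValuationSubring := by
  rw [mem_iff_ord_nonneg, show (x0Reduction hqM A hA).xb i = x0FunBar M A (q := q) from
      compPhi_x0Fun hqM A hA i,
    show x0FunBar M A (q := q) = resY kA q M ^ (q + 1) from (inv_pow _ _).symm, ord_pow]
  exact ⟨fun h => nonneg_of_mul_nonneg_right h (by positivity), fun h => mul_nonneg (by positivity) h⟩

variable (hσ : A.IsFrobeniusAt σ q)

/-- Values at the image of a branch. -/
theorem placeValue_mapPlace (i : Fin 2) (w : Place kA (X0Res M A))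
    (hw : resY kA q M ∈ w.toValuationSubring) {m : ℕ} {f : X0Res M A}
    (hf : f ∈ riemannRochSpace (m • resZ kA q M)) :
    placeValue ((atkinFrobenius A hqM hA hσ).mapPlace i w) f =
      placeValue w (resPhi kA q M f) := by
  let S := atkinFrobenius A hqM hA hσ
  haveI := (Igusa.x0GoodReduction hqM hA).isFunctionFieldOne_special
  obtain ⟨e, rfl⟩ := (resFrob kA q M).surjective f
  have hw' : resY kA q M ∈ (S.mapPlace i w).toValuationSubring := by
    have := (S.mem_mapPlace_iff i w (resY kA q M)).2 hw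
    rwa [show S.θ i (resY kA q M) = resY kA q M from resFrob_resY kA q M] at this
  have hreg : resFrob kA q M e ∈ (S.mapPlace i w).toValuationSubring := by
    refine mem_of_zero_or_le _ (or_iff_not_imp_left.2 fun h0 => ?_)
    have h1 := (mem_L_iff h0).1 hf (S.mapPlace i w)
    rw [Finsupp.smul_apply, resZ, poleDivisor_apply,
      max_eq_right (by have := ord_nonneg_of_mem _ hw'; omega), smul_zero, neg_zero] at h1
    exact h1
  have he : e ∈ w.toValuationSubring := (S.mem_mapPlace_iff i w e).1 hreg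
  refine (BEquiv.placeValue_transport S.σk (S.θ i) (S.θ_algebraMap i) w (S.mapPlace i w) rfl
    he).trans ?_
  rw [resPhi_resFrob, placeValue_pow w he]
  rfl

/-- Two distinct glued branches are exchanged by `w` times a Frobenius. -/
theorem mapBranch_of_glued {b b' : Σ _ : Fin 2, Place kA (X0Res M A)}
    (hb : 0 ≤ b.2.ord ((x0Reduction hqM A hA).xb b.1))
    (hb' : 0 ≤ b'.2.ord ((x0Reduction hqM A hA).xb b'.1)) (hne : b' ≠ b)
    (hglue : ∀ (N : ℕ), ∀ h ∈ (x0Reduction hqM A hA).spFibre ((x0Reduction hqM A hA).polarSp N),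
      bval b h = bval b' h) :
    (atkinFrobenius A hqM hA hσ).mapBranch b = b' := by
  let S := atkinFrobenius A hqM hA hσ
  obtain ⟨i, v⟩ := b
  obtain ⟨i', w⟩ := b'
  rw [resY_mem_iff] at hb hb'
  rcases eq_or_ne i i' with rfl | hi
  · exfalso
    obtain ⟨m, T, hT, -, hsep⟩ := exists_separating A hqM hA hb hb'
      (fun h => hne (congrArg (Sigma.mk i) h).symm)
    obtain ⟨t, ht, hti, -⟩ := degeneracy_tuple_mem A hqM hA hT i
    have := hglue m t ht
    simp only [bval, hti] at this
    exact hsep this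
  · have hτ : S.τ i = i' :=
      (show ∀ a b : Fin 2, a ≠ b → Equiv.swap 0 1 a = b by decide) i i' hi
    subst hτ
    suffices h : S.mapPlace i v = w by
      show (⟨S.τ i, S.mapPlace i v⟩ : Σ _ : Fin 2, Place kA (X0Res M A)) = _
      rw [h]
    by_contra hvw
    have hv' : resY kA q M ∈ (S.mapPlace i v).toValuationSubring := by
      have := (S.mem_mapPlace_iff i v (resY kA q M)).2 hb
      rwa [show S.θ i (resY kA q M) = resY kA q M from resFrob_resY kA q M] at this
    obtain ⟨m, T, hT, hL, hsep⟩ := exists_separating A hqM hA hv' hb' hvw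
    obtain ⟨t, ht, hti, htj⟩ := degeneracy_tuple_mem A hqM hA hT (S.τ i)
    have := hglue m t ht
    simp only [bval, hti, htj i hi] at this
    exact hsep ((placeValue_mapPlace A hqM hA hσ i v hb hL).trans this)

variable (B : Finset (Σ _ : Fin 2, Place (ResidueField A) (X0Res M A)))
  (hreg : ∀ b ∈ B, 0 ≤ b.2.ord ((x0Reduction hqM A hA).xb b.1))
  (hmeets : ∀ i, ∃ b ∈ B, b.1 = i)
  (hZ : ∃ N₁ : ℕ, ∀ N, N₁ ≤ N → ∀ h ∈ (x0Reduction hqM A hA).polarFibre N,
    (∀ b ∈ B, MultiReduction.VanishesAt b 1 h) →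
      h ∈ (x0Reduction hqM A hA).spFibre ((x0Reduction hqM A hA).polarSp N))

include hσ B hreg hmeets hZ in
/-- On component-trivial classes `w` times a Frobenius at `q` is `- q`. -/
theorem atkin_frobenius_smul_of_conductor {n : ℕ} (hn : ¬ q ∣ n) {c : JZero (M * q)}
    (hc : IsComponentTrivial (x0Reduction hqM A hA) n c) :
    (atkinFrobenius A hqM hA hσ).g • c + q • c = 0 := by
  let R := x0Reduction hqM A hA
  let S := atkinFrobenius A hqM hA hσ
  have hA1 := Mazur.rankLeOne_of_liesOverPrime hq.out hA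
  obtain ⟨hreg', hmeets', hZ'⟩ := gluedBranches_spec R hA1 B hreg hmeets hZ
  let G : Gluing R := Gluing.ofVanishing R (gluedBranches R B) hreg' hmeets' hZ'
  have hG : G.IsSeminormal :=
    Gluing.ofVanishing_isSeminormal R (gluedBranches R B) hreg' hmeets' hZ'
  have hB : ∀ b ∈ gluedBranches R B, S.mapBranch b ∈ gluedBranches R B := by
    intro b hb
    obtain ⟨hbB, b', hb'B, hne, hglue⟩ := (mem_gluedBranches R).1 hb
    rw [mapBranch_of_glued A hqM hA hσ (hreg b hbB) (hreg b' hb'B) hne hglue]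
    exact (mem_gluedBranches R).2 ⟨hb'B, b, hbB, hne.symm, fun N h hh => (hglue N h hh).symm⟩
  have hswap : ∀ b b' : ↥G.B, b ≠ b' → G.pt b = G.pt b' →
      S.mapBranch b = (b' : Σ _ : Fin 2, Place kA (X0Res M A)) := fun b b' hne hpt =>
    mapBranch_of_glued A hqM hA hσ (hreg' _ b.2) (hreg' _ b'.2)
      (fun e => hne (Subtype.ext e.symm)) fun N h hh => G.matched N h hh b b' hpt
  let P : S.Preserves G := S.preservesOfSwap (fun b hb => hB b hb) hswap
  have hn' : (n : kA) ≠ 0 := fun h => hn ((CharP.cast_eq_zero_iff _ q n).1 h)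
  refine eq_neg_iff_add_eq_zero.1 ?_
  exact P.smul_eq_neg_nsmul_of_isComponentTrivial hA1 hG q (fun a => rfl)
    (fun b b' hne hpt => Subtype.ext ((P.coe_e b).trans (hswap b b' hne hpt))) hn' hc

theorem galois_atkin_comm (σ : ℚbar ≃ₐ[ℚ] ℚbar) :
    SemilinearAut.ofAlgAut (atkinLehner hqM) * arithmeticGalois (modularFunctionFieldFull (M * q)) σ
      = arithmeticGalois (modularFunctionFieldFull (M * q)) σ *
        SemilinearAut.ofAlgAut (atkinLehner hqM) := by
  refine Subtype.ext (Prod.ext (RingEquiv.ext fun x => ?_) ?_)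
  · exact atkinLehner_galois hqM σ x
  · simp [SemilinearAut.ofAlgAut]

theorem atkin_mul_self :
    (SemilinearAut.ofAlgAut (atkinLehner hqM) : SemilinearAut ℚbar (X0F M q)) *
      SemilinearAut.ofAlgAut (atkinLehner hqM) = 1 := by
  rw [← map_mul, show atkinLehner hqM * atkinLehner hqM = 1 from
    AlgEquiv.ext fun x => atkinLehner_atkinLehner hqM x, map_one]

include hA hσ B hreg hmeets hZ in
/-- On the torsion killed by both degeneracy push-forwards `σ² + (q + 1) w σ + q = 0`. -/
theorem frobenius_atkin_relation_of_conductor {n : ℕ} (hn : ¬ q ∣ n) {x : JZero (M * q)}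
    (hx : n • x = 0) (hα : NewformRep.pushAlpha M q x = 0)
    (hβ : NewformRep.pushBeta M q x = 0) :
    σ • σ • x + (q + 1) • (σ • (SemilinearAut.ofAlgAut (atkinLehner hqM) • x)) + q • x = 0 := by
  classical
  let R := x0Reduction hqM A hA
  let S := atkinFrobenius A hqM hA hσ
  have hA1 := Mazur.rankLeOne_of_liesOverPrime hq.out hA
  have hn' : (n : kA) ≠ 0 := fun h => hn ((CharP.cast_eq_zero_iff _ q n).1 h)
  have hxT : x ∈ Pic0.torsion ℚbar (X0F M q) n := by
    rw [Pic0.mem_torsion]
    exact (natCast_zsmul x n).trans hx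
  let X : Pic0.torsion ℚbar (X0F M q) n := ⟨x, hxT⟩
  let D := x0FrobeniusData kA q M
  have hb := baseReduction_x0 hqM A hA
  have e1 := (degeneracyReduction_alpha hqM A hA).componentMap_add hb
    (show (0 : Fin 2) ≠ 1 by decide) hA1 (Curve.isIntegral_toRingHom _) (Curve.finiteAlong _)
    (Curve.normFormulaAlong _ (Curve.finiteAlong _)) hn' X hα
  have e2 := (degeneracyReduction_beta hqM A hA).componentMap_add hb
    (show (1 : Fin 2) ≠ 0 by decide) hA1 (Curve.isIntegral_toRingHom _) (Curve.finiteAlong _)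
    (Curve.normFormulaAlong _ (Curve.finiteAlong _)) hn' X hβ
  have hy : IsComponentTrivial R n (S.g • x + x) := by
    refine (isComponentTrivial_iff hA1 hn' (S.g • X + X)).2 (Fin.forall_fin_two.2 ⟨?_, ?_⟩)
    · obtain ⟨u, hu, hu'⟩ := S.componentMap_smul hn' 1 X
      rw [map_add]
      refine Eq.trans ?_ ((add_comm _ _).trans e1)
      congr 1
      rw [hu]
      exact hu'.trans (D.compMap_mk n u).symm
    · obtain ⟨u, hu, hu'⟩ := S.componentMap_smul hn' 0 X
      rw [map_add]
      refine Eq.trans ?_ ((add_comm _ _).trans e2)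
      congr 1
      rw [hu]
      exact hu'.trans (D.compMap_mk n u).symm
  have h := atkin_frobenius_smul_of_conductor A hqM hA hσ B hreg hmeets hZ hn hy
  let W : SemilinearAut ℚbar (X0F M q) := SemilinearAut.ofAlgAut (atkinLehner hqM)
  let g := arithmeticGalois (modularFunctionFieldFull (M * q)) σ
  have hgg : S.g * S.g = g * g := by
    show (W * g) * (W * g) = g * g
    rw [galois_atkin_comm hqM σ, mul_assoc, ← mul_assoc W, galois_atkin_comm hqM σ, mul_assoc g,
      atkin_mul_self hqM, mul_one]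
  have hS : S.g • x = g • W • x := by
    show (W * g) • x = _
    rw [galois_atkin_comm hqM σ, mul_smul]
  rw [smul_add, ← mul_smul, hgg, mul_smul, nsmul_add, hS] at h
  show g • g • x + (q + 1) • (g • W • x) + q • x = 0
  rw [add_nsmul, one_nsmul]
  rw [← h]
  abel

end Swap

end Fermat.Agent.BadReduction

end
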