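/-
On classes of `J₀(M q)` which are trivial on both components of the special fibre at `q`, the
square of a Frobenius is multiplication by `q ^ 2`.
-/
import Fermat.Agent.BadReduction.X0FrobeniusAction
import Fermat.Agent.Bad.GluingFrobenius
import Fermat.Agent.Mazur.LocalRank

set_option autoImplicit false
set_option linter.style.haveILetI false

noncomputable section

open ModularCurve IntermediateField IsLocalRing AlgebraicCurve
open Fermat.Agent.Curve Fermat.Agent.Bad

namespace Fermat.Agent.BadReduction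

local notation "ℚbar" => AlgebraicClosure ℚ

variable {M q : ℕ} [NeZero M] [hq : Fact q.Prime]

local instance neZero_primeGF : NeZero q := ⟨hq.out.ne_zero⟩

variable (A : ValuationSubring ℚbar) (hqM : ¬ q ∣ M) (hA : A.LiesOverPrime q)
  [CharP (ResidueField A) q] [IsAlgClosed (ResidueField A)]

/-- Component-trivial torsion classes, given a conductor whose branches are fixed by the square
of the coefficientwise Frobenius. -/
theorem galois_sq_smul_of_conductor
    (B : Finset (Σ _ : Fin 2, Place (ResidueField A) (X0Res M A)))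
    (hreg : ∀ b ∈ B, 0 ≤ b.2.ord ((x0Reduction hqM A hA).xb b.1))
    (hmeets : ∀ i, ∃ b ∈ B, b.1 = i)
    (hZ : ∃ N₁ : ℕ, ∀ N, N₁ ≤ N → ∀ h ∈ (x0Reduction hqM A hA).polarFibre N,
      (∀ b ∈ B, MultiReduction.VanishesAt b 1 h) →
        h ∈ (x0Reduction hqM A hA).spFibre ((x0Reduction hqM A hA).polarSp N))
    {σ : ℚbar ≃ₐ[ℚ] ℚbar} (hσ : A.IsFrobeniusAt σ q)
    (hfix : ∀ b ∈ B, (frobeniusAction_x0 A hqM hA hσ).sq.mapBranch b = b)
    {n : ℕ} (hn : ¬ q ∣ n) {c : JZero (M * q)}
    (hc : IsComponentTrivial (x0Reduction hqM A hA) n c) :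
    σ • σ • c = q ^ 2 • c := by
  let R := x0Reduction hqM A hA
  let G : Gluing R := Gluing.ofVanishing R B hreg hmeets hZ
  have hGB : G.B = B := rfl
  have hG : G.IsSeminormal := Gluing.ofVanishing_isSeminormal R B hreg hmeets hZ
  let S := (frobeniusAction_x0 A hqM hA hσ).sq
  have hfix' : ∀ b ∈ G.B, S.mapBranch b = b := fun b hb => hfix b (hGB ▸ hb)
  let P : S.Preserves G :=
    S.preservesOfFixed (fun b hb => by rw [hfix' b hb]; exact hb) fun b _ _ _ => hfix' b b.2
  have hn' : (n : ResidueField A) ≠ 0 := fun h => hn ((CharP.cast_eq_zero_iff _ q n).1 h)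
  have h := P.smul_eq_nsmul_of_isComponentTrivial
    (Mazur.rankLeOne_of_liesOverPrime hq.out hA) hG q
    (Q := q ^ 2) (fun a => by
      show (a ^ q) ^ q = a ^ q ^ 2
      rw [← pow_mul, pow_two])
    (fun b _ _ _ => Subtype.ext ((P.coe_e b).trans (hfix' b b.2))) hn' hc
  exact (mul_smul _ _ c).symm.trans h

end Fermat.Agent.BadReduction

end
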