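/-
S34, algebra: powers of elements satisfying a quadratic relation, and the comparison of the
`p`-adic topologies of a ring of integer matrices.
-/
import Mathlib.LinearAlgebra.Matrix.Charpoly.Coeff
import Mathlib.RingTheory.Filtration
import Mathlib.Data.ZMod.Basic

set_option autoImplicit false

namespace Fermat.Agent.BadReduction

open Polynomial

/-- The sum of the `j`-th powers of the two roots of `X ^ 2 - t X + d`. -/
def powTrace {R : Type*} [CommRing R] (t d : R) : ℕ → R
  | 0 => 2
  | 1 => t
  | j + 2 => t * powTrace t d (j + 1) - d * powTrace t d j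

theorem map_powTrace {R R' : Type*} [CommRing R] [CommRing R'] (f : R →+* R') (t d : R) :
    ∀ j : ℕ, f (powTrace t d j) = powTrace (f t) (f d) j
  | 0 => by rw [powTrace, powTrace, map_ofNat]
  | 1 => rfl
  | j + 2 => by
    rw [powTrace, powTrace, map_sub, map_mul, map_mul, map_powTrace f t d (j + 1),
      map_powTrace f t d j]

/-- If `g ^ 2 - t g + d = 0`, then `g ^ j` satisfies the analogous relation. -/
theorem pow_quadratic {R M : Type*} [CommRing R] [Ring M] (f : R →+* M) {t d : R} {g : M}
    (hc : ∀ r : R, Commute (f r) g) (h : g ^ 2 - f t * g + f d = 0) (j : ℕ) :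
    (g ^ j) ^ 2 - f (powTrace t d j) * g ^ j + f d ^ j = 0 := by
  have hg : Commute g (f t - g) := ((hc t).symm).sub_right (Commute.refl g)
  have hgh : g * (f t - g) = f d := by
    rw [mul_sub, ← (hc t).eq]
    have : f d = f t * g - g ^ 2 := by
      rw [eq_comm, ← sub_eq_zero]
      calc f t * g - g ^ 2 - f d = -(g ^ 2 - f t * g + f d) := by abel
        _ = 0 := by rw [h, neg_zero]
    rw [this, pow_two]
  have hsum : ∀ i : ℕ, g ^ i + (f t - g) ^ i = f (powTrace t d i) ∧
      g ^ (i + 1) + (f t - g) ^ (i + 1) = f (powTrace t d (i + 1)) := by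
    intro i
    induction i with
    | zero =>
      refine ⟨?_, ?_⟩
      · rw [pow_zero, pow_zero, powTrace, map_ofNat, one_add_one_eq_two]
      · rw [powTrace, zero_add, pow_one, pow_one, add_sub_cancel]
    | succ i ih =>
      refine ⟨ih.2, ?_⟩
      rw [powTrace, map_sub, map_mul, map_mul, ← ih.1, ← ih.2]
      have e1 : f t * (g ^ (i + 1) + (f t - g) ^ (i + 1))
          = (g + (f t - g)) * (g ^ (i + 1) + (f t - g) ^ (i + 1)) := by
        rw [add_sub_cancel]
      have e2 : f d * g ^ i = (f t - g) * g ^ (i + 1) := by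
        rw [pow_succ', ← mul_assoc, ← hg.eq, hgh]
      have e3 : f d * (f t - g) ^ i = g * (f t - g) ^ (i + 1) := by
        rw [pow_succ', ← mul_assoc, hgh]
      rw [e1, mul_add (f d), e2, e3, pow_succ' g (i + 1), pow_succ' (f t - g) (i + 1),
        add_mul, mul_add, mul_add]
      abel
  have hj := (hsum j).1
  have hd : f d ^ j = g ^ j * (f t - g) ^ j := by rw [← hgh, hg.mul_pow]
  rw [← hj, add_mul, hd, pow_two, ((hg.pow_pow j j).symm).eq]
  abel

/-- The trace of a power of a `2 × 2` matrix. -/
theorem trace_pow_fin_two {T : Type*} [CommRing T] {M : Matrix (Fin 2) (Fin 2) T} {t d : T}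
    (h : M.charpoly = X ^ 2 - C t * X + C d) (j : ℕ) :
    (M ^ j).trace = powTrace t d j := by
  have htr : M.trace = t := by
    rw [M.trace_eq_neg_charpoly_coeff, h]
    simp [coeff_X_pow, coeff_C]
  have hch : M ^ 2 - t • M + d • 1 = 0 := by
    have := M.aeval_self_charpoly
    rw [h] at this
    simpa [Algebra.algebraMap_eq_smul_one, smul_mul_assoc] using this
  have key : ∀ i : ℕ, (M ^ i).trace = powTrace t d i ∧
      (M ^ (i + 1)).trace = powTrace t d (i + 1) := by
    intro i
    induction i with
    | zero => exact ⟨by simp [powTrace, Matrix.trace], by simpa [powTrace] using htr⟩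
    | succ i ih =>
      refine ⟨ih.2, ?_⟩
      have h2 : M ^ (i + 1 + 1) = t • M ^ (i + 1) - d • M ^ i := by
        have := congrArg (fun X => M ^ i * X) hch
        simp only [mul_add, mul_sub, mul_zero, mul_smul_comm, mul_one, ← pow_succ, ← pow_add]
          at this
        rw [← sub_eq_zero]
        rw [← this]
        abel
      rw [h2, Matrix.trace_sub, Matrix.trace_smul, Matrix.trace_smul, ih.1, ih.2, powTrace,
        smul_eq_mul, smul_eq_mul]
  exact (key j).1

/-- An element of an integer matrix ring which is divisible by a high power of `p` as a matrix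
is divisible by a high power of `p` in the ring. -/
theorem exists_dvd_of_mat_dvd {A : Type*} [CommRing A] {r : ℕ}
    (ι : A →+* Matrix (Fin r) (Fin r) ℤ) (hι : Function.Injective ι) (p : ℕ) :
    ∃ c : ℕ, ∀ (n : ℕ) (a : A), (∀ i j, (p : ℤ) ^ n ∣ ι a i j) → (p : A) ^ (n - c) ∣ a := by
  obtain ⟨c, hc⟩ := Ideal.exists_pow_inf_eq_pow_smul (Ideal.span {(p : ℤ)})
    (LinearMap.range ι.toAddMonoidHom.toIntLinearMap)
  refine ⟨c, fun n a ha => ?_⟩
  by_cases hn : c ≤ n
  · have hmem : ι a ∈ (Ideal.span {(p : ℤ)} ^ n) • (⊤ : Submodule ℤ _) ⊓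
        LinearMap.range ι.toAddMonoidHom.toIntLinearMap := by
      refine ⟨?_, a, rfl⟩
      rw [Ideal.span_singleton_pow, Submodule.ideal_span_singleton_smul]
      choose b hb using ha
      refine ⟨Matrix.of b, Submodule.mem_top, ?_⟩
      ext i j
      simp [hb i j]
    rw [hc n hn] at hmem
    have hle := Submodule.smul_mono le_rfl (I := Ideal.span {(p : ℤ)} ^ (n - c))
      (inf_le_right : (Ideal.span {(p : ℤ)} ^ c) • (⊤ : Submodule ℤ _) ⊓
        LinearMap.range ι.toAddMonoidHom.toIntLinearMap ≤ _) hmem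
    rw [Ideal.span_singleton_pow, Submodule.ideal_span_singleton_smul] at hle
    obtain ⟨_, ⟨b, rfl⟩, hb⟩ := hle
    refine ⟨b, hι ?_⟩
    rw [← hb]
    simp
  · rw [Nat.sub_eq_zero_of_le (le_of_not_ge hn), pow_zero]
    exact one_dvd a

end Fermat.Agent.BadReduction
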