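/-
S34, transfer: if inertia at `q` acts on the `p`-power torsion of `J₀(N)` with `(σ - 1) ^ 2 = 0`,
then every Hecke Galois representation datum of level `N` is unipotent on inertia at `q`.
-/
import Fermat.Agent.BadReduction.X0Hecke
import Fermat.Agent.GaloisAdic.Main
import Fermat.Agent.Density.Main
import Fermat.Prelude.Def_CuspForm_HeckeGaloisRepDatum
import Fermat.Prelude.Def_GaloisRep_LocalConditions
import Mathlib.RingTheory.Filtration

set_option autoImplicit false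

noncomputable section

open IsLocalRing Polynomial
open scoped Matrix

namespace Fermat.Agent.BadReduction

local notation "ℚbar" => AlgebraicClosure ℚ
local notation "Γℚ" => AlgebraicClosure ℚ ≃ₐ[ℚ] AlgebraicClosure ℚ

open ModularCurve GaloisAdic

variable {N : ℕ} [NeZero N] {p : ℕ} [Fact p.Prime]

/-- `(σ - 1) ^ 2 = 0` on the torsion gives the same for the Galois matrices modulo `p ^ n`. -/
theorem galMatrix_sq_eq (F : TorsionFrame N p) {σ : Γℚ}
    (h : ∀ (n : ℕ) (x : JZero N), p ^ n • x = 0 → σ • σ • x - 2 • (σ • x) + x = 0) (n : ℕ) :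
    ((F.galMatrix σ).map (PadicInt.toZModPow n)) ^ 2
      - 2 * (F.galMatrix σ).map (PadicInt.toZModPow n) + 1 = 0 := by
  set M := (F.galMatrix σ).map (PadicInt.toZModPow n) with hM
  refine Matrix.ext_of_mulVec_single fun i => ?_
  set v : Fin F.H.r → ZMod (p ^ n) := Pi.single i 1
  apply (F.isTorsionIso n).injective
  have hx := h n (F.e n v) (((F.isTorsionIso n).mem_range_iff _).1 ⟨v, rfl⟩)
  rw [← F.e_galMatrix σ n v, ← F.e_galMatrix σ n] at hx
  rw [Matrix.zero_mulVec, map_zero, ← hx, two_nsmul, ← map_add, ← map_sub, ← map_add]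
  congr 1
  simp only [Matrix.sub_mulVec, Matrix.add_mulVec, Matrix.one_mulVec, pow_two, two_mul,
    Matrix.mulVec_mulVec, hM]

/-- The transfer to a Hecke Galois representation datum. -/
theorem isUnipotentOnInertiaAt_of_sq_eq_zero
    {𝒪 : Type} [CommRing 𝒪] [IsDomain 𝒪] [IsDiscreteValuationRing 𝒪]
    [IsAdicComplete (maximalIdeal 𝒪) 𝒪]
    (hp𝒪 : (p : 𝒪) ∈ maximalIdeal 𝒪) {S : Finset ℕ}
    {θ : CuspForm.heckeAlgebra N 2 (↑S : Set ℕ) →+* ResidueField 𝒪}
    {T : Type} [CommRing T] [IsLocalRing T] [IsNoetherianRing T]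
    [IsAdicComplete (maximalIdeal T) T] [Algebra 𝒪 T] [IsLocalHom (algebraMap 𝒪 T)]
    [Module.Finite 𝒪 T] [Module.Free 𝒪 T]
    (F : TorsionFrame N p) (hF : TorsionFacts N p)
    (H : CuspForm.HeckeGaloisRepDatum N (↑S : Set ℕ) 𝒪 θ T)
    (q : ℕ) (hq : q.Prime) (hqp : q ≠ p)
    (hunip : ∀ P : ValuationSubring ℚbar, P.LiesOverPrime q → ∀ σ ∈ P.inertiaSubgroupIn ℚ,
      ∀ (n : ℕ) (x : JZero N), p ^ n • x = 0 → σ • σ • x - 2 • (σ • x) + x = 0) :
    H.ρ.IsUnipotentOnInertiaAt q := by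
  intro P hP σ hσ
  -- coordinates
  haveI : Module.Free T H.ρ.V := H.ρ.instFree
  let b : Module.Basis (Fin 2) T H.ρ.V :=
    Module.finBasisOfFinrankEq T H.ρ.V H.ρ.finrank_eq
  let R : Γℚ →* Matrix (Fin 2) (Fin 2) T :=
    (LinearMap.toMatrixAlgEquiv b).toAlgHom.toRingHom.toMonoidHom.comp H.ρ.ρ
  have hcp : ∀ g : Γℚ, (R g).charpoly = LinearMap.charpoly (H.ρ.ρ g) := fun g =>
    LinearMap.charpoly_toMatrix (H.ρ.ρ g) b
  rw [← hcp, Matrix.charpoly_fin_two]
  suffices hlim : ∀ n : ℕ, (R σ).trace - 2 ∈ maximalIdeal T ^ n ∧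
      (R σ).det - 1 ∈ maximalIdeal T ^ n by
    have hz : ∀ x : T, (∀ n : ℕ, x ∈ maximalIdeal T ^ n) → x = 0 := fun x hx => by
      have h := Ideal.iInf_pow_eq_bot_of_isLocalRing (maximalIdeal T)
        (maximalIdeal.isMaximal T).ne_top
      rw [← Ideal.mem_bot, ← h]
      exact Ideal.mem_iInf.2 hx
    rw [sub_eq_zero.1 (hz _ fun n => (hlim n).1), sub_eq_zero.1 (hz _ fun n => (hlim n).2),
      map_one, map_ofNat]
    ring
  -- the bound comparing the integral structures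
  let incl := Subalgebra.inclusion
    (CuspForm.heckeAlgebra_mono (N := N) (k := 2) (Set.empty_subset (↑S : Set ℕ)))
  let ι : CuspForm.heckeAlgebra N 2 (↑S : Set ℕ) →+* Matrix (Fin F.H.r) (Fin F.H.r) ℤ :=
    F.H.mat.comp incl.toRingHom
  have hι : Function.Injective ι := F.H.injective.comp (Subalgebra.inclusion_injective _)
  obtain ⟨c, hc⟩ := exists_dvd_of_mat_dvd ι hι p
  have hpT : (p : T) ∈ maximalIdeal T := by
    rw [← map_natCast (algebraMap 𝒪 T) p]
    exact map_nonunit (algebraMap 𝒪 T) (p : 𝒪) hp𝒪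
  intro n
  -- a finite level at which everything is determined
  obtain ⟨L₁, hL₁, hR⟩ := H.ρ.isAdicContinuous n
  obtain ⟨L₂, hL₂, hG⟩ := F.galMatrix_continuous hF.smooth (n + c)
  obtain ⟨L₃, hL₃, hC⟩ := padicCyclo_continuous p (n + c)
  haveI := hL₁; haveI := hL₂; haveI := hL₃
  obtain ⟨ℓ, hℓ, hℓS', A, hA, τ, hτ, ⟨j, hj⟩, -⟩ :=
    Density.exists_frobenius_pow σ (L₁ ⊔ L₂ ⊔ L₃)
      (S ∪ {p, q} ∪ N.divisors)
  simp only [Finset.mem_union, Finset.mem_insert, Finset.mem_singleton, not_or,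
    Nat.mem_divisors, ne_eq, NeZero.ne N, not_false_eq_true, and_true] at hℓS'
  obtain ⟨⟨hℓS, hℓp, -⟩, hℓN⟩ := hℓS'
  set δ : Γℚ := (τ ^ j)⁻¹ * σ with hδ
  have hσδ : σ = τ ^ j * δ := by rw [hδ, mul_inv_cancel_left]
  have hδfix : ∀ x ∈ L₁ ⊔ L₂ ⊔ L₃, δ x = x := fun x hx => by
    rw [hδ, AlgEquiv.mul_apply, hj x hx, ← AlgEquiv.mul_apply, inv_mul_cancel, AlgEquiv.one_apply]
  -- reductions of the three characters agree at `σ` and `τ ^ j`
  have hRmod : (R σ).map (Ideal.Quotient.mk (maximalIdeal T ^ n)) =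
      (R (τ ^ j)).map (Ideal.Quotient.mk (maximalIdeal T ^ n)) := by
    have h1 : (R δ).map (Ideal.Quotient.mk (maximalIdeal T ^ n)) = 1 := by
      ext a e
      have hmem := hR δ (fun x hx => hδfix x ((le_sup_left.trans le_sup_left : L₁ ≤ L₁ ⊔ L₂ ⊔ L₃) hx)) (b e)
      have hcoord : b.repr (H.ρ.ρ δ (b e) - b e) a ∈ maximalIdeal T ^ n := by
        refine Submodule.smul_induction_on (p := fun v => b.repr v a ∈ maximalIdeal T ^ n) hmem
          (fun r hr v _ => ?_) (fun v w hv hw => ?_)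
        · rw [map_smul, Finsupp.smul_apply, smul_eq_mul]
          exact Ideal.mul_mem_right _ _ hr
        · rw [map_add, Finsupp.add_apply]
          exact add_mem hv hw
      rw [Matrix.map_apply, ← map_one ((Ideal.Quotient.mk (maximalIdeal T ^ n)).mapMatrix),
        RingHom.mapMatrix_apply, Matrix.map_apply, Ideal.Quotient.eq]
      convert hcoord using 1
      rw [map_sub, Finsupp.sub_apply, b.repr_self, Matrix.one_apply, Finsupp.single_apply]
      congr 1
      · exact LinearMap.toMatrix_apply b b (H.ρ.ρ δ) a e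
      · simp only [eq_comm]
    rw [hσδ, map_mul, Matrix.map_mul, h1, mul_one]
  have hGmod : (F.galMatrix σ).map (PadicInt.toZModPow (n + c)) =
      (F.galMatrix (τ ^ j)).map (PadicInt.toZModPow (n + c)) := by
    have h1 : (F.galMatrix δ).map (PadicInt.toZModPow (n + c)) = 1 := by
      have := hG δ (fun x hx => hδfix x ((le_sup_right.trans le_sup_left : L₂ ≤ L₁ ⊔ L₂ ⊔ L₃) hx))
      ext a e
      have hae := this a e
      rw [Matrix.sub_apply, map_sub, sub_eq_zero] at hae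
      rw [Matrix.map_apply, hae, Matrix.one_apply, Matrix.one_apply]
      split_ifs <;> simp
    rw [hσδ, map_mul, Matrix.map_mul, h1, mul_one]
  have hℓj : ((ℓ : ℕ) : ZMod (p ^ (n + c))) ^ j = 1 := by
    have h1 : PadicInt.toZModPow (n + c) (padicCyclo p σ) = 1 := by
      rw [padicCyclo_inertia p hq hqp hP hσ, map_one]
    rw [hσδ, map_mul, map_mul, hC δ (fun x hx => hδfix x ((le_sup_right : L₃ ≤ L₁ ⊔ L₂ ⊔ L₃) hx)), mul_one,
      map_pow, map_pow, padicCyclo_frobenius p hℓ hℓp hA hτ, map_natCast] at h1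
    exact h1
  -- the Hecke element
  let t : CuspForm.heckeAlgebra N 2 (↑S : Set ℕ) :=
    CuspForm.heckeAlgebra.T hℓ hℓN (by simpa using hℓS)
  let cj := powTrace t (ℓ : CuspForm.heckeAlgebra N 2 (↑S : Set ℕ)) j
  have hgen : incl t = heckeGenAt N ⟨ℓ, hℓ⟩ := by
    rw [heckeGenAt, dif_neg hℓN]
    rfl
  let f : CuspForm.heckeAlgebra N 2 (↑S : Set ℕ) →+*
      Matrix (Fin F.H.r) (Fin F.H.r) (ZMod (p ^ (n + c))) :=
    (Int.castRingHom (ZMod (p ^ (n + c)))).mapMatrix.comp ι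
  set g : Matrix (Fin F.H.r) (Fin F.H.r) (ZMod (p ^ (n + c))) :=
    (F.galMatrix τ).map (PadicInt.toZModPow (n + c)) with hg
  let Ψ := (PadicInt.toZModPow (p := p) (n + c)).mapMatrix (m := Fin F.H.r)
  have hΨ : ∀ a, Ψ (F.heckeMatrix (incl a)) = f a := fun a => by
    ext x y
    simp [Ψ, f, ι, TorsionFrame.heckeMatrix]
  have hgc : ∀ a, Commute (f a) g := fun a => by
    rw [← hΨ, hg]
    exact ((F.commute_galMatrix_heckeMatrix hF.hecke_comm τ (incl a)).symm).map Ψ
  have hrel : g ^ 2 - f t * g + f (ℓ : CuspForm.heckeAlgebra N 2 (↑S : Set ℕ)) = 0 := by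
    have := congrArg Ψ (F.galMatrix_quadratic ⟨ℓ, hℓ⟩
      (fun m x hx => hF.frobenius ⟨ℓ, hℓ⟩ hℓN hℓp A hA τ hτ m x hx))
    rw [map_add, map_sub, map_mul, map_mul, map_zero, ← hgen, hΨ, map_natCast] at this
    rw [pow_two, map_natCast]
    exact this
  have hpow := pow_quadratic f hgc hrel j
  have hgj : (F.galMatrix σ).map (PadicInt.toZModPow (n + c)) = g ^ j := by
    rw [hGmod, map_pow, hg]
    exact map_pow Ψ _ _
  have huni := galMatrix_sq_eq F (hunip P hP σ hσ) (n + c)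
  rw [hgj] at huni
  have hfℓ : f (ℓ : CuspForm.heckeAlgebra N 2 (↑S : Set ℕ)) ^ j = 1 := by
    rw [map_natCast, ← Matrix.diagonal_natCast, Matrix.diagonal_pow, Pi.pow_def]
    simp only [hℓj, Matrix.diagonal_one]
  rw [hfℓ] at hpow
  have hzero : f (2 - cj) = 0 := by
    have hmul : f (2 - cj) * g ^ j = 0 := by
      rw [map_sub, map_ofNat, sub_mul]
      calc 2 * g ^ j - f cj * g ^ j
          = ((g ^ j) ^ 2 - f cj * g ^ j + 1) - ((g ^ j) ^ 2 - 2 * g ^ j + 1) := by abel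
        _ = 0 := by rw [hpow, huni, sub_zero]
    have hinv : g ^ j * (F.galMatrix (τ ^ j)⁻¹).map (PadicInt.toZModPow (n + c)) = 1 := by
      have hgΨ : g ^ j = Ψ (F.galMatrix (τ ^ j)) := by rw [map_pow, map_pow]; rfl
      rw [hgΨ]
      show Ψ _ * Ψ _ = 1
      rw [← map_mul, ← map_mul, mul_inv_cancel, map_one, map_one]
    calc f (2 - cj) = f (2 - cj) * (g ^ j * _) := by rw [hinv, mul_one]
      _ = 0 := by rw [← mul_assoc, hmul, zero_mul]
  have hdvd := hc (n + c) (2 - cj) fun a e => by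
    have := congrFun (congrFun hzero a) e
    simp only [f, RingHom.coe_comp, Function.comp_apply, RingHom.mapMatrix_apply,
      Matrix.map_apply, Matrix.zero_apply, eq_intCast] at this
    exact_mod_cast (ZMod.intCast_zmod_eq_zero_iff_dvd _ _).1 this
  rw [Nat.add_sub_cancel] at hdvd
  obtain ⟨a, ha⟩ := hdvd
  have hπ : 2 - H.π cj ∈ maximalIdeal T ^ n := by
    rw [← map_ofNat H.π 2, ← map_sub, ha, map_mul, map_pow, map_natCast]
    exact Ideal.mul_mem_right _ _ (Ideal.pow_mem_pow hpT n)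
  have hchar : (R τ).charpoly = X ^ 2 - C (H.π t) * X + C ((ℓ : T)) :=
    (hcp τ).trans (H.charpoly_frob ℓ hℓ hℓN (by simpa using hℓS) A hA τ hτ)
  have htr : (R (τ ^ j)).trace = H.π cj := by
    rw [map_pow, trace_pow_fin_two hchar, map_powTrace, map_natCast]
  have hdet : (R (τ ^ j)).det = (ℓ : T) ^ j := by
    rw [map_pow, Matrix.det_pow, Matrix.det_eq_sign_charpoly_coeff, hchar]
    simp [coeff_X_pow, coeff_C]
  constructor
  · have h := congrArg Matrix.trace hRmod
    rw [← AddMonoidHom.map_trace, ← AddMonoidHom.map_trace] at h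
    have h' : (R σ).trace - (R (τ ^ j)).trace ∈ maximalIdeal T ^ n := Ideal.Quotient.eq.1 h
    rw [htr] at h'
    have := sub_mem h' hπ
    convert this using 1
    ring
  · have h := congrArg Matrix.det hRmod
    rw [← RingHom.mapMatrix_apply, ← RingHom.mapMatrix_apply, ← RingHom.map_det,
      ← RingHom.map_det] at h
    have h' : (R σ).det - (R (τ ^ j)).det ∈ maximalIdeal T ^ n := Ideal.Quotient.eq.1 h
    rw [hdet] at h'
    have hℓ1 : (ℓ : T) ^ j - 1 ∈ maximalIdeal T ^ n := by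
      have h2 : ((p : ℤ) ^ (n + c)) ∣ (ℓ : ℤ) ^ j - 1 := by
        have : (((ℓ : ℤ) ^ j - 1 : ℤ) : ZMod (p ^ (n + c))) = 0 := by
          push_cast
          rw [hℓj, sub_self]
        exact_mod_cast (ZMod.intCast_zmod_eq_zero_iff_dvd _ _).1 this
      obtain ⟨e, he⟩ := h2
      have := congrArg (Int.cast : ℤ → T) he
      push_cast at this
      rw [this, pow_add, mul_assoc]
      exact Ideal.mul_mem_right _ _ (Ideal.pow_mem_pow hpT n)
    have := add_mem h' hℓ1
    convert this using 1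
    ring

end Fermat.Agent.BadReduction

end
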