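/-
S34, bad reduction of `X₀(Mq)`: inertia at `q` acts on the torsion of `J₀(Mq)` prime to `q`
with `(τ - 1) (σ - 1) = 0`.
-/
import Fermat.Agent.BadReduction.X0Conductor
import Fermat.Agent.Mazur.LocalToric

set_option autoImplicit false
set_option linter.style.haveILetI false

noncomputable section

open ModularCurve IntermediateField IsLocalRing AlgebraicCurve
open Fermat.Agent.Curve Fermat.Agent.Bad

namespace Fermat.Agent.BadReduction

local notation "ℚbar" => AlgebraicClosure ℚ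

variable {M q : ℕ} [NeZero M] [hq : Fact q.Prime]

local instance neZero_primeUnip : NeZero q := ⟨hq.out.ne_zero⟩

variable (hqM : ¬ q ∣ M) (A : ValuationSubring ℚbar) (hA : A.LiesOverPrime q)

include hqM hA in
/-- Inertia at `q` fixes `σ x - x` for inertial `σ` and torsion `x` of order prime to `q`. -/
theorem inertia_smul_sub_smul_sub {σ τ : ℚbar ≃ₐ[ℚ] ℚbar} (hσ : σ ∈ A.inertiaSubgroupIn ℚ)
    (hτ : τ ∈ A.inertiaSubgroupIn ℚ) {n : ℕ} (hn : ¬ q ∣ n) {x : JZero (M * q)}
    (hx : n • x = 0) : τ • (σ • x - x) = σ • x - x := by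
  classical
  haveI := charP_residueField A hq.out hA
  have hn' : (n : ResidueField A) ≠ 0 := fun h => hn ((CharP.cast_eq_zero_iff _ q n).1 h)
  obtain ⟨B, hreg, hmeets, hZ⟩ := exists_conductor_proof hqM A hA
  let R := x0Reduction hqM A hA
  let G := Gluing.ofVanishing R B hreg hmeets hZ
  have hG : G.IsSeminormal := Gluing.ofVanishing_isSeminormal R B hreg hmeets hZ
  rw [galois_smul_pic0_def, galois_smul_pic0_def]
  exact IsInertial.smul_sub_smul_sub G (Mazur.rankLeOne_of_liesOverPrime hq.out hA) q hG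
    (Mazur.isInertial_galois hqM A hA hσ) (Mazur.isInertial_galois hqM A hA hτ) hn'
    (Pic0.mem_torsion.2 (by rw [natCast_zsmul]; exact hx))

include hqM hA in
/-- Inertia at `q` is unipotent of level two on torsion prime to `q`. -/
theorem inertia_sq_eq_zero {σ : ℚbar ≃ₐ[ℚ] ℚbar} (hσ : σ ∈ A.inertiaSubgroupIn ℚ) {n : ℕ}
    (hn : ¬ q ∣ n) {x : JZero (M * q)} (hx : n • x = 0) :
    σ • σ • x - 2 • (σ • x) + x = 0 := by
  have h := inertia_smul_sub_smul_sub hqM A hA hσ hσ hn hx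
  rw [smul_sub] at h
  rw [two_nsmul]
  have h' : σ • σ • x = σ • x + (σ • x - x) := by rw [← h]; abel
  rw [h']
  abel

/-- The same, with the level written as `N` exactly divisible by `q`. -/
theorem inertia_sq_eq_zero_of_dvd {N q : ℕ} [NeZero N] (hq : q.Prime) (hqN : q ∣ N)
    (hq2 : ¬ q ^ 2 ∣ N) {A : ValuationSubring ℚbar} (hA : A.LiesOverPrime q)
    {σ : ℚbar ≃ₐ[ℚ] ℚbar} (hσ : σ ∈ A.inertiaSubgroupIn ℚ) {n : ℕ} (hn : ¬ q ∣ n)
    {x : JZero N} (hx : n • x = 0) : σ • σ • x - 2 • (σ • x) + x = 0 := by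
  obtain ⟨M, rfl⟩ := hqN
  haveI : NeZero M := ⟨fun h => NeZero.ne (q * M) (by rw [h, mul_zero])⟩
  haveI := Fact.mk hq
  have hqM : ¬ q ∣ M := fun h => hq2 (by rw [pow_two]; exact mul_dvd_mul_left q h)
  revert x
  rw [mul_comm q M]
  intro x hx
  exact inertia_sq_eq_zero hqM A hA hσ hn hx

end Fermat.Agent.BadReduction

end
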